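import Fermat.Agent.ModPoly.Expands

/-!
# Rescaling Laurent expansions
-/

set_option autoImplicit false

noncomputable section

open Filter Function Complex
open UpperHalfPlane hiding I
open scoped Real Topology

namespace FLTAgent.ModPoly

local notation "𝕢" => Periodic.qParam

section Twist

variable {R : Type*} [CommRing R]

/-- The substitution `q ↦ c * q` on Laurent series. -/
def twist (c : Rˣ) : LaurentSeries R →+* LaurentSeries R where
  toFun x :=
    { coeff := fun k => ((c ^ k : Rˣ) : R) * x.coeff k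
      isPWO_support' := x.isPWO_support.mono fun k hk => by
        simp only [Function.mem_support] at hk
        simp only [HahnSeries.mem_support]
        exact fun h => hk (by rw [h, mul_zero]) }
  map_one' := by
    ext k
    rcases eq_or_ne k 0 with rfl | hk <;> simp [HahnSeries.coeff_one, *]
  map_mul' x y := by
    ext k
    rw [HahnSeries.coeff_mul]
    change ((c ^ k : Rˣ) : R) * (x * y).coeff k = _
    rw [HahnSeries.coeff_mul, Finset.mul_sum]
    refine Finset.sum_congr ?_ fun ij hij => ?_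
    · ext ij
      simp [HahnSeries.mem_support, Units.mul_right_eq_zero]
    · rw [Finset.mem_addAntidiagonal] at hij
      rw [← hij.2.2, zpow_add, Units.val_mul]
      ring
  map_zero' := by
    ext k
    simp
  map_add' x y := by
    ext k
    simp [mul_add]

@[simp]
theorem twist_coeff (c : Rˣ) (x : LaurentSeries R) (k : ℤ) :
    (twist c x).coeff k = ((c ^ k : Rˣ) : R) * x.coeff k :=
  rfl

@[simp]
theorem twist_single (c : Rˣ) (k : ℤ) (r : R) :
    twist c (HahnSeries.single k r) = HahnSeries.single k (((c ^ k : Rˣ) : R) * r) := by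
  ext j
  rcases eq_or_ne j k with rfl | h
  · simp
  · simp [HahnSeries.coeff_single_of_ne h]

@[simp]
theorem twist_C (c : Rˣ) (r : R) : twist c (HahnSeries.C r) = HahnSeries.C r := by
  simp [HahnSeries.C_apply]

theorem twist_one_unit (x : LaurentSeries R) : twist 1 x = x := by
  ext k
  simp

theorem twist_twist (c d : Rˣ) (x : LaurentSeries R) : twist c (twist d x) = twist (c * d) x := by
  ext k
  simp [mul_zpow]
  ring

theorem twist_ofPowerSeries (c : Rˣ) (p : PowerSeries R) :
    twist c (HahnSeries.ofPowerSeries ℤ R p)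
      = HahnSeries.ofPowerSeries ℤ R (PowerSeries.rescale (c : R) p) := by
  ext k
  rw [twist_coeff]
  rcases le_or_gt 0 k with hk | hk
  · lift k to ℕ using hk
    rw [HahnSeries.ofPowerSeries_apply_coeff, HahnSeries.ofPowerSeries_apply_coeff,
      PowerSeries.coeff_rescale, zpow_natCast, Units.val_pow_eq_pow_val]
  · rw [ModularCurve.ofPowerSeries_coeff_of_neg _ hk,
      ModularCurve.ofPowerSeries_coeff_of_neg _ hk, mul_zero]

theorem qExpand_ofPowerSeries (k : ℕ) [NeZero k] (p : PowerSeries R) :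
    ModularCurve.qExpand R k (HahnSeries.ofPowerSeries ℤ R p)
      = HahnSeries.ofPowerSeries ℤ R (PowerSeries.expand k (NeZero.ne k) p) := by
  ext j
  rcases le_or_gt 0 j with hj | hj
  · lift j to ℕ using hj
    rw [HahnSeries.ofPowerSeries_apply_coeff]
    by_cases hd : k ∣ j
    · obtain ⟨m, rfl⟩ := hd
      rw [PowerSeries.coeff_expand_mul, show ((k * m : ℕ) : ℤ) = (k : ℤ) * (m : ℤ) by push_cast; ring,
        ModularCurve.qExpand_coeff_mul, HahnSeries.ofPowerSeries_apply_coeff]
    · rw [PowerSeries.coeff_expand_of_not_dvd k (NeZero.ne k) _ hd,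
        ModularCurve.qExpand_coeff_of_not_dvd k _ (by exact_mod_cast hd)]
  · rw [ModularCurve.ofPowerSeries_coeff_of_neg _ hj]
    by_cases hd : (k : ℤ) ∣ j
    · obtain ⟨m, rfl⟩ := hd
      rw [ModularCurve.qExpand_coeff_mul]
      refine ModularCurve.ofPowerSeries_coeff_of_neg _ ?_
      by_contra hm
      push Not at hm
      exact absurd hj (not_lt.mpr (mul_nonneg (Int.natCast_nonneg k) hm))
    · rw [ModularCurve.qExpand_coeff_of_not_dvd k _ hd]

theorem coeffMap_twist {S : Type*} [CommRing S] (f : R →+* S) (c : Rˣ) (x : LaurentSeries R) :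
    ModularCurve.coeffMap f (twist c x)
      = twist (Units.map (f : R →* S) c) (ModularCurve.coeffMap f x) := by
  ext k
  simp [← map_zpow]

end Twist

theorem taylorPS_comp_scale {F : ℂ → ℂ} (hF : AnalyticAt ℂ F 0) (c : ℂ) {k : ℕ} (hk : k ≠ 0) :
    AnalyticAt ℂ (fun q => F (c * q ^ k)) 0 ∧
      taylorPS (fun q => F (c * q ^ k))
        = PowerSeries.expand k hk (PowerSeries.rescale c (taylorPS F)) := by
  apply taylorPS_eq_of_eventually_hasSum
  have ht : Tendsto (fun q : ℂ => c * q ^ k) (𝓝 0) (𝓝 0) := by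
    simpa [hk] using ((continuous_pow k).const_mul c |>.tendsto (0 : ℂ))
  filter_upwards [ht.eventually (eventually_hasSum_taylorPS hF)] with q hq
  refine (Function.Injective.hasSum_iff (mul_right_injective₀ hk) ?_).mp (hq.congr_fun fun n => ?_)
  · intro m hm
    rw [PowerSeries.coeff_expand_of_not_dvd k hk _ (fun ⟨l, hl⟩ => hm ⟨l, hl.symm⟩), zero_mul]
  · simp only [comp_apply, PowerSeries.coeff_expand_mul, PowerSeries.coeff_rescale]
    ring

/-- Pull back along a map of `ℍ` which is `q ↦ c * q ^ k` on parameters. -/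
theorem Expands.comp_scale {h h' k : ℕ} [NeZero h] [NeZero h'] [NeZero k] (c : ℂˣ)
    {φ : ℍ → ℍ} (hφ : Tendsto φ atImInfty atImInfty)
    (hq : ∀ τ, 𝕢 h (φ τ) = c * 𝕢 h' τ ^ k) {f : ℍ → ℂ} {x : LaurentSeries ℂ}
    (hf : Expands h f x) :
    Expands h' (fun τ => f (φ τ)) (ModularCurve.qExpand ℂ k (twist c x)) := by
  obtain ⟨m, F, hF, rfl, hev⟩ := hf
  obtain ⟨hG, hGt⟩ := taylorPS_comp_scale hF (c : ℂ) (NeZero.ne k)
  refine ⟨(k : ℤ) * m, (fun _ => ((c ^ m : ℂˣ) : ℂ)) * fun q => F ((c : ℂ) * q ^ k),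
    analyticAt_const.mul hG, ?_, ?_⟩
  · rw [taylorPS_mul analyticAt_const hG, taylorPS_const, hGt, map_mul, map_mul,
      twist_single, twist_ofPowerSeries, qExpand_ofPowerSeries, ModularCurve.qExpand_single,
      map_mul (HahnSeries.ofPowerSeries ℤ ℂ), HahnSeries.ofPowerSeries_C, HahnSeries.C_apply,
      ← mul_assoc, HahnSeries.single_mul_single, add_zero, mul_one, one_mul]
  · filter_upwards [hφ.eventually hev] with τ hτ
    rw [hτ, hq, mul_zpow, Pi.mul_apply, ← zpow_natCast (𝕢 h' τ) k, ← zpow_mul]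
    simp
    ring

/-- Change of width. -/
theorem Expands.width_mul {h k : ℕ} [NeZero h] [NeZero k] {f : ℍ → ℂ} {x : LaurentSeries ℂ}
    (hf : Expands h f x) : Expands (h * k) f (ModularCurve.qExpand ℂ k x) := by
  haveI : NeZero (h * k) := ⟨Nat.mul_ne_zero (NeZero.ne h) (NeZero.ne k)⟩
  have := hf.comp_scale (h' := h * k) (k := k) 1 (φ := id) tendsto_id fun τ => by
    simp only [id, Units.val_one, one_mul, Periodic.qParam, ← Complex.exp_nat_mul]
    congr 1
    have hh : (h : ℂ) ≠ 0 := by exact_mod_cast NeZero.ne h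
    have hk : (k : ℂ) ≠ 0 := by exact_mod_cast NeZero.ne k
    push_cast
    field_simp
  simpa [twist_one_unit] using this

theorem Expands.mem_expRing_width {h h' : ℕ} [NeZero h] [NeZero h'] (hd : h ∣ h') {f : ℍ → ℂ}
    {x : LaurentSeries ℂ} (hf : Expands h f x) : f ∈ expRing h' := by
  obtain ⟨k, rfl⟩ := hd
  haveI : NeZero k := ⟨fun e => NeZero.ne (h * k) (by simp [e])⟩
  exact hf.width_mul.mem_expRing

end FLTAgent.ModPoly
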