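import Mathlib.NumberTheory.ModularForms.LevelOne.GradedRing
import Mathlib.NumberTheory.Bernoulli
import Fermat.Prelude.Def_ModularCurve_JqCoeff
import Fermat.Agent.ModPoly.Scale

/-!
# The `j` function and its expansion
-/

set_option autoImplicit false

noncomputable section

open Filter Function Complex
open UpperHalfPlane hiding I
open scoped Real Topology MatrixGroups ModularForm Manifold PowerSeries.WithPiTopology
open Matrix.SpecialLinearGroup (mapGL)

namespace FLTAgent.ModPoly

local notation "𝕢" => Periodic.qParam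

theorem tendstoLocallyUniformlyOn_iteratedDeriv {ι : Type*} {l : Filter ι} [l.NeBot]
    {F : ι → ℂ → ℂ} {f : ℂ → ℂ} {U : Set ℂ} (hU : IsOpen U)
    (hf : TendstoLocallyUniformlyOn F f l U) (hd : ∀ i, DifferentiableOn ℂ (F i) U) (m : ℕ) :
    TendstoLocallyUniformlyOn (fun i => iteratedDeriv m (F i)) (iteratedDeriv m f) l U := by
  induction m with
  | zero => simpa using hf
  | succ m ih =>
    have hdm : ∀ i, DifferentiableOn ℂ (iteratedDeriv m (F i)) U := fun i => by
      rw [iteratedDeriv_eq_iterate]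
      exact (((hd i).analyticOnNhd hU).iterated_deriv m).differentiableOn
    have h := ih.deriv (Eventually.of_forall hdm) hU
    simp only [iteratedDeriv_succ]
    exact h

theorem analyticAt_tprod_one_sub_pow :
    AnalyticAt ℂ (fun q : ℂ => ∏' n : ℕ, (1 - q ^ (n + 1))) 0 :=
  ModularForm.differentiableOn_tprod_one_sub_pow.analyticAt
    (Metric.ball_mem_nhds (0 : ℂ) one_pos)

theorem taylorPS_tprod_one_sub_pow :
    taylorPS (fun q : ℂ => ∏' n : ℕ, (1 - q ^ (n + 1)))
      = ModularCurve.etaProd.map (Int.castRingHom ℂ) := by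
  ext m
  set F : Finset ℕ → ℂ → ℂ := fun s q => ∏ n ∈ s, (1 - q ^ (n + 1))
  have hlim := tendstoLocallyUniformlyOn_iteratedDeriv (F := F) (l := atTop) Metric.isOpen_ball
    ModularForm.multipliableLocallyUniformlyOn_one_sub_pow.hasProdLocallyUniformlyOn
    (fun s => by
      refine DifferentiableOn.congr
        (f := ∏ n ∈ s, fun q : ℂ => 1 - q ^ (n + 1)) ?_ (fun q _ => by simp [F])
      exact DifferentiableOn.finsetProd fun _ _ => by fun_prop) m
  have hps : ∀ s, AnalyticAt ℂ (F s) 0 ∧ taylorPS (F s) =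
      PowerSeries.map (Int.castRingHom ℂ) (∏ n ∈ s, (1 - PowerSeries.X ^ (n + 1))) := by
    intro s
    induction s using Finset.induction_on with
    | empty =>
      simpa [F] using (show AnalyticAt ℂ (fun _ : ℂ => (1 : ℂ)) 0 ∧
        taylorPS (fun _ : ℂ => (1 : ℂ)) = 1 from ⟨analyticAt_const, by simp [taylorPS_const]⟩)
    | insert a s ha ih =>
      obtain ⟨h1, h2⟩ := ih
      have hG : AnalyticAt ℂ (fun q : ℂ => 1 - q ^ (a + 1)) 0 := by fun_prop
      have he : F (insert a s) = (fun q : ℂ => 1 - q ^ (a + 1)) * F s := by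
        funext q; simp [F, Finset.prod_insert ha]
      refine ⟨he ▸ hG.mul h1, ?_⟩
      rw [he, taylorPS_mul hG h1, h2, Finset.prod_insert ha, map_mul]
      congr 1
      have hadd := taylorPS_add (F := fun _ : ℂ => (1 : ℂ))
        (G := (fun _ : ℂ => (-1 : ℂ)) * fun q => q ^ (a + 1)) analyticAt_const (by fun_prop)
      rw [taylorPS_mul analyticAt_const (by fun_prop), taylorPS_const, taylorPS_const,
        taylorPS_pow_id, map_one, map_neg, map_one, neg_one_mul, ← sub_eq_add_neg] at hadd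
      rw [map_sub, map_one, map_pow, PowerSeries.map_X, ← hadd]
      congr 1
      funext q
      simp [sub_eq_add_neg]
  have h1 : Tendsto (fun s => (taylorPS (F s)).coeff m) atTop
      (𝓝 ((taylorPS fun q : ℂ => ∏' n : ℕ, (1 - q ^ (n + 1))).coeff m)) := by
    simp only [coeff_taylorPS]
    exact (hlim.tendsto_at (Metric.mem_ball_self one_pos)).const_mul _
  have h2 : Tendsto (fun s => (taylorPS (F s)).coeff m) atTop
      (𝓝 ((ModularCurve.etaProd.map (Int.castRingHom ℂ)).coeff m)) := by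
    simp only [(hps _).2, PowerSeries.coeff_map]
    refine ((continuous_of_discreteTopology
      (f := fun z : ℤ => Int.castRingHom ℂ z)).tendsto _).comp ?_
    exact ((PowerSeries.WithPiTopology.continuous_coeff ℤ m).tendsto _).comp
      (PowerSeries.WithPiTopology.multipliable_one_sub_X_pow ℤ).hasProd
  exact tendsto_nhds_unique h1 h2

theorem expands_discriminant :
    Expands 1 ModularForm.discriminant
      (HahnSeries.single 1 1 * HahnSeries.ofPowerSeries ℤ ℂ
        (ModularCurve.dedekindEtaUnit.map (Int.castRingHom ℂ))) := by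
  refine ⟨1, (fun q : ℂ => ∏' n : ℕ, (1 - q ^ (n + 1))) ^ 24,
    analyticAt_tprod_one_sub_pow.pow 24, ?_, Eventually.of_forall fun τ => ?_⟩
  · rw [taylorPS_pow analyticAt_tprod_one_sub_pow, taylorPS_tprod_one_sub_pow, ← map_pow]
    rfl
  · rw [ModularForm.discriminant_eq_q_prod, Pi.pow_apply, zpow_one, Nat.cast_one]
    congr 1
    exact (ModularForm.multipliable_one_sub_pow
      (by simpa using Periodic.norm_qParam_lt_one one_pos τ.im_pos)).tprod_pow 24

/-- A bounded periodic holomorphic function has its `q`-expansion as its Laurent expansion. -/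
theorem expands_qExpansion {h : ℕ} [NeZero h] {f : ℍ → ℂ}
    (hfper : Periodic (f ∘ ofComplex) (h : ℝ)) (hfhol : MDiff f)
    (hfbdd : IsBoundedAtImInfty f) :
    Expands h f (HahnSeries.ofPowerSeries ℤ ℂ (qExpansion (h : ℝ) f)) := by
  have hh : (0 : ℝ) < h := by exact_mod_cast Nat.pos_of_ne_zero (NeZero.ne h)
  refine ⟨0, cuspFunction h f, analyticAt_cuspFunction_zero hh hfper hfhol hfbdd, ?_,
    Eventually.of_forall fun τ => ?_⟩
  · rw [show HahnSeries.single (0 : ℤ) (1 : ℂ) = 1 from rfl, one_mul]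
    rfl
  · rw [zpow_zero, one_mul, eq_cuspFunction τ hh.ne' hfper]

theorem qExpansion_E₄ :
    qExpansion 1 (ModularForm.E₄ : ℍ → ℂ)
      = ModularCurve.eisenstein4.map (Int.castRingHom ℂ) := by
  ext m
  have hb : bernoulli 4 = -1 / 30 := by
    rw [bernoulli_eq_bernoulli'_of_ne_one (by norm_num), bernoulli'_four]
  rw [EisensteinSeries.E_qExpansion_coeff _ ⟨2, rfl⟩, PowerSeries.coeff_map]
  rcases eq_or_ne m 0 with rfl | hm
  · simp [ModularCurve.eisenstein4]
  · simp [ModularCurve.eisenstein4, hm, hb, ArithmeticFunction.sigma_apply]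
    norm_num

theorem expands_E₄ :
    Expands 1 (ModularForm.E₄ : ℍ → ℂ)
      (HahnSeries.ofPowerSeries ℤ ℂ (ModularCurve.eisenstein4.map (Int.castRingHom ℂ))) := by
  rw [← qExpansion_E₄]
  have := expands_qExpansion (h := 1) (f := (ModularForm.E₄ : ℍ → ℂ))
    (by
      simpa using SlashInvariantFormClass.periodic_comp_ofComplex ModularForm.E₄
        one_mem_strictPeriods_SL)
    (ModularFormClass.holo _) (by
      haveI : Fact (IsCusp OnePoint.infty (𝒮ℒ : Subgroup (GL (Fin 2) ℝ))) :=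
        ⟨Subgroup.isCusp_of_mem_strictPeriods one_pos one_mem_strictPeriods_SL⟩
      exact ModularFormClass.bdd_at_infty _)
  rwa [Nat.cast_one] at this

/-- The modular `j`-function. -/
def jFun (τ : ℍ) : ℂ := ModularForm.E₄ τ ^ 3 / ModularForm.discriminant τ

theorem mdifferentiable_jFun : MDiff jFun := by
  have hΔ : MDiff (CuspForm.discriminant : ℍ → ℂ) := CuspForm.discriminant.holo'
  exact ((ModularFormClass.holo ModularForm.E₄).pow 3).div hΔ ModularForm.discriminant_ne_zero

theorem jFun_smul (γ : SL(2, ℤ)) (τ : ℍ) : jFun (γ • τ) = jFun τ := by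
  have hmem : ∀ g : SL(2, ℤ), (g : GL (Fin 2) ℝ) ∈ 𝒮ℒ := fun g => ⟨g, rfl⟩
  have h4 := congr_fun
    (SlashInvariantFormClass.slash_action_eq ModularForm.E₄ _ (hmem γ)) τ
  have h12 := congr_fun
    (SlashInvariantFormClass.slash_action_eq CuspForm.discriminant _ (hmem γ)) τ
  rw [← ModularForm.SL_slash, ModularForm.SL_slash_apply] at h4 h12
  rw [CuspForm.coe_discriminant] at h12
  have hd : denom γ τ ≠ 0 := denom_ne_zero γ τ
  simp only [jFun]
  rw [← h4, ← h12, mul_pow, ← zpow_natCast (denom γ τ ^ (-4 : ℤ)) 3, ← zpow_mul,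
    show ((-4 : ℤ) * (3 : ℕ)) = -12 by norm_num, mul_div_mul_right _ _ (zpow_ne_zero _ hd)]

theorem eisenstein4_cubed_ne_zero :
    (ModularCurve.eisenstein4.map (Int.castRingHom ℂ)) ^ 3 ≠ 0 := by
  intro h
  have := congr_arg (PowerSeries.constantCoeff (R := ℂ)) h
  simp [map_pow] at this
  rw [← PowerSeries.coeff_zero_eq_constantCoeff, PowerSeries.coeff_map] at this
  simp at this

theorem expands_jFun : Expands 1 jFun (ModularCurve.jqModC ℂ) := by
  set D : PowerSeries ℂ := ModularCurve.dedekindEtaUnit.map (Int.castRingHom ℂ)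
  set D' : PowerSeries ℂ := ModularCurve.dedekindEtaUnitInv.map (Int.castRingHom ℂ)
  have hDD : HahnSeries.ofPowerSeries ℤ ℂ D * HahnSeries.ofPowerSeries ℤ ℂ D' = 1 := by
    rw [← map_mul, ← map_mul, ModularCurve.dedekindEtaUnit_mul_inv, map_one, map_one]
  have hne : HahnSeries.single (1 : ℤ) (1 : ℂ) * HahnSeries.ofPowerSeries ℤ ℂ D ≠ 0 :=
    mul_ne_zero (HahnSeries.single_ne_zero one_ne_zero) (left_ne_zero_of_mul_eq_one hDD)
  have hinv : (HahnSeries.single (1 : ℤ) (1 : ℂ) * HahnSeries.ofPowerSeries ℤ ℂ D)⁻¹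
      = HahnSeries.single (-1 : ℤ) 1 * HahnSeries.ofPowerSeries ℤ ℂ D' := by
    refine inv_eq_of_mul_eq_one_right ?_
    rw [mul_mul_mul_comm, hDD, HahnSeries.single_mul_single]
    simp
  have h := (expands_E₄.pow 3).mul (expands_discriminant.inv hne)
  rw [hinv] at h
  have he : ModularCurve.jqModC ℂ
      = HahnSeries.ofPowerSeries ℤ ℂ (ModularCurve.eisenstein4.map (Int.castRingHom ℂ)) ^ 3 *
        (HahnSeries.single (-1 : ℤ) 1 * HahnSeries.ofPowerSeries ℤ ℂ D') := by
    rw [ModularCurve.jqModC, ModularCurve.jNum, map_mul, map_pow, map_mul, map_pow]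
    ring
  rw [he]
  exact h.congr_fun' (Eventually.of_forall fun τ => by simp [jFun, div_eq_mul_inv])

/-- Identity theorem at `i∞`. -/
theorem eq_zero_of_eventually_atImInfty {f : ℍ → ℂ} (hf : MDiff f)
    (h : f =ᶠ[atImInfty] 0) : f = 0 := by
  obtain ⟨A, hA⟩ := (atImInfty_mem _).mp h
  have han : AnalyticOnNhd ℂ (f ∘ ofComplex) upperHalfPlaneSet :=
    (UpperHalfPlane.mdifferentiable_iff.mp hf).analyticOnNhd isOpen_upperHalfPlaneSet
  set τ₀ : ℍ := ⟨((max A 0 + 1 : ℝ) : ℂ) * Complex.I, by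
    simp only [Complex.mul_im, Complex.ofReal_re, Complex.ofReal_im, Complex.I_re, Complex.I_im]
    linarith [le_max_right A 0]⟩
  have h₀ : (τ₀ : ℂ) ∈ upperHalfPlaneSet := τ₀.im_pos
  have hev : (f ∘ ofComplex) =ᶠ[𝓝 (τ₀ : ℂ)] 0 := by
    have hlt : A < (τ₀ : ℂ).im := by
      simp [τ₀]
      linarith [le_max_left A 0]
    filter_upwards [(isOpen_upperHalfPlaneSet.mem_nhds h₀),
      (Complex.continuous_im.isOpen_preimage _ isOpen_Ioi).mem_nhds (show (τ₀ : ℂ) ∈ Complex.im ⁻¹' Set.Ioi A
        from hlt)] with z hz hzA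
    simpa [ofComplex_apply_of_im_pos hz] using hA ⟨z, hz⟩ (le_of_lt hzA)
  have key := han.eqOn_zero_of_preconnected_of_eventuallyEq_zero
    (Convex.isPreconnected (convex_halfSpace_im_gt 0)) h₀ hev
  funext τ
  simpa using key τ.im_pos

theorem eq_of_expands {h : ℕ} [NeZero h] {f g : ℍ → ℂ} {x : LaurentSeries ℂ} (hf : MDiff f)
    (hg : MDiff g) (hfx : Expands h f x) (hgx : Expands h g x) : f = g := by
  have h0 := hfx.sub hgx
  rw [sub_self] at h0
  exact sub_eq_zero.mp (eq_zero_of_eventually_atImInfty (hf.sub hg) h0.eq_zero_of_expands_zero)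

end FLTAgent.ModPoly
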