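import Mathlib.NumberTheory.ModularForms.CongruenceSubgroups
import Fermat.Agent.ModPoly.J

/-!
# The ring of modular functions of level `N` holomorphic on `ℍ`
-/

set_option autoImplicit false

noncomputable section

open Filter Function Complex CongruenceSubgroup
open UpperHalfPlane hiding I
open scoped Real Topology MatrixGroups ModularForm Manifold
open Matrix.SpecialLinearGroup (mapGL)

namespace FLTAgent.ModPoly

local notation "𝕢" => Periodic.qParam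

/-- Normalising the leading exponent of an expansion. -/
theorem Expands.of_coeff_eq_zero {h : ℕ} [NeZero h] {f : ℍ → ℂ} {x : LaurentSeries ℂ}
    (hf : Expands h f x) (n : ℤ) (hx : ∀ k < n, x.coeff k = 0) :
    ∃ F : ℂ → ℂ, AnalyticAt ℂ F 0 ∧
      x = HahnSeries.single n 1 * HahnSeries.ofPowerSeries ℤ ℂ (taylorPS F) ∧
      ∀ᶠ τ : ℍ in atImInfty, f τ = 𝕢 h τ ^ n * F (𝕢 h τ) := by
  obtain ⟨m₀, hm⟩ := hf.shift
  obtain ⟨F, hF, hxF, hev⟩ := hm (min m₀ n) (min_le_left _ _)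
  obtain ⟨k, hk⟩ : ∃ k : ℕ, n = min m₀ n + k := ⟨(n - min m₀ n).toNat, by omega⟩
  generalize min m₀ n = j at *
  subst hk
  have hcoef : ∀ i : ℕ, i < k → iteratedDeriv i F 0 = 0 := by
    intro i hi
    have h0 := hx (j + i) (by omega)
    rw [hxF, HahnSeries.coeff_single_mul, one_mul, add_sub_cancel_left,
      HahnSeries.ofPowerSeries_apply_coeff, coeff_taylorPS] at h0
    simpa [Nat.factorial_ne_zero] using h0
  obtain ⟨G, hG, hFG⟩ := (natCast_le_analyticOrderAt hF).mp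
    ((natCast_le_analyticOrderAt_iff_iteratedDeriv_eq_zero hF).mpr hcoef)
  have hFG' : F =ᶠ[𝓝 0] (fun q => q ^ k) * G := by
    filter_upwards [hFG] with q hq; simpa using hq
  refine ⟨G, hG, ?_, ?_⟩
  · rw [hxF, taylorPS_congr hFG', ← Expands.single_mul_taylorPS j hG]
  · filter_upwards [hev, eventually_atImInfty_of_nhds (NeZero.ne h) hFG'] with τ h1 h2
    rw [h1, h2, zpow_add₀ (Periodic.qParam_ne_zero _)]
    simp [mul_assoc]

theorem Expands.isBoundedAtImInfty {h : ℕ} [NeZero h] {f : ℍ → ℂ} {x : LaurentSeries ℂ}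
    (hf : Expands h f x) (hx : ∀ k < 0, x.coeff k = 0) : IsBoundedAtImInfty f := by
  obtain ⟨F, hF, -, hev⟩ := hf.of_coeff_eq_zero 0 hx
  have ht : Tendsto (fun τ : ℍ => F (𝕢 h τ)) atImInfty (𝓝 (F 0)) :=
    hF.continuousAt.tendsto.comp
      (qParam_tendsto_atImInfty (by exact_mod_cast Nat.pos_of_ne_zero (NeZero.ne h)))
  exact (ht.congr' (by filter_upwards [hev] with τ hτ; simp [hτ])).isBigO_one ℝ

theorem periodic_of_vadd {g : ℍ → ℂ} {h : ℝ} (hg : ∀ τ : ℍ, g (h +ᵥ τ) = g τ) :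
    Periodic (g ∘ ofComplex) h := by
  intro w
  by_cases! hw : 0 < w.im
  · have : 0 < (w + h).im := by simp [hw]
    simp only [comp_apply, ofComplex_apply_of_im_pos this, ofComplex_apply_of_im_pos hw]
    convert hg ⟨w, hw⟩ using 2
    ext
    simp [add_comm]
  · have : (w + h).im ≤ 0 := by simpa using hw
    simp [ofComplex_apply_of_im_nonpos this, ofComplex_apply_of_im_nonpos hw]

theorem mdifferentiable_qParam (h : ℝ) : MDiff fun τ : ℍ => 𝕢 h τ := by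
  rw [UpperHalfPlane.mdifferentiable_iff]
  refine DifferentiableOn.congr (f := fun z : ℂ => 𝕢 h z) (by fun_prop) fun z hz => ?_
  simp [ofComplex_apply_of_im_pos hz]

/-- Periodic holomorphic functions with finite order pole at `i∞` have expansions. -/
theorem mem_expRing_of_isBounded {h : ℕ} [NeZero h] {g : ℍ → ℂ} (hg : MDiff g)
    (hper : ∀ τ : ℍ, g ((h : ℝ) +ᵥ τ) = g τ) {m : ℕ}
    (hb : IsBoundedAtImInfty fun τ => 𝕢 h τ ^ m * g τ) : g ∈ expRing h := by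
  set f : ℍ → ℂ := fun τ => 𝕢 h τ ^ m * g τ
  have hh : (h : ℂ) ≠ 0 := by exact_mod_cast NeZero.ne h
  have hqper : ∀ τ : ℍ, 𝕢 h (((h : ℝ) +ᵥ τ : ℍ) : ℂ) = 𝕢 h τ := fun τ => by
    simp only [Periodic.qParam, UpperHalfPlane.coe_vadd]
    rw [Complex.exp_eq_exp_iff_exists_int]
    exact ⟨1, by push_cast; field_simp; ring⟩
  have hfper : ∀ τ : ℍ, f ((h : ℝ) +ᵥ τ) = f τ := fun τ => by simp only [f, hqper, hper]
  have hf : MDiff f := ((mdifferentiable_qParam _).pow m).mul hg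
  obtain ⟨k, F, hF, hx, hev⟩ := expands_qExpansion (periodic_of_vadd hfper) hf hb
  refine ⟨_, k - m, F, hF, rfl, ?_⟩
  filter_upwards [hev] with τ hτ
  have hq := Periodic.qParam_ne_zero (h := (h : ℝ)) (τ : ℂ)
  rw [zpow_sub₀ hq, zpow_natCast, div_mul_eq_mul_div, ← hτ]
  simp only [f]
  rw [mul_div_cancel_left₀ _ (pow_ne_zero m hq)]

theorem smul_T_pow_eq_vadd (n : ℕ) (τ : ℍ) : (ModularGroup.T ^ (n : ℤ)) • τ = (n : ℝ) +ᵥ τ := by
  ext
  rw [ModularGroup.coe_T_zpow_smul_eq, UpperHalfPlane.coe_vadd]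
  push_cast
  ring

theorem Gamma_le_Gamma0 (N : ℕ) : CongruenceSubgroup.Gamma N ≤ Gamma0 N := by
  intro γ hγ
  rw [Gamma0_mem]
  exact (Gamma_mem.mp hγ).2.2.1

/-- Level `N` modular functions, holomorphic on `ℍ`, meromorphic at every cusp. -/
def modFunRing (N : ℕ) : Subalgebra ℂ (ℍ → ℂ) where
  carrier := {g | MDiff g ∧ (∀ γ ∈ Gamma0 N, ∀ τ : ℍ, g (γ • τ) = g τ) ∧
    ∀ γ : SL(2, ℤ), (fun τ : ℍ => g (γ • τ)) ∈ expRing N}
  mul_mem' := fun ⟨a1, a2, a3⟩ ⟨b1, b2, b3⟩ =>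
    ⟨a1.mul b1, fun γ hγ τ => by simp only [Pi.mul_apply, a2 γ hγ τ, b2 γ hγ τ],
      fun γ => (expRing N).mul_mem (a3 γ) (b3 γ)⟩
  add_mem' := fun ⟨a1, a2, a3⟩ ⟨b1, b2, b3⟩ =>
    ⟨a1.add b1, fun γ hγ τ => by simp only [Pi.add_apply, a2 γ hγ τ, b2 γ hγ τ],
      fun γ => (expRing N).add_mem (a3 γ) (b3 γ)⟩
  algebraMap_mem' c :=
    ⟨mdifferentiable_const, fun _ _ _ => rfl, fun _ => ⟨_, Expands.const N c⟩⟩

variable {N : ℕ}

theorem mdifferentiable_of_mem {g : ℍ → ℂ} (hg : g ∈ modFunRing N) : MDiff g := hg.1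

theorem smul_eq_of_mem {g : ℍ → ℂ} (hg : g ∈ modFunRing N) {γ : SL(2, ℤ)} (hγ : γ ∈ Gamma0 N)
    (τ : ℍ) : g (γ • τ) = g τ :=
  hg.2.1 γ hγ τ

theorem comp_smul_mem_expRing {g : ℍ → ℂ} (hg : g ∈ modFunRing N) (γ : SL(2, ℤ)) :
    (fun τ : ℍ => g (γ • τ)) ∈ expRing N :=
  hg.2.2 γ

theorem mdifferentiable_comp_smul {g : ℍ → ℂ} (hg : MDiff g) (γ : SL(2, ℤ)) :
    MDiff fun τ : ℍ => g (γ • τ) :=
  hg.comp (UpperHalfPlane.mdifferentiable_smul (g := (γ : GL (Fin 2) ℝ)) (by simp))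

theorem vadd_one_of_invariant {g : ℍ → ℂ} (hg : ∀ γ ∈ Gamma0 N, ∀ τ : ℍ, g (γ • τ) = g τ)
    (τ : ℍ) : g (((1 : ℕ) : ℝ) +ᵥ τ) = g τ := by
  rw [← smul_T_pow_eq_vadd]
  exact hg _ (by rw [Gamma0_mem, ModularGroup.coe_T_zpow]; simp) τ

theorem vadd_level_of_invariant {g : ℍ → ℂ} (hg : ∀ γ ∈ Gamma0 N, ∀ τ : ℍ, g (γ • τ) = g τ)
    (γ : SL(2, ℤ)) (τ : ℍ) : g (γ • ((N : ℝ) +ᵥ τ)) = g (γ • τ) := by
  rw [← smul_T_pow_eq_vadd]
  have hT : ModularGroup.T ^ (N : ℤ) ∈ CongruenceSubgroup.Gamma N := by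
    simpa using ModularGroup_T_pow_mem_Gamma (N : ℤ) (N : ℤ) dvd_rfl
  have hc : γ * ModularGroup.T ^ (N : ℤ) * γ⁻¹ ∈ Gamma0 N :=
    Gamma_le_Gamma0 N ((Gamma_normal N).conj_mem _ hT γ)
  have := hg _ hc (γ • τ)
  rwa [smul_smul, inv_mul_cancel_right, ← smul_smul] at this

/-- The criterion through boundedness at the cusps. -/
theorem mem_modFunRing_of_isBounded [NeZero N] {g : ℍ → ℂ} (hg : MDiff g)
    (hinv : ∀ γ ∈ Gamma0 N, ∀ τ : ℍ, g (γ • τ) = g τ)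
    (hb : ∀ γ : SL(2, ℤ), ∃ m : ℕ, IsBoundedAtImInfty fun τ => 𝕢 N τ ^ m * g (γ • τ)) :
    g ∈ modFunRing N :=
  ⟨hg, hinv, fun γ => mem_expRing_of_isBounded (mdifferentiable_comp_smul hg γ)
    (vadd_level_of_invariant hinv γ) (hb γ).choose_spec⟩

theorem exists_isBounded_of_mem_expRing {h : ℕ} [NeZero h] {g : ℍ → ℂ} (hg : g ∈ expRing h) :
    ∃ m : ℕ, IsBoundedAtImInfty fun τ => 𝕢 h τ ^ m * g τ := by
  obtain ⟨x, hx⟩ := hg
  obtain ⟨m₀, hm⟩ := hx.shift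
  obtain ⟨F, hF, -, hev⟩ := hm (-((-m₀).toNat : ℤ)) (by omega)
  refine ⟨(-m₀).toNat, ?_⟩
  have ht : Tendsto (fun τ : ℍ => F (𝕢 h τ)) atImInfty (𝓝 (F 0)) :=
    hF.continuousAt.tendsto.comp
      (qParam_tendsto_atImInfty (by exact_mod_cast Nat.pos_of_ne_zero (NeZero.ne h)))
  refine (ht.congr' ?_).isBigO_one ℝ
  filter_upwards [hev] with τ hτ
  rw [hτ, zpow_neg, zpow_natCast, ← mul_assoc,
    mul_inv_cancel₀ (pow_ne_zero _ (Periodic.qParam_ne_zero _)), one_mul]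

theorem mem_expRing_one [NeZero N] {g : ℍ → ℂ} (hg : g ∈ modFunRing N) : g ∈ expRing 1 := by
  obtain ⟨m, hm⟩ := exists_isBounded_of_mem_expRing (by simpa using comp_smul_mem_expRing hg 1)
  refine mem_expRing_of_isBounded hg.1 (vadd_one_of_invariant hg.2.1) (m := m) ?_
  refine Asymptotics.IsBigO.trans ?_ hm
  refine Asymptotics.isBigO_of_le _ fun τ => ?_
  rw [norm_mul, norm_mul, norm_pow, norm_pow, Periodic.norm_qParam, Periodic.norm_qParam]
  gcongr ?_ ^ _ * _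
  rw [Real.exp_le_exp, neg_mul, neg_mul, neg_div, neg_div, neg_le_neg_iff,
    Nat.cast_one, div_one, div_le_iff₀ (by exact_mod_cast Nat.pos_of_ne_zero (NeZero.ne N))]
  exact le_mul_of_one_le_right (by positivity [τ.im_pos])
    (by exact_mod_cast Nat.one_le_iff_ne_zero.mpr (NeZero.ne N))

/-- Inclusion in the width one expansion ring. -/
def toExpRing (N : ℕ) [NeZero N] : modFunRing N →ₐ[ℂ] expRing 1 :=
  Subalgebra.inclusion fun _ hg => mem_expRing_one hg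

/-- `q`-expansion at `i∞`. -/
def qL (N : ℕ) [NeZero N] : modFunRing N →ₐ[ℂ] LaurentSeries ℂ :=
  (qLaurentHom 1).comp (toExpRing N)

theorem expands_qL [NeZero N] (g : modFunRing N) : Expands 1 (g : ℍ → ℂ) (qL N g) :=
  expands_expSeries (toExpRing N g)

theorem qL_eq_of_expands [NeZero N] {g : modFunRing N} {x : LaurentSeries ℂ}
    (h : Expands 1 (g : ℍ → ℂ) x) : qL N g = x :=
  (expands_qL g).unique h

theorem qL_injective [NeZero N] : Function.Injective (qL N) := fun f g h =>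
  Subtype.ext (eq_of_expands f.2.1 g.2.1 (expands_qL f) (h ▸ expands_qL g))

/-- Precomposition with `γ`, into width `N` expansions. -/
def compSMul (N : ℕ) (γ : SL(2, ℤ)) : modFunRing N →ₐ[ℂ] expRing N where
  toFun g := ⟨fun τ => (g : ℍ → ℂ) (γ • τ), comp_smul_mem_expRing g.2 γ⟩
  map_one' := rfl
  map_mul' _ _ := rfl
  map_zero' := rfl
  map_add' _ _ := rfl
  commutes' _ := rfl

/-- Expansion of `g ∘ γ` in `exp (2πiτ/N)`. -/
def qLAt (N : ℕ) [NeZero N] (γ : SL(2, ℤ)) : modFunRing N →ₐ[ℂ] LaurentSeries ℂ :=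
  (qLaurentHom N).comp (compSMul N γ)

theorem expands_qLAt [NeZero N] (γ : SL(2, ℤ)) (g : modFunRing N) :
    Expands N (fun τ => (g : ℍ → ℂ) (γ • τ)) (qLAt N γ g) :=
  expands_expSeries (compSMul N γ g)

theorem qLAt_eq_of_expands [NeZero N] {γ : SL(2, ℤ)} {g : modFunRing N} {x : LaurentSeries ℂ}
    (h : Expands N (fun τ => (g : ℍ → ℂ) (γ • τ)) x) : qLAt N γ g = x :=
  (expands_qLAt γ g).unique h

theorem qLAt_injective [NeZero N] (γ : SL(2, ℤ)) : Function.Injective (qLAt N γ) := fun f g h => by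
  refine Subtype.ext (funext fun τ => ?_)
  have hg := expands_qLAt γ g
  rw [← h] at hg
  have := eq_of_expands (mdifferentiable_comp_smul f.2.1 γ) (mdifferentiable_comp_smul g.2.1 γ)
    (expands_qLAt γ f) hg
  have := congr_fun this (γ⁻¹ • τ)
  simp only [smul_inv_smul] at this
  exact this

theorem qLAt_one [NeZero N] (g : modFunRing N) :
    qLAt N 1 g = ModularCurve.qExpand ℂ N (qL N g) := by
  refine qLAt_eq_of_expands ?_
  have h := (expands_qL g).width_mul (k := N)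
  rw [one_mul] at h
  simp only [one_smul]
  exact h

theorem jFun_mem [NeZero N] : jFun ∈ modFunRing N :=
  ⟨mdifferentiable_jFun, fun γ _ τ => jFun_smul γ τ, fun γ => by
    rw [funext (jFun_smul γ)]
    exact expands_jFun.mem_expRing_width (one_dvd N)⟩

end FLTAgent.ModPoly
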