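import Mathlib.Algebra.Polynomial.AlgebraMap
import Fermat.Prelude.Thm_ModularCurve_coeff_jqModC_pow_self
import Fermat.Prelude.Thm_ModularCurve_coeff_jqModC_pow_of_lt
import Fermat.Agent.ModPoly.FunRing

/-!
# Level one: invariant holomorphic functions with finite pole order are polynomials in `j`
-/

set_option autoImplicit false

noncomputable section

open Filter Function Complex CongruenceSubgroup Polynomial
open UpperHalfPlane hiding I
open scoped Real Topology MatrixGroups ModularForm Manifold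
open Matrix.SpecialLinearGroup (mapGL)

namespace FLTAgent.ModPoly

/-- `P(j)` as a function on `ℍ`. -/
def evalJFun (P : ℂ[X]) : ℍ → ℂ := fun τ => P.eval (jFun τ)

theorem evalJFun_eq_aeval (P : ℂ[X]) : evalJFun P = aeval jFun P := by
  funext τ
  rw [show aeval jFun P τ = Pi.evalAlgHom ℂ (fun _ : ℍ => ℂ) τ (aeval jFun P) from rfl,
    ← aeval_algHom_apply, Pi.evalAlgHom_apply, coe_aeval_eq_eval]
  rfl

theorem mdifferentiable_evalJFun (P : ℂ[X]) : MDiff (evalJFun P) := by
  induction P using Polynomial.induction_on' with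
  | add p q hp hq =>
    have : evalJFun (p + q) = evalJFun p + evalJFun q := by funext τ; simp [evalJFun]
    rw [this]; exact hp.add hq
  | monomial n a =>
    have : evalJFun (monomial n a) = fun τ => a * jFun τ ^ n := by funext τ; simp [evalJFun]
    rw [this]; exact mdifferentiable_const.mul (mdifferentiable_jFun.pow n)

theorem evalJFun_smul (P : ℂ[X]) (γ : SL(2, ℤ)) (τ : ℍ) :
    evalJFun P (γ • τ) = evalJFun P τ := by
  simp only [evalJFun, jFun_smul γ τ]

theorem expands_evalJFun (P : ℂ[X]) :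
    Expands 1 (evalJFun P) (aeval (ModularCurve.jqModC ℂ) P) := by
  induction P using Polynomial.induction_on' with
  | add p q hp hq =>
    rw [show evalJFun (p + q) = evalJFun p + evalJFun q by funext τ; simp [evalJFun], map_add]
    exact hp.add hq
  | monomial n a =>
    rw [show evalJFun (monomial n a) = (fun _ => a) * jFun ^ n by funext τ; simp [evalJFun],
      aeval_monomial, ModularCurve.algebraMap_laurentSeries_eq_single, ← HahnSeries.C_apply]
    exact (Expands.const 1 a).mul (expands_jFun.pow n)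

theorem coeff_jqModC_mem (R : Subring ℂ) (k : ℤ) : (ModularCurve.jqModC ℂ).coeff k ∈ R := by
  rw [ModularCurve.jqModC_eq_map_intCast, HahnSeries.map_coeff]
  exact intCast_mem R _

theorem coeff_mul_mem (R : Subring ℂ) {x y : LaurentSeries ℂ} (hx : ∀ k, x.coeff k ∈ R)
    (hy : ∀ k, y.coeff k ∈ R) (k : ℤ) : (x * y).coeff k ∈ R := by
  rw [HahnSeries.coeff_mul]
  exact R.sum_mem fun ij _ => R.mul_mem (hx _) (hy _)

theorem coeff_jqModC_pow_mem (R : Subring ℂ) (n : ℕ) (k : ℤ) :
    (ModularCurve.jqModC ℂ ^ n).coeff k ∈ R := by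
  induction n generalizing k with
  | zero =>
    rw [pow_zero, HahnSeries.coeff_one]
    split_ifs
    · exact R.one_mem
    · exact R.zero_mem
  | succ n ih =>
    rw [pow_succ]
    exact coeff_mul_mem R ih (coeff_jqModC_mem R) k

/-- A bounded invariant holomorphic function is constant. -/
theorem exists_eq_const_of_bounded {g : ℍ → ℂ} (hg : MDiff g)
    (hinv : ∀ (γ : SL(2, ℤ)) (τ : ℍ), g (γ • τ) = g τ) (hb : IsBoundedAtImInfty g) :
    ∃ c, g = fun _ => c := by
  have hslash : ∀ γ : SL(2, ℤ), g ∣[(0 : ℤ)] γ = g := fun γ => by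
    funext τ
    rw [ModularForm.SL_slash_apply, hinv γ τ]
    simp
  set f : ModularForm 𝒮ℒ 0 :=
    { toFun := g
      slash_action_eq' := fun A hA => by
        obtain ⟨A, rfl⟩ := hA
        exact hslash A
      holo' := hg
      bdd_at_cusps' := fun hc => by
        rw [Subgroup.IsArithmetic.isCusp_iff_isCusp_SL2Z] at hc
        rw [OnePoint.isBoundedAt_iff_forall_SL2Z hc]
        intro γ _
        rw [hslash γ]
        exact hb }
  obtain ⟨c, hc⟩ := ModularFormClass.levelOne_weight_zero_const f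
  exact ⟨c, hc⟩

/-- Level one, with control of coefficients. -/
theorem exists_polynomial_of_levelOne_aux (R : Subring ℂ) (m : ℕ) :
    ∀ (g : ℍ → ℂ), MDiff g → (∀ (γ : SL(2, ℤ)) (τ : ℍ), g (γ • τ) = g τ) →
      ∀ x : LaurentSeries ℂ, Expands 1 g x → (∀ k < -(m : ℤ), x.coeff k = 0) →
      (∀ k, x.coeff k ∈ R) →
      ∃ P : ℂ[X], (∀ i, P.coeff i ∈ R) ∧ P.natDegree ≤ m ∧ g = evalJFun P := by
  induction m with
  | zero =>
    intro g hg hinv x hx hlow hR
    obtain ⟨c, hc⟩ := exists_eq_const_of_bounded hg hinv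
      (hx.isBoundedAtImInfty fun k hk => hlow k (by simpa using hk))
    refine ⟨C c, ?_, by simp, ?_⟩
    · have hxc : x = HahnSeries.C c := hx.unique (hc ▸ Expands.const 1 c)
      have : c ∈ R := by simpa [hxc] using hR 0
      intro i
      rw [coeff_C]
      split_ifs
      · exact this
      · exact R.zero_mem
    · rw [hc]; funext τ; simp [evalJFun]
  | succ m ih =>
    intro g hg hinv x hx hlow hR
    set c := x.coeff (-((m + 1 : ℕ) : ℤ)) with hcdef
    have hx' := hx.sub ((Expands.const 1 c).mul (expands_jFun.pow (m + 1)))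
    obtain ⟨P, hPR, hPd, hP⟩ := ih _
      (hg.sub (mdifferentiable_const.mul (mdifferentiable_jFun.pow (m + 1))))
      (fun γ τ => by
        simp only [Pi.sub_apply, Pi.mul_apply, Pi.pow_apply, hinv γ τ, jFun_smul γ τ])
      _ hx'
      (fun k hk => by
        rw [HahnSeries.coeff_sub, HahnSeries.C_apply, HahnSeries.coeff_single_zero_mul]
        rcases eq_or_lt_of_le (show k ≤ -((m + 1 : ℕ) : ℤ) by push_cast; omega) with rfl | hk'
        · rw [ModularCurve.coeff_jqModC_pow_self, mul_one, sub_self]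
        · rw [hlow k hk', ModularCurve.coeff_jqModC_pow_of_lt _ hk', mul_zero, sub_zero])
      (fun k => by
        rw [HahnSeries.coeff_sub, HahnSeries.C_apply, HahnSeries.coeff_single_zero_mul]
        exact R.sub_mem (hR k) (R.mul_mem (hR _) (coeff_jqModC_pow_mem R _ _)))
    refine ⟨P + monomial (m + 1) c, fun i => ?_, ?_, ?_⟩
    · rw [coeff_add, coeff_monomial]
      refine R.add_mem (hPR i) ?_
      split_ifs
      · exact hR _
      · exact R.zero_mem
    · exact (natDegree_add_le _ _).trans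
        (max_le (hPd.trans (Nat.le_succ m)) (natDegree_monomial_le _))
    · funext τ
      have := congr_fun hP τ
      simp only [Pi.sub_apply, Pi.mul_apply, Pi.pow_apply, evalJFun] at this
      simp only [evalJFun, eval_add, eval_monomial, ← this]
      ring

/-- A level one invariant holomorphic function with a Laurent expansion is a polynomial in `j`,
with coefficients in any subring containing the expansion's coefficients. -/
theorem exists_polynomial_of_levelOne (R : Subring ℂ) {g : ℍ → ℂ} (hg : MDiff g)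
    (hinv : ∀ (γ : SL(2, ℤ)) (τ : ℍ), g (γ • τ) = g τ) {x : LaurentSeries ℂ}
    (hx : Expands 1 g x) (hR : ∀ k, x.coeff k ∈ R) :
    ∃ P : ℂ[X], (∀ i, P.coeff i ∈ R) ∧ g = evalJFun P := by
  obtain ⟨P, h1, -, h2⟩ := exists_polynomial_of_levelOne_aux R (-x.order).toNat g hg hinv x hx
    (fun k hk => HahnSeries.coeff_eq_zero_of_lt_order (by omega)) hR
  exact ⟨P, h1, h2⟩

theorem exists_polynomial_of_mem_modFunRing_one {g : ℍ → ℂ} (hg : g ∈ modFunRing 1) :
    ∃ P : ℂ[X], g = evalJFun P := by
  obtain ⟨x, hx⟩ := mem_expRing_one hg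
  obtain ⟨P, -, hP⟩ := exists_polynomial_of_levelOne ⊤ (mdifferentiable_of_mem hg)
    (fun γ τ => smul_eq_of_mem hg (by rw [Gamma0_mem]; exact Subsingleton.elim _ _) τ) hx
    (fun _ => Subring.mem_top _)
  exact ⟨P, hP⟩

/-- Quotients of weight `12 m` modular forms by `Δ ^ m`. -/
theorem div_discriminant_pow_mem {N : ℕ} [NeZero N] {m : ℕ} {k : ℤ} (hk : k = 12 * m)
    {F : Type*} [FunLike F ℍ ℂ] [ModularFormClass F (Gamma0 N : Subgroup (GL (Fin 2) ℝ)) k]
    (f : F) : (fun τ => f τ / ModularForm.discriminant τ ^ m) ∈ modFunRing N := by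
  subst hk
  have hΔs : ∀ (γ : SL(2, ℤ)) (τ : ℍ), ModularForm.discriminant (γ • τ)
      = ModularForm.discriminant τ * denom γ τ ^ (12 : ℤ) := fun γ τ => by
    have h12 := congr_fun (SlashInvariantFormClass.slash_action_eq CuspForm.discriminant
      ((γ : GL (Fin 2) ℝ)) ⟨γ, rfl⟩) τ
    rw [← ModularForm.SL_slash, ModularForm.SL_slash_apply, CuspForm.coe_discriminant] at h12
    rw [← h12, mul_assoc, zpow_neg, inv_mul_cancel₀ (zpow_ne_zero _ (denom_ne_zero γ τ)), mul_one]
  have key : ∀ (γ : SL(2, ℤ)) (τ : ℍ), f (γ • τ) / ModularForm.discriminant (γ • τ) ^ m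
      = (⇑f ∣[(12 * m : ℤ)] γ) τ / ModularForm.discriminant τ ^ m := fun γ τ => by
    have hd : denom γ τ ≠ 0 := denom_ne_zero γ τ
    rw [ModularForm.SL_slash_apply, hΔs γ τ, mul_pow, ← zpow_natCast (denom γ τ ^ (12 : ℤ)) m,
      ← zpow_mul, zpow_neg]
    field_simp
  refine mem_modFunRing_of_isBounded ?_ (fun γ hγ τ => ?_) fun γ => ⟨m * N, ?_⟩
  · exact (ModularFormClass.holo f).div (CuspForm.discriminant.holo'.pow m)
      fun τ => pow_ne_zero m (ModularForm.discriminant_ne_zero τ)
  · change f (γ • τ) / ModularForm.discriminant (γ • τ) ^ m = _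
    rw [key γ τ, ModularForm.SL_slash, SlashInvariantFormClass.slash_action_eq f
      ((γ : GL (Fin 2) ℝ)) (Subgroup.mem_map.mpr ⟨γ, hγ, rfl⟩)]
  · have hf : IsBoundedAtImInfty (⇑f ∣[(12 * m : ℤ)] γ) :=
      ModularFormClass.bdd_at_infty_slash f γ
    have hq : (fun τ : ℍ => Periodic.qParam (N : ℝ) τ ^ (m * N) *
        (ModularForm.discriminant τ ^ m)⁻¹) =O[atImInfty] (1 : ℍ → ℝ) := by
      have h1 := ModularForm.tendsto_atImInfty_tprod_one_sub_eta_q_pow.inv₀ one_ne_zero
      refine ((h1.pow m).congr' (Eventually.of_forall fun τ => ?_)).isBigO_one ℝ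
      rw [ModularForm.discriminant_eq_q_prod, mul_pow, mul_inv, ← mul_assoc]
      have : Periodic.qParam (N : ℝ) (τ : ℂ) ^ N = Periodic.qParam 1 τ := by
        rw [Periodic.qParam, Periodic.qParam, ← Complex.exp_nat_mul]
        congr 1
        have : (N : ℂ) ≠ 0 := by exact_mod_cast NeZero.ne N
        push_cast
        field_simp
      rw [mul_comm m N, pow_mul, this, mul_inv_cancel₀ (pow_ne_zero m (Periodic.qParam_ne_zero _)),
        one_mul, inv_pow]
    refine Asymptotics.IsBigO.congr' (hq.mul hf) (Eventually.of_forall fun τ => ?_)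
      (Eventually.of_forall fun τ => by simp)
    simp only [key γ τ]
    rw [div_eq_mul_inv]
    ring

end FLTAgent.ModPoly
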