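import Mathlib.RingTheory.RootsOfUnity.Complex
import Fermat.Prelude.Thm_ModularCurve_coeff_jqModC_neg_one
import Fermat.Agent.ModPoly.LevelOne

/-!
# The conjugates `j((aτ+b)/d)` of `j(Nτ)`
-/

set_option autoImplicit false

noncomputable section

open Filter Function Complex CongruenceSubgroup
open UpperHalfPlane hiding I
open scoped Real Topology MatrixGroups ModularForm Manifold
open Matrix.SpecialLinearGroup (mapGL)

namespace FLTAgent.ModPoly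

local notation "𝕢" => Periodic.qParam

/-- Indices `(a, b)` of primitive upper triangular matrices `(a b; 0 N/a)` with `b < N/a`. -/
def hermiteSet (N : ℕ) : Finset (ℕ × ℕ) :=
  (N.divisors ×ˢ Finset.range N).filter fun p =>
    p.2 < N / p.1 ∧ Nat.gcd p.1 (Nat.gcd p.2 (N / p.1)) = 1

theorem mem_hermiteSet {N : ℕ} [NeZero N] {p : ℕ × ℕ} :
    p ∈ hermiteSet N ↔ p.1 ∣ N ∧ p.2 < N / p.1 ∧ Nat.gcd p.1 (Nat.gcd p.2 (N / p.1)) = 1 := by
  simp only [hermiteSet, Finset.mem_filter, Finset.mem_product, Nat.mem_divisors, ne_eq,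
    NeZero.ne N, not_false_eq_true, and_true, Finset.mem_range]
  exact ⟨fun h => ⟨h.1.1, h.2.1, h.2.2⟩,
    fun h => ⟨⟨h.1, h.2.1.trans_le (Nat.div_le_self _ _)⟩, h.2.1, h.2.2⟩⟩

theorem fst_pos_of_mem {N : ℕ} [NeZero N] {p : ℕ × ℕ} (hp : p ∈ hermiteSet N) : 0 < p.1 :=
  Nat.pos_of_dvd_of_pos (mem_hermiteSet.mp hp).1 (Nat.pos_of_ne_zero (NeZero.ne N))

theorem div_pos_of_mem {N : ℕ} [NeZero N] {p : ℕ × ℕ} (hp : p ∈ hermiteSet N) : 0 < N / p.1 :=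
  (Nat.zero_le _).trans_lt (mem_hermiteSet.mp hp).2.1

theorem top_mem_hermiteSet (N : ℕ) [NeZero N] : (N, 0) ∈ hermiteSet N :=
  mem_hermiteSet.mpr ⟨dvd_rfl, by simp [Nat.div_self (Nat.pos_of_ne_zero (NeZero.ne N))],
    by simp [Nat.div_self (Nat.pos_of_ne_zero (NeZero.ne N))]⟩

/-- `τ ↦ j((aτ+b)/(N/a))`. -/
def jConj (N : ℕ) (p : ℕ × ℕ) : ℍ → ℂ := fun τ =>
  jFun (ofComplex (((p.1 : ℂ) * τ + p.2) / ((N / p.1 : ℕ) : ℂ)))

/-- `τ ↦ j(dτ)`. -/
def jMul (d : ℕ) : ℍ → ℂ := fun τ => jFun (ofComplex ((d : ℂ) * τ))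

theorem jConj_top (N : ℕ) [NeZero N] : jConj N (N, 0) = jMul N := by
  funext τ
  simp [jConj, jMul, Nat.div_self (Nat.pos_of_ne_zero (NeZero.ne N))]

theorem mdifferentiable_jFun_comp {f : ℂ → ℂ} (hf : DifferentiableOn ℂ f upperHalfPlaneSet)
    (him : ∀ z ∈ upperHalfPlaneSet, f z ∈ upperHalfPlaneSet) :
    MDiff fun τ : ℍ => jFun (ofComplex (f τ)) := by
  rw [UpperHalfPlane.mdifferentiable_iff]
  refine ((UpperHalfPlane.mdifferentiable_iff.mp mdifferentiable_jFun).comp hf him).congr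
    fun z hz => ?_
  simp [ofComplex_apply_of_im_pos hz]

theorem mdifferentiable_jMul {d : ℕ} (hd : d ≠ 0) : MDiff (jMul d) :=
  mdifferentiable_jFun_comp (f := fun z => (d : ℂ) * z) (by fun_prop) fun z hz => by
    simpa [upperHalfPlaneSet, Complex.mul_im, Nat.pos_of_ne_zero hd] using hz

theorem mdifferentiable_jConj {N : ℕ} [NeZero N] {p : ℕ × ℕ} (hp : p ∈ hermiteSet N) :
    MDiff (jConj N p) :=
  mdifferentiable_jFun_comp (f := fun z => ((p.1 : ℂ) * z + p.2) / ((N / p.1 : ℕ) : ℂ))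
    (by fun_prop) fun z hz => by
      have : (0 : ℝ) < p.1 := by exact_mod_cast fst_pos_of_mem hp
      have hd : (0 : ℝ) < (N / p.1 : ℕ) := by exact_mod_cast div_pos_of_mem hp
      have hz' : 0 < z.im := hz
      show 0 < Complex.im _
      rw [Complex.div_natCast_im, Complex.add_im, Complex.mul_im, Complex.natCast_re,
        Complex.natCast_im, Complex.natCast_im, zero_mul, add_zero, add_zero]
      positivity

section Expansion

/-- `q ↦ j` conjugate expansion: `jqModC` in `ζ^(ab) q^(a²)`. -/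
def jqConj (K : Type*) [CommRing K] (ζ : Kˣ) (p : ℕ × ℕ) : LaurentSeries K :=
  if hp : p.1 = 0 then 0 else
    haveI : NeZero (p.1 * p.1) := ⟨mul_ne_zero hp hp⟩
    ModularCurve.qExpand K (p.1 * p.1) (twist (ζ ^ (p.1 * p.2)) (ModularCurve.jqModC K))

theorem jqConj_eq (K : Type*) [CommRing K] (ζ : Kˣ) {p : ℕ × ℕ} [NeZero (p.1 * p.1)] :
    jqConj K ζ p
      = ModularCurve.qExpand K (p.1 * p.1) (twist (ζ ^ (p.1 * p.2)) (ModularCurve.jqModC K)) := by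
  rw [jqConj, dif_neg (fun h => NeZero.ne (p.1 * p.1) (by simp [h]))]

/-- `exp (2πi/N)` as a unit. -/
def zetaC (N : ℕ) : ℂˣ :=
  Units.mk0 (Complex.exp (2 * π * I / N)) (Complex.exp_ne_zero _)

theorem isPrimitiveRoot_zetaC (N : ℕ) [NeZero N] : IsPrimitiveRoot (zetaC N) N :=
  IsPrimitiveRoot.coe_units_iff.mp (Complex.isPrimitiveRoot_exp N (NeZero.ne N))

theorem tendsto_affine_atImInfty {a d : ℕ} (b : ℕ) (ha : 0 < a) (hd : 0 < d) :
    Tendsto (fun τ : ℍ => ofComplex (((a : ℂ) * τ + b) / (d : ℂ))) atImInfty atImInfty := by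
  rw [atImInfty, tendsto_comap_iff]
  have hpos : (0 : ℝ) < (a : ℝ) / d := by positivity
  refine Tendsto.congr (fun τ => ?_) ((tendsto_comap.const_mul_atTop hpos) :
    Tendsto (fun τ : ℍ => (a : ℝ) / d * τ.im) (comap UpperHalfPlane.im atTop) atTop)
  have : 0 < (((a : ℂ) * τ + b) / (d : ℂ)).im := by
    simp [Complex.div_natCast_im]; positivity
  simp [ofComplex_apply_of_im_pos this, Complex.div_natCast_im]
  ring

theorem expands_jConj {N : ℕ} [NeZero N] {p : ℕ × ℕ} (hp : p ∈ hermiteSet N) :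
    Expands N (jConj N p) (jqConj ℂ (zetaC N) p) := by
  have ha := fst_pos_of_mem hp
  have hd := div_pos_of_mem hp
  haveI : NeZero (p.1 * p.1) := ⟨(Nat.mul_pos ha ha).ne'⟩
  rw [jqConj_eq]
  refine expands_jFun.comp_scale (h' := N) _ (tendsto_affine_atImInfty p.2 ha hd) fun τ => ?_
  have him : 0 < (((p.1 : ℂ) * τ + p.2) / ((N / p.1 : ℕ) : ℂ)).im := by
    simp [Complex.div_natCast_im]; positivity
  rw [ofComplex_apply_of_im_pos him]
  simp only [zetaC, Units.val_pow_eq_pow_val, Units.val_mk0, Periodic.qParam,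
    ← Complex.exp_nat_mul, ← Complex.exp_add, Nat.cast_one, Complex.ofReal_one, div_one]
  congr 1
  have hN : (N : ℂ) = p.1 * ((N / p.1 : ℕ) : ℂ) := by
    exact_mod_cast (Nat.mul_div_cancel' (mem_hermiteSet.mp hp).1).symm
  have ha' : (p.1 : ℂ) ≠ 0 := by exact_mod_cast ha.ne'
  have hd' : ((N / p.1 : ℕ) : ℂ) ≠ 0 := by exact_mod_cast hd.ne'
  simp only [Complex.ofReal_natCast]
  push_cast [hN]
  field_simp
  ring

theorem expands_jMul {d : ℕ} [NeZero d] :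
    Expands 1 (jMul d) (ModularCurve.qExpand ℂ d (ModularCurve.jqModC ℂ)) := by
  have hd : 0 < d := Nat.pos_of_ne_zero (NeZero.ne d)
  have ht := tendsto_affine_atImInfty (a := d) (d := 1) 0 hd one_pos
  have := expands_jFun.comp_scale (h' := 1) (k := d) 1 ht fun τ => by
    have him : 0 < ((d : ℂ) * τ).im := by simp; positivity
    simp [ofComplex_apply_of_im_pos him, Periodic.qParam, ← Complex.exp_nat_mul]
    ring_nf
  unfold jMul
  simpa [twist_one_unit] using this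

theorem coeff_jqConj {K : Type*} [CommRing K] (ζ : Kˣ) {p : ℕ × ℕ} (hp : p.1 ≠ 0) :
    (jqConj K ζ p).coeff (-((p.1 * p.1 : ℕ) : ℤ))
      = (((ζ ^ (p.1 * p.2)) ^ (-1 : ℤ) : Kˣ) : K) ∧
    ∀ k < -((p.1 * p.1 : ℕ) : ℤ), (jqConj K ζ p).coeff k = 0 := by
  haveI : NeZero (p.1 * p.1) := ⟨mul_ne_zero hp hp⟩
  rw [jqConj_eq]
  constructor
  · rw [show (-((p.1 * p.1 : ℕ) : ℤ)) = ((p.1 * p.1 : ℕ) : ℤ) * (-1) by ring,
      ModularCurve.qExpand_coeff_mul, twist_coeff, ModularCurve.coeff_jqModC_neg_one, mul_one]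
  · intro k hk
    by_cases hdvd : ((p.1 * p.1 : ℕ) : ℤ) ∣ k
    · obtain ⟨l, rfl⟩ := hdvd
      rw [ModularCurve.qExpand_coeff_mul, twist_coeff]
      have hl : l < -1 := by
        by_contra hl
        push Not at hl
        nlinarith [Int.natCast_nonneg (p.1 * p.1)]
      rw [show (ModularCurve.jqModC K).coeff l = 0 by
        simpa using ModularCurve.coeff_jqModC_pow_of_lt K (b := 1) (m := l) (by simpa using hl),
        mul_zero]
    · exact ModularCurve.qExpand_coeff_of_not_dvd _ _ hdvd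

/-- The conjugate expansions are pairwise distinct. -/
theorem jqConj_injective {K : Type*} [CommRing K] [Nontrivial K] {N : ℕ} [NeZero N] {ζ : Kˣ}
    (hζ : IsPrimitiveRoot ζ N) {p r : ℕ × ℕ} (hp : p ∈ hermiteSet N) (hr : r ∈ hermiteSet N)
    (h : jqConj K ζ p = jqConj K ζ r) : p = r := by
  have ha := (fst_pos_of_mem hp).ne'
  have hc := (fst_pos_of_mem hr).ne'
  obtain ⟨h1, h2⟩ := coeff_jqConj ζ (p := p) ha
  obtain ⟨h3, h4⟩ := coeff_jqConj ζ (p := r) hc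
  have key : ∀ {u v : ℕ × ℕ}, u.1 ≠ 0 → jqConj K ζ u = jqConj K ζ v → v.1 ≠ 0 →
      ¬ u.1 * u.1 > v.1 * v.1 := by
    intro u v hu huv hv hgt
    have e := (coeff_jqConj ζ (p := v) hv).2 (-((u.1 * u.1 : ℕ) : ℤ)) (by omega)
    rw [← huv, (coeff_jqConj ζ (p := u) hu).1] at e
    exact Units.ne_zero _ e
  have hsq : p.1 * p.1 = r.1 * r.1 :=
    le_antisymm (not_lt.mp (key ha h hc)) (not_lt.mp (key hc h.symm ha))
  have hfst : p.1 = r.1 := Nat.mul_self_inj.mp hsq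
  refine Prod.ext hfst ?_
  rw [h, hsq, h3] at h1
  have hpow : ζ ^ (r.1 * r.2) = ζ ^ (p.1 * p.2) := by
    have := Units.ext h1
    rwa [zpow_neg_one, zpow_neg_one, inv_inj] at this
  obtain ⟨had, hb, -⟩ := mem_hermiteSet.mp hp
  obtain ⟨-, hb', -⟩ := mem_hermiteSet.mp hr
  have hN := Nat.mul_div_cancel' had
  rw [← hfst] at hb'
  have hlt : ∀ b, b < N / p.1 → p.1 * b < N := fun b hb => by
    calc p.1 * b < p.1 * (N / p.1) := Nat.mul_lt_mul_of_pos_left hb (Nat.pos_of_ne_zero ha)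
    _ = N := hN
  rw [← hfst] at hpow
  exact (Nat.eq_of_mul_eq_mul_left (Nat.pos_of_ne_zero ha)
    (hζ.pow_inj (hlt _ hb') (hlt _ hb) hpow)).symm

theorem jConj_injective {N : ℕ} [NeZero N] {p r : ℕ × ℕ} (hp : p ∈ hermiteSet N)
    (hr : r ∈ hermiteSet N) (h : jConj N p = jConj N r) : p = r :=
  jqConj_injective (isPrimitiveRoot_zetaC N) hp hr (by
    have h2 := expands_jConj hr
    rw [← h] at h2
    exact (expands_jConj hp).unique h2)

end Expansion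

section Action

/-- `j` at a point given by an integral fractional linear expression. -/
theorem jFun_ofComplex_moebius (γ : SL(2, ℤ)) (w : ℂ) (hw : 0 < w.im) :
    jFun (ofComplex (((γ 0 0 : ℤ) * w + (γ 0 1 : ℤ)) / ((γ 1 0 : ℤ) * w + (γ 1 1 : ℤ))))
      = jFun (ofComplex w) := by
  have : ofComplex (((γ 0 0 : ℤ) * w + (γ 0 1 : ℤ)) / ((γ 1 0 : ℤ) * w + (γ 1 1 : ℤ)))
      = γ • (⟨w, hw⟩ : ℍ) := by
    rw [show ((γ 0 0 : ℤ) * w + (γ 0 1 : ℤ)) / ((γ 1 0 : ℤ) * w + (γ 1 1 : ℤ))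
      = ((γ • (⟨w, hw⟩ : ℍ) : ℍ) : ℂ) by rw [coe_specialLinearGroup_apply]; simp, ofComplex_apply]
  rw [this, jFun_smul, ofComplex_apply_of_im_pos hw]

theorem coe_SL_smul (γ : SL(2, ℤ)) (τ : ℍ) :
    ((γ • τ : ℍ) : ℂ) = ((γ 0 0 : ℤ) * (τ : ℂ) + (γ 0 1 : ℤ)) /
      ((γ 1 0 : ℤ) * (τ : ℂ) + (γ 1 1 : ℤ)) := by
  rw [coe_specialLinearGroup_apply]; simp

theorem SL_den_ne_zero (γ : SL(2, ℤ)) (τ : ℍ) :
    ((γ 1 0 : ℤ) : ℂ) * (τ : ℂ) + (γ 1 1 : ℤ) ≠ 0 := by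
  simpa [denom] using denom_ne_zero (γ : GL (Fin 2) ℝ) τ

theorem SL_det_eq (γ : SL(2, ℤ)) : γ 0 0 * γ 1 1 - γ 0 1 * γ 1 0 = 1 := by
  have := γ.det_coe
  rwa [Matrix.det_fin_two] at this

/-- Build an element of `SL(2, ℤ)`. -/
def mkSL (x y u v : ℤ) (h : x * v - y * u = 1) : SL(2, ℤ) :=
  ⟨!![x, y; u, v], by rw [Matrix.det_fin_two_of]; exact h⟩

/-- Hermite reduction of a primitive matrix of determinant `N`. -/
theorem exists_reduce {N : ℕ} [NeZero N] {A B C D : ℤ} (hdet : A * D - B * C = N)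
    (hprim : ∀ e : ℕ, (e : ℤ) ∣ A → (e : ℤ) ∣ B → (e : ℤ) ∣ C → (e : ℤ) ∣ D → e = 1) :
    ∃ p ∈ hermiteSet N, p.1 = Int.gcd A C ∧ ∀ τ : ℍ,
      jFun (ofComplex ((A * (τ : ℂ) + B) / (C * (τ : ℂ) + D))) = jConj N p τ := by
  set g := Int.gcd A C with hg
  have hg0 : (g : ℤ) ≠ 0 := by
    intro h0
    obtain ⟨rfl, rfl⟩ := Int.gcd_eq_zero_iff.mp (by exact_mod_cast h0 : g = 0)
    simp at hdet
    exact NeZero.ne N (by exact_mod_cast hdet.symm)
  obtain ⟨X, hX⟩ := Int.gcd_dvd_left A C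
  obtain ⟨U, hU⟩ := Int.gcd_dvd_right A C
  rw [← hg] at hX hU
  obtain ⟨s, t, hst⟩ : ∃ s t : ℤ, s * X + t * U = 1 := by
    refine ⟨Int.gcdA A C, Int.gcdB A C, mul_left_cancel₀ hg0 ?_⟩
    have := Int.gcd_eq_gcd_ab A C
    rw [← hg] at this
    linear_combination (-1 : ℤ) * this - Int.gcdA A C * hX - Int.gcdB A C * hU
  set δ := X * D - U * B with hδ
  have hNδ : (g : ℤ) * δ = N := by rw [hδ, ← hdet, hX, hU]; ring
  have hδpos : 0 < δ := by
    have : (0 : ℤ) < g * δ := by rw [hNδ]; exact_mod_cast Nat.pos_of_ne_zero (NeZero.ne N)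
    exact pos_of_mul_pos_right this (Int.natCast_nonneg g)
  set b₀ := s * B + t * D with hb₀
  set b' := b₀ % δ with hb'
  set k := b₀ / δ with hk
  have hbk : b' + δ * k = b₀ := Int.emod_add_mul_ediv b₀ δ
  have hb'0 : 0 ≤ b' := Int.emod_nonneg _ hδpos.ne'
  have hb'lt : b' < δ := Int.emod_lt_of_pos _ hδpos
  have hB : B = X * b' + (X * k - t) * δ := by
    linear_combination X * (-hbk) + (X * (-hb₀)) + t * hδ - B * hst
  have hD : D = U * b' + (U * k + s) * δ := by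
    linear_combination U * (-hbk) + (U * (-hb₀)) - s * hδ - D * hst
  have hdiv : (N / g : ℕ) = δ.toNat := by
    apply Nat.div_eq_of_eq_mul_right (Nat.pos_of_ne_zero fun h => hg0 (by simp [h]))
    have hc : ((δ.toNat : ℕ) : ℤ) = δ := Int.toNat_of_nonneg hδpos.le
    have : ((N : ℕ) : ℤ) = ((g * δ.toNat : ℕ) : ℤ) := by push_cast; rw [hc, hNδ]
    exact_mod_cast this
  refine ⟨(g, b'.toNat), mem_hermiteSet.mpr ⟨⟨δ.toNat, ?_⟩, ?_, ?_⟩, rfl, fun τ => ?_⟩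
  · have hc : ((δ.toNat : ℕ) : ℤ) = δ := Int.toNat_of_nonneg hδpos.le
    have : ((N : ℕ) : ℤ) = ((g * δ.toNat : ℕ) : ℤ) := by push_cast; rw [hc, hNδ]
    exact_mod_cast this
  · rw [hdiv]; omega
  · rw [hdiv]
    set e := Nat.gcd g (Nat.gcd b'.toNat δ.toNat)
    have he1 : (e : ℤ) ∣ g := Int.natCast_dvd_natCast.mpr (Nat.gcd_dvd_left _ _)
    have he2 : (e : ℤ) ∣ b' := by
      rw [← Int.toNat_of_nonneg hb'0]
      exact Int.natCast_dvd_natCast.mpr ((Nat.gcd_dvd_right _ _).trans (Nat.gcd_dvd_left _ _))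
    have he3 : (e : ℤ) ∣ δ := by
      rw [← Int.toNat_of_nonneg hδpos.le]
      exact Int.natCast_dvd_natCast.mpr ((Nat.gcd_dvd_right _ _).trans (Nat.gcd_dvd_right _ _))
    refine hprim e ?_ ?_ ?_ ?_
    · rw [hX]; exact he1.mul_right _
    · rw [hB]; exact dvd_add (he2.mul_left _) (he3.mul_left _)
    · rw [hU]; exact he1.mul_right _
    · rw [hD]; exact dvd_add (he2.mul_left _) (he3.mul_left _)
  · set γ' := mkSL X (X * k - t) U (U * k + s) (by linear_combination hst)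
    set w : ℂ := ((g : ℂ) * τ + (b'.toNat : ℕ)) / ((N / g : ℕ) : ℂ) with hw
    have hgpos : (0 : ℝ) < g := by
      have : g ≠ 0 := fun h => hg0 (by simp [h])
      exact_mod_cast Nat.pos_of_ne_zero this
    have hdpos : (0 : ℝ) < ((N / g : ℕ) : ℝ) := by
      rw [hdiv]; exact_mod_cast (show 0 < δ.toNat by omega)
    have hwim : 0 < w.im := by
      rw [hw, Complex.div_natCast_im]
      simp
      positivity
    rw [show jConj N (g, b'.toNat) τ = jFun (ofComplex w) from rfl,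
      ← jFun_ofComplex_moebius γ' w hwim]
    congr 2
    have hd0 : ((N / g : ℕ) : ℂ) ≠ 0 := by exact_mod_cast hdpos.ne'
    have hbc : ((b'.toNat : ℕ) : ℂ) = (b' : ℂ) := by
      exact_mod_cast Int.toNat_of_nonneg hb'0
    have hdc : ((N / g : ℕ) : ℂ) = (δ : ℂ) := by
      rw [hdiv]; exact_mod_cast Int.toNat_of_nonneg hδpos.le
    simp only [γ', mkSL, Matrix.cons_val', Matrix.cons_val_zero, Matrix.cons_val_one,
      Matrix.cons_val_fin_one, Matrix.of_apply, hw, hbc, hdc]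
    rw [hB, hD, hX, hU]
    rw [hdc] at hd0
    push_cast
    field_simp
    ring

/-- `jConj N p ∘ γ` is again one of the conjugates. -/
theorem exists_jConj_comp_smul {N : ℕ} [NeZero N] {p : ℕ × ℕ} (hp : p ∈ hermiteSet N)
    (γ : SL(2, ℤ)) :
    ∃ r ∈ hermiteSet N,
      r.1 = Int.gcd (p.1 * γ 0 0 + p.2 * γ 1 0) (((N / p.1 : ℕ) : ℤ) * γ 1 0) ∧
      ∀ τ : ℍ, jConj N p (γ • τ) = jConj N r τ := by
  obtain ⟨hdvd, -, hgcd⟩ := mem_hermiteSet.mp hp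
  have hdet := SL_det_eq γ
  have hN : (p.1 : ℤ) * ((N / p.1 : ℕ) : ℤ) = N := by exact_mod_cast Nat.mul_div_cancel' hdvd
  obtain ⟨r, hr, hr1, hr2⟩ := exists_reduce (N := N)
    (A := p.1 * γ 0 0 + p.2 * γ 1 0) (B := p.1 * γ 0 1 + p.2 * γ 1 1)
    (C := ((N / p.1 : ℕ) : ℤ) * γ 1 0) (D := ((N / p.1 : ℕ) : ℤ) * γ 1 1)
    (by linear_combination (p.1 : ℤ) * ((N / p.1 : ℕ) : ℤ) * hdet + hN)
    (fun e hA hB hC hD => by
      have ha : (e : ℤ) ∣ (p.1 : ℤ) := by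
        have := dvd_sub (hA.mul_right (γ 1 1)) (hB.mul_right (γ 1 0))
        rwa [show ((p.1 : ℤ) * γ 0 0 + p.2 * γ 1 0) * γ 1 1
          - (p.1 * γ 0 1 + p.2 * γ 1 1) * γ 1 0 = p.1 by linear_combination (p.1 : ℤ) * hdet] at this
      have hb : (e : ℤ) ∣ (p.2 : ℤ) := by
        have := dvd_sub (hB.mul_right (γ 0 0)) (hA.mul_right (γ 0 1))
        rwa [show ((p.1 : ℤ) * γ 0 1 + p.2 * γ 1 1) * γ 0 0
          - (p.1 * γ 0 0 + p.2 * γ 1 0) * γ 0 1 = p.2 by linear_combination (p.2 : ℤ) * hdet] at this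
      have hd : (e : ℤ) ∣ ((N / p.1 : ℕ) : ℤ) := by
        have := dvd_sub (hD.mul_right (γ 0 0)) (hC.mul_right (γ 0 1))
        rwa [show ((N / p.1 : ℕ) : ℤ) * γ 1 1 * γ 0 0 - ((N / p.1 : ℕ) : ℤ) * γ 1 0 * γ 0 1
          = ((N / p.1 : ℕ) : ℤ) by linear_combination ((N / p.1 : ℕ) : ℤ) * hdet] at this
      rw [Int.natCast_dvd_natCast] at ha hb hd
      exact Nat.eq_one_of_dvd_one (hgcd ▸ Nat.dvd_gcd ha (Nat.dvd_gcd hb hd)))
  refine ⟨r, hr, hr1, fun τ => ?_⟩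
  rw [← hr2 τ]
  simp only [jConj]
  congr 2
  generalize hdd : N / p.1 = d
  have h0 := SL_den_ne_zero γ τ
  have hd0 : (d : ℂ) ≠ 0 := by
    rw [← hdd]; exact_mod_cast (div_pos_of_mem hp).ne'
  rw [coe_SL_smul]
  push_cast
  set D : ℂ := (γ 1 0 : ℤ) * (τ : ℂ) + (γ 1 1 : ℤ) with hDdef
  rw [show (d : ℂ) * (γ 1 0 : ℤ) * (τ : ℂ) + (d : ℂ) * (γ 1 1 : ℤ) = d * D by rw [hDdef]; ring,
    show ((p.1 : ℂ) * (γ 0 0 : ℤ) + (p.2 : ℂ) * (γ 1 0 : ℤ)) * (τ : ℂ)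
      + ((p.1 : ℂ) * (γ 0 1 : ℤ) + (p.2 : ℂ) * (γ 1 1 : ℤ))
      = (p.1 : ℂ) * ((γ 0 0 : ℤ) * (τ : ℂ) + (γ 0 1 : ℤ)) + p.2 * D by rw [hDdef]; ring]
  clear_value D
  field_simp

theorem exists_coprime_add_mul {a b d : ℕ} (ha : a ≠ 0) (h : Nat.gcd a (Nat.gcd b d) = 1) :
    ∃ k : ℕ, Nat.Coprime a (b + d * k) := by
  classical
  refine ⟨∏ p ∈ a.primeFactors.filter (fun p => ¬ p ∣ b), p,
    Nat.coprime_of_dvd fun p hp hpa hpb => ?_⟩
  set k := ∏ p ∈ a.primeFactors.filter (fun p => ¬ p ∣ b), p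
  by_cases hb : p ∣ b
  · have hdk : p ∣ d * k := (Nat.dvd_add_right hb).mp hpb
    rcases hp.dvd_mul.mp hdk with hd | hk
    · exact hp.ne_one (Nat.eq_one_of_dvd_one (h ▸ Nat.dvd_gcd hpa (Nat.dvd_gcd hb hd)))
    · obtain ⟨r, hr, hpr⟩ := (hp.prime.dvd_finsetProd_iff _).mp hk
      simp only [Finset.mem_filter, Nat.mem_primeFactors] at hr
      exact hr.2 (((Nat.prime_dvd_prime_iff_eq hp hr.1.1).mp hpr) ▸ hb)
  · have hk : p ∣ k :=
      Finset.dvd_prod_of_mem _ (Finset.mem_filter.mpr ⟨hp.mem_primeFactors hpa ha, hb⟩)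
    exact hb ((Nat.dvd_add_left (hk.mul_left d)).mp hpb)

/-- Every conjugate is `j(Nτ)` moved by `SL(2, ℤ)`. -/
theorem exists_jMul_comp_smul_eq {N : ℕ} [NeZero N] {p : ℕ × ℕ} (hp : p ∈ hermiteSet N) :
    ∃ γ : SL(2, ℤ), ∀ τ : ℍ, jMul N (γ • τ) = jConj N p τ := by
  obtain ⟨hdvd, -, hgcd⟩ := mem_hermiteSet.mp hp
  obtain ⟨k, hk⟩ := exists_coprime_add_mul (fst_pos_of_mem hp).ne' hgcd
  set d := N / p.1 with hd
  set v : ℕ := p.2 + d * k with hv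
  obtain ⟨x, y, hxy⟩ := Int.isCoprime_iff_gcd_eq_one.mpr
    (show Int.gcd (v : ℤ) (p.1 : ℤ) = 1 by simpa [Int.gcd_natCast_natCast] using hk.symm)
  have hvz : (v : ℤ) = p.2 + d * k := by rw [hv]; push_cast; rfl
  refine ⟨mkSL x (-y) p.1 v (by linear_combination hxy), fun τ => ?_⟩
  set γ := mkSL x (-y) p.1 v (by linear_combination hxy) with hγdef
  set w : ℂ := ((p.1 : ℂ) * τ + (p.2 : ℕ)) / ((N / p.1 : ℕ) : ℂ) with hw
  have ha : (0 : ℝ) < p.1 := by exact_mod_cast fst_pos_of_mem hp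
  have hdpos : (0 : ℝ) < ((N / p.1 : ℕ) : ℝ) := by exact_mod_cast div_pos_of_mem hp
  have hwim : 0 < w.im := by
    rw [hw, Complex.div_natCast_im]
    simp
    positivity
  set γ' := mkSL (d * x) ((p.1 : ℤ) * (-y) - p.2 * x) 1 k
    (by linear_combination hxy - x * hvz) with hγ'
  rw [show jConj N p τ = jFun (ofComplex w) from rfl, ← jFun_ofComplex_moebius γ' w hwim]
  simp only [jMul]
  congr 2
  have h0 := SL_den_ne_zero γ τ
  have hd0 : ((N / p.1 : ℕ) : ℂ) ≠ 0 := by exact_mod_cast hdpos.ne'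
  have hNc : (N : ℂ) = (p.1 : ℂ) * ((N / p.1 : ℕ) : ℂ) := by
    exact_mod_cast (Nat.mul_div_cancel' hdvd).symm
  rw [coe_SL_smul]
  simp only [hγ', hγdef, mkSL, Matrix.cons_val', Matrix.cons_val_zero,
    Matrix.cons_val_one, Matrix.cons_val_fin_one, Matrix.of_apply, hvz] at h0 ⊢
  push_cast at h0 ⊢
  rw [hw, hNc]
  simp only [← hd] at hd0 ⊢
  set D : ℂ := (p.1 : ℂ) * (τ : ℂ) + ((p.2 : ℂ) + (d : ℂ) * (k : ℂ)) with hDdef
  rw [show (1 : ℂ) * (((p.1 : ℂ) * (τ : ℂ) + (p.2 : ℂ)) / (d : ℂ)) + (k : ℂ) = D / d by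
    rw [hDdef]; field_simp; ring]
  field_simp
  ring

theorem jMul_smul_of_mem {N d : ℕ} (hd : d ∣ N) (hd0 : d ≠ 0) {γ : SL(2, ℤ)}
    (hγ : γ ∈ Gamma0 N) (τ : ℍ) : jMul d (γ • τ) = jMul d τ := by
  obtain ⟨c, hc⟩ : (d : ℤ) ∣ γ 1 0 := (Int.natCast_dvd_natCast.mpr hd).trans
    ((ZMod.intCast_zmod_eq_zero_iff_dvd _ _).mp (Gamma0_mem.mp hγ))
  set γ' := mkSL (γ 0 0) (d * γ 0 1) c (γ 1 1)
    (by have := SL_det_eq γ; linear_combination this + γ 0 1 * hc) with hγ'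
  have him : 0 < ((d : ℂ) * τ).im := by
    have : (0 : ℝ) < d := by exact_mod_cast Nat.pos_of_ne_zero hd0
    simp; positivity
  rw [show jMul d τ = jFun (ofComplex ((d : ℂ) * τ)) from rfl,
    ← jFun_ofComplex_moebius γ' _ him]
  simp only [jMul]
  congr 2
  have h0 := SL_den_ne_zero γ τ
  simp only [hγ', mkSL, coe_SL_smul, Matrix.cons_val', Matrix.cons_val_zero,
    Matrix.cons_val_one, Matrix.cons_val_fin_one, Matrix.of_apply]
  rw [hc] at h0 ⊢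
  push_cast at h0 ⊢
  have h0' : (c : ℂ) * ((d : ℂ) * τ) + (γ 1 1 : ℤ) ≠ 0 := by
    convert h0 using 1; ring
  field_simp

/-- `jMul d ∈ modFunRing N` for `d ∣ N`. -/
theorem jMul_mem {N d : ℕ} [NeZero N] (hd : d ∣ N) : jMul d ∈ modFunRing N := by
  have hd0 : d ≠ 0 := fun h => NeZero.ne N (Nat.eq_zero_of_zero_dvd (h ▸ hd))
  haveI : NeZero d := ⟨hd0⟩
  refine ⟨mdifferentiable_jMul hd0, fun γ hγ τ => jMul_smul_of_mem hd hd0 hγ τ, fun γ => ?_⟩
  obtain ⟨r, hr, -, hr2⟩ := exists_jConj_comp_smul (top_mem_hermiteSet d) γ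
  simp only [jConj_top] at hr2
  simp only [hr2]
  exact (expands_jConj hr).mem_expRing_width hd

theorem qL_jMul {N d : ℕ} [NeZero N] [NeZero d] (hd : d ∣ N) :
    qL N ⟨jMul d, jMul_mem hd⟩ = ModularCurve.qExpand ℂ d (ModularCurve.jqModC ℂ) :=
  qL_eq_of_expands expands_jMul

theorem qL_jFun (N : ℕ) [NeZero N] : qL N ⟨jFun, jFun_mem⟩ = ModularCurve.jqModC ℂ :=
  qL_eq_of_expands expands_jFun

end Action

end FLTAgent.ModPoly
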