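import Fermat.Agent.Dim.Gamma0Cosets
import Fermat.Agent.ModPoly.Hermite

/-!
# `SL(2, ℤ)` permutes the conjugates of `j(Nτ)` transitively with stabiliser `Γ₀(N)`
-/

set_option autoImplicit false

noncomputable section

open Filter Function Complex CongruenceSubgroup
open UpperHalfPlane hiding I
open scoped Real Topology MatrixGroups ModularForm Manifold

namespace FLTAgent.ModPoly

variable (N : ℕ) [NeZero N]

/-- Index type of the conjugates. -/
abbrev HIdx : Type := ↥(hermiteSet N)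

/-- The index of `j(Nτ)` itself. -/
def topIdx : HIdx N := ⟨(N, 0), top_mem_hermiteSet N⟩

variable {N}

theorem exists_idx_comp_smul (p : HIdx N) (γ : SL(2, ℤ)) :
    ∃ r : HIdx N, ∀ τ : ℍ, jConj N p (γ • τ) = jConj N r τ := by
  obtain ⟨r, hr, -, hr2⟩ := exists_jConj_comp_smul p.2 γ
  exact ⟨⟨r, hr⟩, hr2⟩

/-- The action of `γ` on indices. -/
def permIdx (γ : SL(2, ℤ)) (p : HIdx N) : HIdx N := (exists_idx_comp_smul p γ).choose

theorem jConj_smul (γ : SL(2, ℤ)) (p : HIdx N) (τ : ℍ) :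
    jConj N p (γ • τ) = jConj N (permIdx γ p) τ :=
  (exists_idx_comp_smul p γ).choose_spec τ

theorem idx_ext {p r : HIdx N} (h : ∀ τ, jConj N p τ = jConj N r τ) : p = r :=
  Subtype.ext (jConj_injective p.2 r.2 (funext h))

theorem permIdx_injective (γ : SL(2, ℤ)) : Injective (permIdx (N := N) γ) := fun p r h => by
  refine idx_ext fun τ => ?_
  have h1 := jConj_smul γ p (γ⁻¹ • τ)
  have h2 := jConj_smul γ r (γ⁻¹ • τ)
  rw [smul_inv_smul] at h1 h2
  rw [h1, h2, h]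

theorem permIdx_bijective (γ : SL(2, ℤ)) : Bijective (permIdx (N := N) γ) :=
  Finite.injective_iff_bijective.mp (permIdx_injective γ)

theorem jConj_topIdx : jConj N (topIdx N) = jMul N := jConj_top N

/-- `j(Nγτ) = j(Nτ)` exactly for `γ ∈ Γ₀(N)`. -/
theorem mem_Gamma0_iff_jMul_smul {γ : SL(2, ℤ)} :
    γ ∈ Gamma0 N ↔ ∀ τ : ℍ, jMul N (γ • τ) = jMul N τ := by
  refine ⟨fun hγ τ => jMul_smul_of_mem dvd_rfl (NeZero.ne N) hγ τ, fun h => ?_⟩
  obtain ⟨r, hr, hr1, hr2⟩ := exists_jConj_comp_smul (top_mem_hermiteSet N) γ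
  simp only [jConj_top, h] at hr2
  have heq : (N, 0) = r := jConj_injective (top_mem_hermiteSet N) hr (by
    rw [jConj_top]; exact funext hr2)
  rw [← heq] at hr1
  have hc : (N : ℤ) ∣ ((N / (N, 0).1 : ℕ) : ℤ) * γ 1 0 := by
    have h1 := Int.gcd_dvd_right (((N, 0).1 : ℤ) * γ 0 0 + (((N, 0) : ℕ × ℕ).2 : ℤ) * γ 1 0)
      (((N / (N, 0).1 : ℕ) : ℤ) * γ 1 0)
    rwa [← hr1] at h1
  rw [show (N, 0).1 = N from rfl, Nat.div_self (Nat.pos_of_ne_zero (NeZero.ne N))] at hc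
  rw [Gamma0_mem, ZMod.intCast_zmod_eq_zero_iff_dvd]
  simpa using hc

/-- A representative moving `j(Nτ)` to the `p`-th conjugate. -/
def gammaIdx (p : HIdx N) : SL(2, ℤ) := (exists_jMul_comp_smul_eq p.2).choose

theorem jMul_gammaIdx_smul (p : HIdx N) (τ : ℍ) :
    jMul N (gammaIdx p • τ) = jConj N p τ :=
  (exists_jMul_comp_smul_eq p.2).choose_spec τ

theorem jMul_smul_eq_jConj (γ : SL(2, ℤ)) (τ : ℍ) :
    jMul N (γ • τ) = jConj N (permIdx γ (topIdx N)) τ := by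
  rw [← jConj_smul, jConj_topIdx]

theorem gammaIdx_mul_mul_inv_mem (γ : SL(2, ℤ)) (p : HIdx N) :
    gammaIdx p * γ * (gammaIdx (permIdx γ p))⁻¹ ∈ Gamma0 N := by
  rw [mem_Gamma0_iff_jMul_smul]
  intro τ
  rw [mul_smul, mul_smul, jMul_gammaIdx_smul, jConj_smul, ← jMul_gammaIdx_smul, smul_inv_smul]

theorem gammaIdx_topIdx_mem : gammaIdx (topIdx N) ∈ Gamma0 N := by
  rw [mem_Gamma0_iff_jMul_smul]
  intro τ
  rw [jMul_gammaIdx_smul, jConj_topIdx]

theorem mk_inv_gammaIdx_bijective :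
    Bijective fun p : HIdx N => (((gammaIdx p)⁻¹ : SL(2, ℤ)) : SL(2, ℤ) ⧸ Gamma0 N) := by
  refine ⟨fun p r h => ?_, fun q => ?_⟩
  · rw [QuotientGroup.eq, inv_inv] at h
    refine idx_ext fun τ => ?_
    have := mem_Gamma0_iff_jMul_smul.mp h (gammaIdx r • τ)
    rw [mul_smul, inv_smul_smul] at this
    rw [← jMul_gammaIdx_smul, ← jMul_gammaIdx_smul, this]
  · induction q using QuotientGroup.induction_on with
    | H g =>
      refine ⟨permIdx g⁻¹ (topIdx N), ?_⟩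
      rw [QuotientGroup.eq, inv_inv, mem_Gamma0_iff_jMul_smul]
      intro τ
      rw [mul_smul, jMul_gammaIdx_smul, ← jConj_smul, jConj_topIdx, inv_smul_smul]

/-- There are `ψ(N)` conjugates. -/
theorem card_hermiteSet (N : ℕ) [NeZero N] : (hermiteSet N).card = ModularCurve.dedekindPsi N := by
  rw [← FLTAgent.Dim.index_gamma0 N, Subgroup.index, ← Nat.card_congr
    (Equiv.ofBijective _ (mk_inv_gammaIdx_bijective (N := N))), Nat.card_eq_fintype_card, Fintype.card_coe]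

theorem card_hIdx (N : ℕ) [NeZero N] : Fintype.card (HIdx N) = ModularCurve.dedekindPsi N := by
  rw [Fintype.card_coe, card_hermiteSet]

theorem qLAt_gammaIdx_jMul (p : HIdx N) :
    qLAt N (gammaIdx p) ⟨jMul N, jMul_mem dvd_rfl⟩ = jqConj ℂ (zetaC N) p :=
  qLAt_eq_of_expands ((expands_jConj p.2).congr_fun'
    (Eventually.of_forall fun τ => (jMul_gammaIdx_smul p τ).symm))

theorem qLAt_jFun (γ : SL(2, ℤ)) :
    qLAt N γ ⟨jFun, jFun_mem⟩ = ModularCurve.qExpand ℂ N (ModularCurve.jqModC ℂ) := by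
  refine qLAt_eq_of_expands ?_
  have h := expands_jFun.width_mul (k := N)
  rw [one_mul] at h
  exact h.congr_fun' (Eventually.of_forall fun τ => (jFun_smul γ τ).symm)

end FLTAgent.ModPoly
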