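import Mathlib.Algebra.Polynomial.Roots
import Mathlib.RingTheory.IntegralClosure.Algebra.Basic
import Fermat.Agent.ModPoly.Perm

/-!
# The modular polynomial over `ℂ`
-/

set_option autoImplicit false

noncomputable section

open Filter Function Complex CongruenceSubgroup Polynomial
open UpperHalfPlane hiding I
open scoped Real Topology MatrixGroups ModularForm Manifold

namespace FLTAgent.ModPoly

section Ev2

variable {K A B : Type*} [CommRing K] [CommRing A] [CommRing B] [Algebra K A] [Algebra K B]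

/-- Evaluate `P ∈ K[x][y]` at `(x, y)`. -/
def ev2 (x y : A) : K[X][X] →+* A :=
  eval₂RingHom ((aeval x : K[X] →ₐ[K] A) : K[X] →+* A) y

theorem ev2_apply (x y : A) (P : K[X][X]) :
    ev2 x y P = P.eval₂ ((aeval x : K[X] →ₐ[K] A) : K[X] →+* A) y :=
  rfl

@[simp]
theorem ev2_C (x y : A) (p : K[X]) : ev2 x y (C p) = aeval x p := by simp [ev2]

@[simp]
theorem ev2_X (x y : A) : ev2 (K := K) x y X = y := by simp [ev2]

theorem map_ev2 (φ : A →ₐ[K] B) (x y : A) (P : K[X][X]) :
    φ (ev2 x y P) = ev2 (φ x) (φ y) P := by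
  rw [ev2_apply, ev2_apply, show φ (P.eval₂ ((aeval x : K[X] →ₐ[K] A) : K[X] →+* A) y)
    = (φ : A →+* B) (P.eval₂ ((aeval x : K[X] →ₐ[K] A) : K[X] →+* A) y) from rfl, hom_eval₂]
  congr 1
  refine RingHom.ext fun p => ?_
  simp [aeval_algHom_apply]

theorem ev2_eq_eval_map (x y : A) (P : K[X][X]) :
    ev2 x y P = (P.map ((aeval x : K[X] →ₐ[K] A) : K[X] →+* A)).eval y := by
  rw [ev2_apply, eval_map]

theorem ev2_eq_sum (x y : A) (P : K[X][X]) :
    ev2 x y P
      = P.sum fun i p => p.sum fun k c => algebraMap K A c * (x ^ k * y ^ i) := by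
  rw [ev2_apply, eval₂_def]
  refine Finset.sum_congr rfl fun i _ => ?_
  simp only [RingHom.coe_coe]
  rw [aeval_def, eval₂_def, Polynomial.sum, Polynomial.sum, Finset.sum_mul]
  exact Finset.sum_congr rfl fun k _ => by ring

end Ev2

/-- `jqModC` is transcendental. -/
theorem aeval_jqModC_injective (K : Type*) [Field K] :
    Injective (aeval (ModularCurve.jqModC K) : K[X] →ₐ[K] LaurentSeries K) := by
  rw [injective_iff_map_eq_zero]
  intro p hp
  by_contra hne
  have hlc : p.coeff p.natDegree ≠ 0 := mt leadingCoeff_eq_zero.mp hne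
  have h := congrArg (fun z : LaurentSeries K => z.coeff (-(p.natDegree : ℤ))) hp
  simp only [HahnSeries.coeff_zero] at h
  rw [aeval_eq_sum_range, HahnSeries.coeff_sum, Finset.sum_range_succ,
    Finset.sum_eq_zero (fun i hi => ?_), zero_add, Algebra.smul_def,
    ModularCurve.algebraMap_laurentSeries_eq_single, HahnSeries.coeff_single_zero_mul,
    ModularCurve.coeff_jqModC_pow_self, mul_one] at h
  · exact hlc h
  · rw [Algebra.smul_def, ModularCurve.algebraMap_laurentSeries_eq_single,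
      HahnSeries.coeff_single_zero_mul, ModularCurve.coeff_jqModC_pow_of_lt K
        (by have := Finset.mem_range.mp hi; omega), mul_zero]

theorem qExpand_aeval {K : Type*} [Field K] (N : ℕ) [NeZero N] (x : LaurentSeries K) (p : K[X]) :
    ModularCurve.qExpand K N (aeval x p) = aeval (ModularCurve.qExpand K N x) p := by
  rw [show ModularCurve.qExpand K N (aeval x p)
    = (ModularCurve.qExpand K N) (p.eval₂ (algebraMap K (LaurentSeries K)) x) from rfl, hom_eval₂,
    aeval_def]
  congr 1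
  refine RingHom.ext fun c => ?_
  simp [ModularCurve.algebraMap_laurentSeries_eq_single]

theorem qExpand_ev2 {K : Type*} [Field K] (N : ℕ) [NeZero N] (x y : LaurentSeries K)
    (P : K[X][X]) :
    ModularCurve.qExpand K N (ev2 x y P)
      = ev2 (ModularCurve.qExpand K N x) (ModularCurve.qExpand K N y) P := by
  rw [ev2_apply, ev2_apply, hom_eval₂]
  congr 1
  exact RingHom.ext fun p => qExpand_aeval N x p

/-- The coefficientwise subring of Laurent series. -/
def coeffSubring (R : Subring ℂ) : Subring (LaurentSeries ℂ) where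
  carrier := {x | ∀ k, x.coeff k ∈ R}
  mul_mem' hx hy := coeff_mul_mem R hx hy
  one_mem' k := by
    rw [HahnSeries.coeff_one]
    split_ifs
    · exact R.one_mem
    · exact R.zero_mem
  add_mem' hx hy k := by
    rw [HahnSeries.coeff_add]
    exact R.add_mem (hx k) (hy k)
  zero_mem' k := by simp
  neg_mem' hx k := by
    rw [HahnSeries.coeff_neg]
    exact R.neg_mem (hx k)

/-- Algebraic integers. -/
def algInt : Subring ℂ := (integralClosure ℤ ℂ).toSubring

theorem jqConj_mem_coeffSubring {N : ℕ} [NeZero N] {p : ℕ × ℕ} (hp : p ∈ hermiteSet N) :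
    jqConj ℂ (zetaC N) p ∈ coeffSubring algInt := by
  haveI : NeZero (p.1 * p.1) := ⟨(Nat.mul_pos (fst_pos_of_mem hp) (fst_pos_of_mem hp)).ne'⟩
  rw [jqConj_eq]
  intro k
  by_cases hk : ((p.1 * p.1 : ℕ) : ℤ) ∣ k
  · obtain ⟨l, rfl⟩ := hk
    rw [ModularCurve.qExpand_coeff_mul, twist_coeff]
    refine algInt.mul_mem ?_ (coeff_jqModC_mem algInt l)
    refine IsIntegral.of_pow (Nat.pos_of_ne_zero (NeZero.ne N)) ?_
    rw [← Units.val_pow_eq_pow_val, ← zpow_natCast ((zetaC N ^ (p.1 * p.2)) ^ l) N, ← zpow_mul,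
      mul_comm l, zpow_mul, zpow_natCast, ← pow_mul, mul_comm (p.1 * p.2) N, pow_mul,
      (isPrimitiveRoot_zetaC N).pow_eq_one, one_pow, one_zpow, Units.val_one]
    exact isIntegral_one
  · rw [ModularCurve.qExpand_coeff_of_not_dvd _ _ hk]
    exact algInt.zero_mem

variable (N : ℕ) [NeZero N]

/-- Holomorphic functions with a width `N` expansion. -/
def holExp : Subalgebra ℂ (ℍ → ℂ) where
  carrier := {g | MDiff g ∧ g ∈ expRing N}
  mul_mem' a b := ⟨a.1.mul b.1, (expRing N).mul_mem a.2 b.2⟩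
  add_mem' a b := ⟨a.1.add b.1, (expRing N).add_mem a.2 b.2⟩
  algebraMap_mem' c := ⟨mdifferentiable_const, ⟨_, Expands.const N c⟩⟩

/-- Expansion of elements of `holExp N`. -/
def holExpHom : holExp N →ₐ[ℂ] LaurentSeries ℂ :=
  (qLaurentHom N).comp (Subalgebra.inclusion fun _ h => h.2)

theorem expands_holExpHom (g : holExp N) : Expands N (g : ℍ → ℂ) (holExpHom N g) :=
  expands_expSeries _

/-- Conjugates as elements of `holExp N`. -/
def jHol (p : HIdx N) : holExp N :=
  ⟨jConj N p, mdifferentiable_jConj p.2, (expands_jConj p.2).mem_expRing⟩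

theorem holExpHom_jHol (p : HIdx N) : holExpHom N (jHol N p) = jqConj ℂ (zetaC N) p :=
  (expands_holExpHom N (jHol N p)).unique (expands_jConj p.2)

/-- `∏ (X - j((aτ+b)/d))`. -/
def phiFun : (holExp N)[X] := ∏ p : HIdx N, (X - C (jHol N p))

/-- `∏ (X - jqConj)`. -/
def phiExp : (LaurentSeries ℂ)[X] := ∏ p : HIdx N, (X - C (jqConj ℂ (zetaC N) p))

theorem phiFun_map_holExpHom :
    (phiFun N).map (holExpHom N : holExp N →+* LaurentSeries ℂ) = phiExp N := by
  simp only [phiFun, phiExp, Polynomial.map_prod, Polynomial.map_sub, map_X, map_C,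
    RingHom.coe_coe, holExpHom_jHol]

theorem phiFun_monic : (phiFun N).Monic := monic_prod_X_sub_C _ _

omit [NeZero N] in
theorem phiExp_monic : (phiExp N).Monic := monic_prod_X_sub_C _ _

theorem natDegree_phiExp : (phiExp N).natDegree = ModularCurve.dedekindPsi N := by
  rw [phiExp, natDegree_finsetProd_X_sub_C_eq_card, Finset.card_univ, card_hIdx]

theorem phiExp_coeff_mem (i : ℕ) : (phiExp N).coeff i ∈ coeffSubring algInt := by
  set Q : (coeffSubring algInt)[X] :=
    ∏ p : HIdx N, (X - C ⟨_, jqConj_mem_coeffSubring p.2⟩)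
  have : phiExp N = Q.map (coeffSubring algInt).subtype := by
    simp [Q, phiExp, Polynomial.map_prod, Polynomial.map_sub]
  rw [this, coeff_map]
  exact (Q.coeff i).2

/-- Precomposition with `γ` on all functions. -/
def compHom (γ : SL(2, ℤ)) : (ℍ → ℂ) →+* (ℍ → ℂ) :=
  RingHom.pi fun τ => Pi.evalRingHom (fun _ : ℍ => ℂ) (γ • τ)

theorem compHom_apply (γ : SL(2, ℤ)) (g : ℍ → ℂ) (τ : ℍ) : compHom γ g τ = g (γ • τ) := rfl

theorem phiFun_coeff_smul (i : ℕ) (γ : SL(2, ℤ)) (τ : ℍ) :
    ((phiFun N).coeff i : ℍ → ℂ) (γ • τ) = ((phiFun N).coeff i : ℍ → ℂ) τ := by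
  have h : (phiFun N).map ((compHom γ).comp (holExp N).val.toRingHom)
      = (phiFun N).map (holExp N).val.toRingHom := by
    rw [phiFun, Polynomial.map_prod, Polynomial.map_prod]
    refine Fintype.prod_bijective _ (permIdx_bijective γ) _ _ fun p => ?_
    rw [Polynomial.map_sub, Polynomial.map_sub, map_X, map_X, map_C, map_C]
    refine congrArg (fun f => X - C f) (funext fun σ => ?_)
    exact jConj_smul γ p σ
  have h2 := congr_fun (congrArg (fun P : (ℍ → ℂ)[X] => P.coeff i) h) τ
  simp only [coeff_map] at h2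
  exact h2

/-- Invariant holomorphic functions with width `N` expansion in `R` are in `R[j]`. -/
theorem exists_polynomial_of_invariant (R : Subring ℂ) {g : ℍ → ℂ} (hg : g ∈ holExp N)
    (hinv : ∀ (γ : SL(2, ℤ)) (τ : ℍ), g (γ • τ) = g τ)
    (hR : holExpHom N ⟨g, hg⟩ ∈ coeffSubring R) :
    ∃ P : ℂ[X], (∀ i, P.coeff i ∈ R) ∧ g = evalJFun P := by
  have hmem : g ∈ modFunRing N := ⟨hg.1, fun γ _ τ => hinv γ τ, fun γ => by
    rw [funext (hinv γ)]; exact hg.2⟩
  have h1 := expands_qL (⟨g, hmem⟩ : modFunRing N)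
  refine exists_polynomial_of_levelOne R hg.1 hinv h1 fun k => ?_
  have h2 := h1.width_mul (k := N)
  rw [one_mul] at h2
  have e := (expands_holExpHom N ⟨g, hg⟩).unique h2
  rw [← ModularCurve.qExpand_coeff_mul N (qL N ⟨g, hmem⟩) k, ← e]
  exact hR _

theorem exists_coeff_phiExp_eq (i : ℕ) : ∃ P : ℂ[X], (∀ k, P.coeff k ∈ algInt) ∧
    aeval (ModularCurve.qExpand ℂ N (ModularCurve.jqModC ℂ)) P = (phiExp N).coeff i := by
  have hc : holExpHom N ((phiFun N).coeff i) = (phiExp N).coeff i := by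
    rw [← phiFun_map_holExpHom, coeff_map]; rfl
  obtain ⟨P, hPR, hP⟩ := exists_polynomial_of_invariant N algInt ((phiFun N).coeff i).2
    (phiFun_coeff_smul N i) (by rw [Subtype.coe_eta, hc]; exact phiExp_coeff_mem N i)
  refine ⟨P, hPR, ?_⟩
  have h1 := (expands_evalJFun P).width_mul (k := N)
  rw [one_mul, ← hP, qExpand_aeval] at h1
  rw [← hc]
  exact h1.unique (expands_holExpHom N _)

/-- The modular polynomial over `ℂ`. -/
def phiC : ℂ[X][X] :=
  ∑ i ∈ Finset.range (ModularCurve.dedekindPsi N), monomial i (exists_coeff_phiExp_eq N i).choose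
    + X ^ ModularCurve.dedekindPsi N

theorem phiC_coeff (i : ℕ) :
    (∀ k, ((phiC N).coeff i).coeff k ∈ algInt) ∧
      aeval (ModularCurve.qExpand ℂ N (ModularCurve.jqModC ℂ)) ((phiC N).coeff i)
        = (phiExp N).coeff i := by
  rw [phiC, coeff_add, finsetSum_coeff, coeff_X_pow]
  simp only [coeff_monomial, Finset.sum_ite_eq', Finset.mem_range]
  rcases lt_trichotomy i (ModularCurve.dedekindPsi N) with h | h | h
  · rw [if_pos h, if_neg h.ne, add_zero]
    exact (exists_coeff_phiExp_eq N i).choose_spec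
  · rw [if_neg (by omega), if_pos h, zero_add, map_one, h]
    refine ⟨fun k => ?_, ?_⟩
    · rw [coeff_one]
      split_ifs
      · exact algInt.one_mem
      · exact algInt.zero_mem
    · rw [← natDegree_phiExp, (phiExp_monic N).coeff_natDegree]
  · rw [if_neg (by omega), if_neg h.ne', add_zero, map_zero,
      coeff_eq_zero_of_natDegree_lt (natDegree_phiExp N ▸ h)]
    exact ⟨fun k => by simpa using algInt.zero_mem, rfl⟩

theorem phiC_map : (phiC N).map ((aeval (ModularCurve.qExpand ℂ N (ModularCurve.jqModC ℂ)) :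
    ℂ[X] →ₐ[ℂ] LaurentSeries ℂ) : ℂ[X] →+* LaurentSeries ℂ) = phiExp N :=
  Polynomial.ext fun i => by rw [coeff_map]; exact (phiC_coeff N i).2

theorem natDegree_phiC_le : (phiC N).natDegree ≤ ModularCurve.dedekindPsi N := by
  refine (natDegree_add_le _ _).trans (max_le ?_ (natDegree_X_pow_le _))
  refine natDegree_sum_le_of_forall_le _ _ fun i hi => ?_
  exact (natDegree_monomial_le _).trans (Finset.mem_range.mp hi).le

theorem phiC_coeff_top : (phiC N).coeff (ModularCurve.dedekindPsi N) = 1 := by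
  simp [phiC, coeff_monomial]

theorem phiC_monic : (phiC N).Monic :=
  monic_of_natDegree_le_of_coeff_eq_one _ (natDegree_phiC_le N) (phiC_coeff_top N)

theorem natDegree_phiC : (phiC N).natDegree = ModularCurve.dedekindPsi N :=
  le_antisymm (natDegree_phiC_le N)
    (le_natDegree_of_ne_zero (by rw [phiC_coeff_top]; exact one_ne_zero))

theorem jqConj_topIdx {K : Type*} [CommRing K] (ζ : Kˣ) :
    jqConj K ζ (topIdx N) = ModularCurve.qExpand K N (ModularCurve.jqNModC K N) := by
  haveI : NeZero ((N, 0).1 * (N, 0).1) := ⟨mul_ne_zero (NeZero.ne N) (NeZero.ne N)⟩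
  rw [show ((topIdx N : HIdx N) : ℕ × ℕ) = (N, 0) from rfl, jqConj_eq]
  simp only [mul_zero, pow_zero, twist_one_unit]
  rw [ModularCurve.jqNModC, ModularCurve.qExpand_qExpand]

theorem ev2_phiC : ev2 (ModularCurve.jqModC ℂ) (ModularCurve.jqNModC ℂ N) (phiC N) = 0 := by
  refine ModularCurve.qExpand_injective N (R := ℂ) ?_
  rw [map_zero, qExpand_ev2, ← jqConj_topIdx N (zetaC N), ev2_eq_eval_map, phiC_map, phiExp,
    eval_prod]
  exact Finset.prod_eq_zero (Finset.mem_univ (topIdx N)) (by simp)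

/-- No relation of degree `< ψ(N)` between `j` and `jN` over `ℂ`. -/
theorem eq_zero_of_ev2_eq_zero_complex {P : ℂ[X][X]}
    (hd : P.natDegree < ModularCurve.dedekindPsi N)
    (h : ev2 (ModularCurve.jqModC ℂ) (ModularCurve.jqNModC ℂ N) P = 0) : P = 0 := by
  set G : modFunRing N := ev2 (⟨jFun, jFun_mem⟩ : modFunRing N) ⟨jMul N, jMul_mem dvd_rfl⟩ P
  have hG : G = 0 := by
    apply qL_injective
    rw [map_zero, map_ev2, qL_jFun, qL_jMul dvd_rfl]
    exact h
  have hroot : ∀ p : HIdx N, (P.map ((aeval (ModularCurve.qExpand ℂ N (ModularCurve.jqModC ℂ)) :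
      ℂ[X] →ₐ[ℂ] LaurentSeries ℂ) : ℂ[X] →+* LaurentSeries ℂ)).eval (jqConj ℂ (zetaC N) p) = 0 := by
    intro p
    rw [← ev2_eq_eval_map, ← qLAt_jFun (gammaIdx p), ← qLAt_gammaIdx_jMul, ← map_ev2]
    exact (congrArg (qLAt N (gammaIdx p)) hG).trans (map_zero _)
  have hzero := eq_zero_of_natDegree_lt_card_of_eval_eq_zero _
    (fun p r e => Subtype.ext (jqConj_injective (isPrimitiveRoot_zetaC N) p.2 r.2 e)) hroot
    (natDegree_map_le.trans_lt (by rwa [card_hIdx]))
  refine (Polynomial.map_eq_zero_iff ?_).mp hzero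
  intro a b hab
  simp only [RingHom.coe_coe, ← qExpand_aeval] at hab
  exact aeval_jqModC_injective ℂ (ModularCurve.qExpand_injective N hab)

end FLTAgent.ModPoly
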