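import Mathlib.Algebra.Polynomial.Lifts
import Mathlib.LinearAlgebra.Dual.Lemmas
import Mathlib.RingTheory.Int.Basic
import Fermat.Prelude.Thm_ModularCurve_coeffMap_qExpand
import Fermat.Agent.ModPoly.Phi

/-!
# Descent to `ℚ`: the modular polynomial data
-/

set_option autoImplicit false

noncomputable section

open Polynomial ModularCurve

namespace FLTAgent.ModPoly

section Maps

variable {R S : Type*} [CommRing R] [CommRing S]

/-- Apply a ring map to the coefficients of a polynomial in two variables. -/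
def mapXY (f : R →+* S) : R[X][X] →+* S[X][X] := mapRingHom (mapRingHom f)

theorem coeff_mapXY (f : R →+* S) (P : R[X][X]) (i k : ℕ) :
    ((mapXY f P).coeff i).coeff k = f ((P.coeff i).coeff k) := by
  simp [mapXY]

theorem natDegree_mapXY_le (f : R →+* S) (P : R[X][X]) : (mapXY f P).natDegree ≤ P.natDegree :=
  natDegree_map_le

theorem mapXY_eq_zero_iff {f : R →+* S} (hf : Function.Injective f) {P : R[X][X]} :
    mapXY f P = 0 ↔ P = 0 :=
  Polynomial.map_eq_zero_iff (Polynomial.map_injective f hf)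

theorem coeffMap_jqModC' (f : R →+* S) : coeffMap f (jqModC R) = jqModC S := map_jqModC f

theorem coeffMap_jqNModC' (f : R →+* S) (N : ℕ) [NeZero N] :
    coeffMap f (jqNModC R N) = jqNModC S N := by
  rw [jqNModC, coeffMap_qExpand, coeffMap_jqModC', jqNModC]

end Maps

theorem coeffEmb_jq (K : Type*) [Field K] [Algebra ℚ K] : coeffEmb K jq = jqModC K := by
  rw [← jqModC_rat]; exact coeffMap_jqModC' _

theorem coeffEmb_qExpand_jq (K : Type*) [Field K] [Algebra ℚ K] (N : ℕ) [NeZero N] :
    coeffEmb K (qExpand ℚ N jq) = jqNModC K N := by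
  rw [← jqModC_rat]; exact coeffMap_jqNModC' _ N

theorem coeffMap_ev2 {K L : Type*} [Field K] [Field L] (f : K →+* L) (x y : LaurentSeries K)
    (P : K[X][X]) :
    coeffMap f (ev2 x y P) = ev2 (coeffMap f x) (coeffMap f y) (mapXY f P) := by
  suffices (coeffMap f).comp (ev2 x y) = (ev2 (coeffMap f x) (coeffMap f y)).comp (mapXY f) from
    RingHom.congr_fun this P
  refine Polynomial.ringHom_ext' (Polynomial.ringHom_ext (fun c => ?_) ?_) ?_
  · simp [mapXY, algebraMap_laurentSeries_eq_single]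
  · simp [mapXY]
  · simp [mapXY]

section Linear

variable {K : Type*} [Field K] [Algebra ℚ K]

/-- Apply a `ℚ`-linear form to the coefficients of a polynomial in two variables. -/
def linXY (s : K →ₗ[ℚ] ℚ) (P : K[X][X]) : ℚ[X][X] :=
  ∑ i ∈ Finset.range (P.natDegree + 1),
    monomial i (∑ k ∈ (P.coeff i).support, monomial k (s ((P.coeff i).coeff k)))

theorem coeff_linXY (s : K →ₗ[ℚ] ℚ) (P : K[X][X]) (i k : ℕ) :
    ((linXY s P).coeff i).coeff k = s ((P.coeff i).coeff k) := by
  simp only [linXY, finsetSum_coeff, coeff_monomial, Finset.sum_ite_eq', Finset.mem_range]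
  split_ifs with hi
  · simp only [finsetSum_coeff, coeff_monomial, Finset.sum_ite_eq', mem_support_iff]
    split_ifs with hk
    · rfl
    · rw [notMem_support_iff.mp hk, map_zero]
  · rw [coeff_zero, coeff_eq_zero_of_natDegree_lt (show P.natDegree < i by omega), coeff_zero,
      map_zero]

theorem natDegree_linXY_le (s : K →ₗ[ℚ] ℚ) (P : K[X][X]) :
    (linXY s P).natDegree ≤ P.natDegree := by
  refine natDegree_sum_le_of_forall_le _ _ fun i hi => ?_
  exact (natDegree_monomial_le _).trans (Nat.lt_succ_iff.mp (Finset.mem_range.mp hi))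

theorem linXY_add (s : K →ₗ[ℚ] ℚ) (P Q : K[X][X]) : linXY s (P + Q) = linXY s P + linXY s Q := by
  ext i k; simp [coeff_linXY]

theorem linXY_monomial (s : K →ₗ[ℚ] ℚ) (i k : ℕ) (c : K) :
    linXY s (monomial i (monomial k c)) = monomial i (monomial k (s c)) := by
  ext a b
  rcases eq_or_ne i a with rfl | h1
  · rcases eq_or_ne k b with rfl | h2
    · simp [coeff_linXY]
    · simp [coeff_linXY, coeff_monomial, h2]
  · simp [coeff_linXY, coeff_monomial, h1]

/-- The key descent identity. -/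
theorem coeff_ev2_linXY (N : ℕ) [NeZero N] (s : K →ₗ[ℚ] ℚ) (P : K[X][X]) (n : ℤ) :
    (ev2 jq (jqNModC ℚ N) (linXY s P)).coeff n
      = s ((ev2 (jqModC K) (jqNModC K N) P).coeff n) := by
  induction P using Polynomial.induction_on' with
  | add P Q hP hQ => simp [linXY_add, hP, hQ]
  | monomial i p =>
    induction p using Polynomial.induction_on' with
    | add p q hp hq =>
      simp only [map_add, linXY_add, HahnSeries.coeff_add]
      rw [hp, hq]
    | monomial k c =>
      rw [linXY_monomial]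
      simp only [ev2_apply, eval₂_monomial, RingHom.coe_coe, aeval_monomial, mul_assoc,
        algebraMap_laurentSeries_eq_single, HahnSeries.coeff_single_zero_mul]
      rw [← coeffEmb_jq K, ← coeffEmb_qExpand_jq K N, ← map_pow, ← map_pow, ← map_mul,
        coeffEmb_coeff, mul_comm c, ← Algebra.smul_def, map_smul, smul_eq_mul, mul_comm]
      rfl

theorem ev2_linXY_eq_zero {N : ℕ} [NeZero N] {P : K[X][X]}
    (h : ev2 (jqModC K) (jqNModC K N) P = 0) (s : K →ₗ[ℚ] ℚ) :
    ev2 jq (jqNModC ℚ N) (linXY s P) = 0 :=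
  HahnSeries.ext (funext fun n => by rw [coeff_ev2_linXY, h]; simp)

end Linear

variable (N : ℕ) [NeZero N]

/-- No relation of degree `< ψ(N)` between `j` and `jN` over any field of characteristic zero. -/
theorem eq_zero_of_ev2_eq_zero {K : Type*} [Field K] [Algebra ℚ K] {P : K[X][X]}
    (hd : P.natDegree < dedekindPsi N) (h : ev2 (jqModC K) (jqNModC K N) P = 0) : P = 0 := by
  have key : ∀ s : K →ₗ[ℚ] ℚ, linXY s P = 0 := fun s => by
    refine (mapXY_eq_zero_iff (algebraMap ℚ ℂ).injective).mp (eq_zero_of_ev2_eq_zero_complex N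
      ((natDegree_mapXY_le _ _).trans_lt ((natDegree_linXY_le s P).trans_lt hd)) ?_)
    have := congrArg (coeffMap (algebraMap ℚ ℂ)) (ev2_linXY_eq_zero h s)
    rwa [map_zero, coeffMap_ev2, ← jqModC_rat, coeffMap_jqModC', coeffMap_jqNModC'] at this
  ext i k
  refine (Module.forall_dual_apply_eq_zero_iff ℚ _).mp fun s => ?_
  rw [← coeff_linXY, key s, coeff_zero, coeff_zero]

theorem exists_lin_one : ∃ s : ℂ →ₗ[ℚ] ℚ, s 1 = 1 := by
  by_contra hne
  refine one_ne_zero ((Module.forall_dual_apply_eq_zero_iff ℚ (1 : ℂ)).mp fun s => ?_)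
  by_contra h
  exact hne ⟨(s 1)⁻¹ • s, by simp [h]⟩

theorem exists_phiC_rational : ∃ Q : ℚ[X][X], mapXY (algebraMap ℚ ℂ) Q = phiC N := by
  obtain ⟨s, hs⟩ := exists_lin_one
  refine ⟨linXY s (phiC N), ?_⟩
  have hd : (linXY s (phiC N)).natDegree ≤ dedekindPsi N :=
    (natDegree_linXY_le s _).trans (natDegree_phiC N).le
  have htop : ((mapXY (algebraMap ℚ ℂ)) (linXY s (phiC N))).coeff (dedekindPsi N) = 1 := by
    ext k
    rw [coeff_mapXY, coeff_linXY, phiC_coeff_top, coeff_one]
    split_ifs with hk <;> simp [hs]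
  refine sub_eq_zero.mp (eq_zero_of_ev2_eq_zero_complex N ?_ ?_)
  · have hpos : 0 < dedekindPsi N := by
      rw [← card_hermiteSet]; exact Finset.card_pos.mpr ⟨_, top_mem_hermiteSet N⟩
    rcases eq_or_ne (mapXY (algebraMap ℚ ℂ) (linXY s (phiC N)) - phiC N) 0 with h0 | h0
    · rwa [h0, natDegree_zero]
    refine lt_of_le_of_ne ((natDegree_sub_le _ _).trans
      (max_le ((natDegree_mapXY_le _ _).trans hd) (natDegree_phiC N).le)) fun he => h0 ?_
    rw [← leadingCoeff_eq_zero, leadingCoeff, he, coeff_sub, htop, phiC_coeff_top, sub_self]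
  · rw [map_sub, ev2_phiC, sub_zero]
    have := congrArg (coeffMap (algebraMap ℚ ℂ)) (ev2_linXY_eq_zero (ev2_phiC N) s)
    rwa [map_zero, coeffMap_ev2, ← jqModC_rat, coeffMap_jqModC', coeffMap_jqNModC'] at this

theorem phiC_coeff_int (i k : ℕ) : ∃ z : ℤ, (z : ℂ) = ((phiC N).coeff i).coeff k := by
  obtain ⟨Q, hQ⟩ := exists_phiC_rational N
  have hint : IsIntegral ℤ (algebraMap ℚ ℂ ((Q.coeff i).coeff k)) := by
    rw [← coeff_mapXY, hQ]
    exact (phiC_coeff N i).1 k
  rw [isIntegral_algebraMap_iff (algebraMap ℚ ℂ).injective] at hint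
  obtain ⟨z, hz⟩ := IsIntegrallyClosed.isIntegral_iff.mp hint
  refine ⟨z, ?_⟩
  rw [← hQ, coeff_mapXY, ← hz]
  simp

theorem exists_phiZ : ∃ Φ : ℤ[X][X], mapXY (Int.castRingHom ℂ) Φ = phiC N ∧
    Φ.Monic ∧ Φ.natDegree = dedekindPsi N := by
  have hl : phiC N ∈ lifts (mapRingHom (Int.castRingHom ℂ)) := by
    rw [lifts_iff_coeff_lifts]
    intro i
    rw [Set.mem_range]
    obtain ⟨p, hp⟩ := mem_lifts _ |>.mp
      (show (phiC N).coeff i ∈ lifts (Int.castRingHom ℂ) from
        lifts_iff_coeff_lifts _ |>.mpr fun k => phiC_coeff_int N i k)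
    exact ⟨p, hp⟩
  obtain ⟨Φ, h1, h2, h3⟩ := lifts_and_natDegree_eq_and_monic hl (phiC_monic N)
  exact ⟨Φ, h1, h3, h2.trans (natDegree_phiC N)⟩

/-- The modular polynomial `Φ_N ∈ ℤ[j][X]`. -/
def phiZ : ℤ[X][X] := (exists_phiZ N).choose

theorem mapXY_phiZ : mapXY (Int.castRingHom ℂ) (phiZ N) = phiC N := (exists_phiZ N).choose_spec.1

theorem phiZ_monic : (phiZ N).Monic := (exists_phiZ N).choose_spec.2.1

theorem natDegree_phiZ : (phiZ N).natDegree = dedekindPsi N := (exists_phiZ N).choose_spec.2.2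

/-- `Φ_N` with coefficients in `K`. -/
def phiK (K : Type*) [CommRing K] : K[X][X] := mapXY (Int.castRingHom K) (phiZ N)

theorem phiK_monic (K : Type*) [CommRing K] : (phiK N K).Monic := (phiZ_monic N).map _

theorem natDegree_phiK (K : Type*) [CommRing K] [Nontrivial K] :
    (phiK N K).natDegree = dedekindPsi N :=
  ((phiZ_monic N).natDegree_map _).trans (natDegree_phiZ N)

theorem phiK_complex : phiK N ℂ = phiC N := mapXY_phiZ N

theorem mapXY_phiK {K L : Type*} [CommRing K] [CommRing L] (f : K →+* L) :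
    mapXY f (phiK N K) = phiK N L := by
  ext i k; simp [phiK, coeff_mapXY]

theorem ev2_phiK (K : Type*) [Field K] [Algebra ℚ K] :
    ev2 (jqModC K) (jqNModC K N) (phiK N K) = 0 := by
  have hQ : ev2 (jqModC ℚ) (jqNModC ℚ N) (phiK N ℚ) = 0 := by
    refine HahnSeries.ext (funext fun n => (algebraMap ℚ ℂ).injective ?_)
    rw [HahnSeries.coeff_zero, map_zero, ← coeffMap_coeff, coeffMap_ev2, coeffMap_jqModC',
      coeffMap_jqNModC', mapXY_phiK, phiK_complex, ev2_phiC, HahnSeries.coeff_zero]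
  have := congrArg (coeffMap (algebraMap ℚ K)) hQ
  rwa [map_zero, coeffMap_ev2, coeffMap_jqModC', coeffMap_jqNModC', mapXY_phiK] at this

/-- `ModularPolynomialData` exists for every level. -/
def modularPolynomialData : ModularPolynomialData N where
  Φ := phiZ N
  monic := phiZ_monic N
  natDegree_eq := natDegree_phiZ N
  eval_eq_zero := by
    have h := ev2_phiK N ℚ
    rw [phiK, mapXY, coe_mapRingHom, ev2_apply, eval₂_map] at h
    have he : ((aeval (jqModC ℚ) : ℚ[X] →ₐ[ℚ] LaurentSeries ℚ) : ℚ[X] →+* LaurentSeries ℚ).comp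
        (mapRingHom (Int.castRingHom ℚ)) = evalAtJ :=
      Polynomial.ringHom_ext (fun n => by simp) (by simp [jqModC_rat])
    rw [he] at h
    exact h

end FLTAgent.ModPoly
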