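import Mathlib.FieldTheory.IntermediateField.Adjoin.Algebra
import Mathlib.FieldTheory.Minpoly.Field
import Fermat.Agent.ModPoly.Rational

/-!
# The field `K(j, jN)`: degree, normal form and descent
-/

set_option autoImplicit false

noncomputable section

open Polynomial ModularCurve IntermediateField

namespace FLTAgent.ModPoly

variable (K : Type*) [Field K] (N : ℕ) [NeZero N]

/-- `p ↦ p(j)` into `K(j)`. -/
def evalJK : K[X] →+* K⟮jqModC K⟯ :=
  ((aeval (⟨jqModC K, mem_adjoin_simple_self K (jqModC K)⟩ : K⟮jqModC K⟯) :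
    K[X] →ₐ[K] K⟮jqModC K⟯) : K[X] →+* K⟮jqModC K⟯)

theorem coe_evalJK (p : K[X]) :
    (evalJK K p : LaurentSeries K) = aeval (jqModC K) p := by
  rw [evalJK, RingHom.coe_coe, ← IntermediateField.coe_val, ← aeval_algHom_apply]
  rfl

theorem algebraMap_comp_evalJK :
    (algebraMap K⟮jqModC K⟯ (LaurentSeries K)).comp (evalJK K)
      = ((aeval (jqModC K) : K[X] →ₐ[K] LaurentSeries K) : K[X] →+* LaurentSeries K) :=
  RingHom.ext fun p => coe_evalJK K p

theorem evalJK_injective : Function.Injective (evalJK K) := fun p q h =>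
  aeval_jqModC_injective K (by rw [← coe_evalJK, ← coe_evalJK, h])

theorem aeval_map_evalJK (a : K[X][X]) :
    aeval (jqNModC K N) (a.map (evalJK K)) = ev2 (jqModC K) (jqNModC K N) a := by
  rw [aeval_def, eval₂_map, algebraMap_comp_evalJK, ev2_apply]

theorem exists_mul_eq_map (p : (K⟮jqModC K⟯)[X]) :
    ∃ (a : K[X][X]) (b : K[X]), b ≠ 0 ∧ a.natDegree ≤ p.natDegree ∧
      C (evalJK K b) * p = a.map (evalJK K) := by
  classical
  have hc : ∀ i, ∃ r s : K[X], s ≠ 0 ∧ evalJK K s * p.coeff i = evalJK K r := by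
    intro i
    obtain ⟨r, s, h⟩ := (mem_adjoin_simple_iff K (p.coeff i : LaurentSeries K)).mp (p.coeff i).2
    rcases eq_or_ne (aeval (jqModC K) s) 0 with h0 | h0
    · refine ⟨0, 1, one_ne_zero, ?_⟩
      rw [map_one, one_mul, map_zero]
      exact Subtype.ext (by rw [h, h0, div_zero]; rfl)
    · refine ⟨r, s, fun hs => h0 (by rw [hs, map_zero]), Subtype.ext ?_⟩
      rw [MulMemClass.coe_mul, coe_evalJK, coe_evalJK, h, mul_div_cancel₀ _ h0]
  choose r s hs hrs using hc
  set n := p.natDegree + 1 with hn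
  refine ⟨∑ i ∈ Finset.range n,
      monomial i (r i * ∏ k ∈ (Finset.range n).erase i, s k),
    ∏ k ∈ Finset.range n, s k, Finset.prod_ne_zero_iff.mpr fun k _ => hs k, ?_, ?_⟩
  · exact natDegree_sum_le_of_forall_le _ _ fun i hi => (natDegree_monomial_le _).trans
      (Nat.lt_succ_iff.mp (Finset.mem_range.mp hi))
  · rw [Polynomial.map_sum]
    conv_lhs => rw [p.as_sum_range' n (by omega), Finset.mul_sum]
    refine Finset.sum_congr rfl fun i hi => ?_
    rw [C_mul_monomial, map_monomial, map_mul (evalJK K), ← hrs i,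
      ← Finset.mul_prod_erase _ s hi, map_mul (evalJK K)]
    congr 1
    ring

variable [Algebra ℚ K]

/-- Multiplication by a rational series commutes with linear forms on the coefficients. -/
theorem coeff_mul_of_lin (s : K →ₗ[ℚ] ℚ) (x : LaurentSeries ℚ) {y : LaurentSeries K}
    {y' : LaurentSeries ℚ} (h : ∀ k, y'.coeff k = s (y.coeff k)) (n : ℤ) :
    (x * y').coeff n = s ((coeffEmb K x * y).coeff n) := by
  have h1 : y'.support ⊆ y.support := fun k hk hyk => hk (by rw [h, hyk, map_zero])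
  have h2 : (coeffEmb K x).support ⊆ x.support := fun k hk hxk =>
    hk (by rw [coeffEmb_coeff, hxk, map_zero])
  rw [HahnSeries.coeff_mul_right' y.isPWO_support h1,
    HahnSeries.coeff_mul_left' x.isPWO_support h2, map_sum]
  refine Finset.sum_congr rfl fun ij _ => ?_
  rw [coeffEmb_coeff, ← Algebra.smul_def, map_smul, smul_eq_mul, h]

theorem eq_zero_of_aeval_eq_zero {p : (K⟮jqModC K⟯)[X]} (hd : p.natDegree < dedekindPsi N)
    (h : aeval (jqNModC K N) p = 0) : p = 0 := by
  obtain ⟨a, b, hb, hda, hab⟩ := exists_mul_eq_map K p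
  have ha : a = 0 := eq_zero_of_ev2_eq_zero N (hda.trans_lt hd)
    (by rw [← aeval_map_evalJK, ← hab, map_mul, h, mul_zero])
  rw [ha, Polynomial.map_zero, mul_eq_zero, C_eq_zero] at hab
  exact hab.resolve_left fun e => hb (evalJK_injective K (e.trans (map_zero _).symm))

/-- `Φ_N` over `K(j)`. -/
def phiJ : (K⟮jqModC K⟯)[X] := (phiK N K).map (evalJK K)

theorem phiJ_monic : (phiJ K N).Monic := (phiK_monic N K).map _

theorem natDegree_phiJ : (phiJ K N).natDegree = dedekindPsi N :=
  ((phiK_monic N K).natDegree_map _).trans (natDegree_phiK N K)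

theorem aeval_phiJ : aeval (jqNModC K N) (phiJ K N) = 0 := by
  rw [phiJ, aeval_map_evalJK, ev2_phiK]

theorem isIntegral_jqNModC : IsIntegral K⟮jqModC K⟯ (jqNModC K N) :=
  ⟨phiJ K N, phiJ_monic K N, aeval_phiJ K N⟩

/-- `Φ_N` is the minimal polynomial of `jN` over `K(j)`. -/
theorem minpoly_jqNModC : minpoly K⟮jqModC K⟯ (jqNModC K N) = phiJ K N := by
  refine (minpoly.unique_of_degree_le_degree_minpoly _ _ (phiJ_monic K N) (aeval_phiJ K N) ?_).symm
  have hne := minpoly.ne_zero (isIntegral_jqNModC K N)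
  rw [degree_eq_natDegree (phiJ_monic K N).ne_zero, degree_eq_natDegree hne, Nat.cast_le,
    natDegree_phiJ]
  by_contra hlt
  exact hne (eq_zero_of_aeval_eq_zero K N (not_le.mp hlt) (minpoly.aeval _ _))

theorem natDegree_minpoly_jqNModC :
    (minpoly K⟮jqModC K⟯ (jqNModC K N)).natDegree = dedekindPsi N := by
  rw [minpoly_jqNModC, natDegree_phiJ]

theorem irreducible_phiJ : Irreducible (phiJ K N) := by
  rw [← minpoly_jqNModC]
  exact minpoly.irreducible (isIntegral_jqNModC K N)

theorem finrank_adjoin_jqNModC :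
    Module.finrank K⟮jqModC K⟯ ↥(IntermediateField.adjoin K⟮jqModC K⟯ {jqNModC K N})
      = dedekindPsi N := by
  rw [IntermediateField.adjoin.finrank (isIntegral_jqNModC K N), natDegree_minpoly_jqNModC]

theorem modularFunctionFieldC_eq_restrictScalars :
    modularFunctionFieldC K N
      = (IntermediateField.adjoin K⟮jqModC K⟯ {jqNModC K N}).restrictScalars K := by
  rw [adjoin_adjoin_left, modularFunctionFieldC, Set.singleton_union]

/-- Normal form of the elements of `K(j, jN)`. -/
theorem exists_eq_of_mem {x : LaurentSeries K} (hx : x ∈ modularFunctionFieldC K N) :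
    ∃ (a : K[X][X]) (b : K[X]), b ≠ 0 ∧ a.natDegree < dedekindPsi N ∧
      x * aeval (jqModC K) b = ev2 (jqModC K) (jqNModC K N) a := by
  rw [modularFunctionFieldC_eq_restrictScalars, IntermediateField.mem_restrictScalars,
    ← IntermediateField.mem_toSubalgebra,
    adjoin_simple_toSubalgebra_of_isAlgebraic (isIntegral_jqNModC K N).isAlgebraic,
    Algebra.adjoin_singleton_eq_range_aeval, AlgHom.mem_range] at hx
  obtain ⟨p, rfl⟩ := hx
  rw [← aeval_modByMonic_eq_self_of_root (aeval_phiJ K N)]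
  obtain ⟨a, b, hb, hda, hab⟩ := exists_mul_eq_map K (p %ₘ phiJ K N)
  refine ⟨a, b, hb, hda.trans_lt ?_, ?_⟩
  · rw [← natDegree_phiJ K N]
    refine natDegree_modByMonic_lt _ (phiJ_monic K N) fun e => ?_
    have := congrArg natDegree e
    rw [natDegree_phiJ, natDegree_one, ← card_hermiteSet] at this
    exact absurd this (Finset.card_pos.mpr ⟨_, top_mem_hermiteSet N⟩).ne'
  · rw [← aeval_map_evalJK, ← hab, map_mul, aeval_C, mul_comm]
    congr 1
    exact (coe_evalJK K b).symm

theorem ev2_mem (a : K[X][X]) :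
    ev2 (jqModC K) (jqNModC K N) a ∈ modularFunctionFieldC K N := by
  rw [ev2_eq_sum]
  exact sum_mem fun i _ => sum_mem fun k _ => mul_mem (IntermediateField.algebraMap_mem _ _)
    (mul_mem (pow_mem (jqModC_mem K N) k) (pow_mem (jqNModC_mem K N) i))

/-- Descent: a rational series lying in `K(j, jN)` lies in `ℚ(j, jN)`. -/
theorem mem_modularFunctionField_of_coeffEmb_mem {x : LaurentSeries ℚ}
    (hx : coeffEmb K x ∈ modularFunctionFieldC K N) : x ∈ modularFunctionField N := by
  obtain ⟨a, b, hb, hda, hab⟩ := exists_eq_of_mem K N hx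
  obtain ⟨k, hk⟩ : ∃ k, b.coeff k ≠ 0 := by
    by_contra h
    push Not at h
    exact hb (Polynomial.ext (by simpa using h))
  obtain ⟨s, hs⟩ : ∃ s : K →ₗ[ℚ] ℚ, s (b.coeff k) ≠ 0 := by
    by_contra h
    push Not at h
    exact hk ((Module.forall_dual_apply_eq_zero_iff ℚ _).mp h)
  set B := linXY s (C b) with hB
  set A := linXY s a with hA
  have hB0 : B ≠ 0 := fun h => hs (by
    have := coeff_linXY s (C b) 0 k
    rw [← hB, h] at this
    simpa using this.symm)
  have hBd : B.natDegree < dedekindPsi N :=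
    ((natDegree_linXY_le s _).trans (natDegree_C b).le).trans_lt ((Nat.zero_le _).trans_lt hda)
  have hval : ev2 jq (jqNModC ℚ N) B ≠ 0 := fun h =>
    hB0 (eq_zero_of_ev2_eq_zero N hBd (by rwa [jqModC_rat]))
  have hmul : x * ev2 jq (jqNModC ℚ N) B = ev2 jq (jqNModC ℚ N) A := by
    ext n
    rw [hA, coeff_ev2_linXY, ← hab]
    refine coeff_mul_of_lin K s x (fun m => ?_) n
    rw [hB, coeff_ev2_linXY, ev2_C]
  rw [← mul_div_cancel_right₀ x hval, hmul]
  exact div_mem (by simpa [modularFunctionFieldC_rat, jqModC_rat] using ev2_mem ℚ N A)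
    (by simpa [modularFunctionFieldC_rat, jqModC_rat] using ev2_mem ℚ N B)

end FLTAgent.ModPoly
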