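import Mathlib.RingTheory.Polynomial.Cyclotomic.Roots
import Mathlib.RingTheory.Polynomial.Cyclotomic.Eval
import Mathlib.RingTheory.AdjoinRoot
import Mathlib.Algebra.Field.ZMod
import Mathlib.RingTheory.PowerSeries.Expand
import Fermat.Agent.ModPoly.Rational

/-!
# The roots of `Φ_N` over any ring containing an `N`-th root of unity; Kronecker's congruence
-/

set_option autoImplicit false

noncomputable section

open Polynomial ModularCurve

namespace FLTAgent.ModPoly

section Eval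

variable (R : Type*) [CommRing R]

theorem algebraMap_eq_C (r : R) : algebraMap R (LaurentSeries R) r = HahnSeries.C r := by
  have h1 : algebraMap R (PowerSeries R) r = PowerSeries.C r := by simp
  rw [HahnSeries.algebraMap_apply', h1, HahnSeries.ofPowerSeries_C]

/-- `p ↦ p(x)` for a Laurent series `x`, as a ring map. -/
def evalL (x : LaurentSeries R) : R[X] →+* LaurentSeries R :=
  ((aeval x : R[X] →ₐ[R] LaurentSeries R) : R[X] →+* LaurentSeries R)

theorem coeffMap_comp_evalL {S : Type*} [CommRing S] (f : R →+* S) (x : LaurentSeries R) :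
    (coeffMap f).comp (evalL R x) = (evalL S (coeffMap f x)).comp (mapRingHom f) := by
  refine Polynomial.ringHom_ext (fun c => ?_) ?_
  · simp [evalL, algebraMap_eq_C, HahnSeries.C_apply]
  · simp [evalL]

end Eval

theorem coeffMap_jqConj {R S : Type*} [CommRing R] [CommRing S] (f : R →+* S) (ζ : Rˣ)
    (p : ℕ × ℕ) : coeffMap f (jqConj R ζ p) = jqConj S (Units.map (f : R →* S) ζ) p := by
  by_cases hp : p.1 = 0
  · simp [jqConj, hp]
  · haveI : NeZero (p.1 * p.1) := ⟨mul_ne_zero hp hp⟩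
    rw [jqConj_eq, jqConj_eq, coeffMap_qExpand, coeffMap_twist, coeffMap_jqModC', map_pow]

variable (N : ℕ) [NeZero N]

/-- `Φ_N(j(q), X)` in `q^(1/N)`. -/
def phiRoots (R : Type*) [CommRing R] : (LaurentSeries R)[X] :=
  (phiK N R).map (evalL R (qExpand R N (jqModC R)))

/-- `∏ (X - j(ζ^(ab) q^(a²/N)))`. -/
def conjProd (R : Type*) [CommRing R] (ζ : Rˣ) : (LaurentSeries R)[X] :=
  ∏ p : HIdx N, (X - C (jqConj R ζ p))

theorem map_phiRoots {R S : Type*} [CommRing R] [CommRing S] (f : R →+* S) :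
    (phiRoots N R).map (coeffMap f) = phiRoots N S := by
  rw [phiRoots, phiRoots, Polynomial.map_map, coeffMap_comp_evalL, coeffMap_qExpand,
    coeffMap_jqModC', ← Polynomial.map_map,
    show (phiK N R).map (mapRingHom f) = mapXY f (phiK N R) from rfl, mapXY_phiK]

theorem map_conjProd {R S : Type*} [CommRing R] [CommRing S] (f : R →+* S) (ζ : Rˣ) :
    (conjProd N R ζ).map (coeffMap f) = conjProd N S (Units.map (f : R →* S) ζ) := by
  simp only [conjProd, Polynomial.map_prod, Polynomial.map_sub, map_X, map_C, coeffMap_jqConj]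

theorem phiRoots_complex : phiRoots N ℂ = conjProd N ℂ (zetaC N) := by
  rw [phiRoots, phiK_complex]
  exact phiC_map N

theorem coeffMap_injective {R S : Type*} [CommRing R] [CommRing S] {f : R →+* S}
    (hf : Function.Injective f) : Function.Injective (coeffMap f) := fun x y h =>
  HahnSeries.ext (funext fun k => hf (congrArg (fun z : LaurentSeries S => z.coeff k) h))

/-- `ℤ[ζ_N]`. -/
abbrev ZZeta : Type := AdjoinRoot (cyclotomic N ℤ)

/-- The generator of `ℤ[ζ_N]`, a unit. -/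
def zetaA : (ZZeta N)ˣ :=
  Units.ofPowEqOne (AdjoinRoot.root (cyclotomic N ℤ)) N (by
    obtain ⟨q, hq⟩ := cyclotomic.dvd_X_pow_sub_one N ℤ
    have h := congrArg (AdjoinRoot.mk (cyclotomic N ℤ)) hq
    rw [map_sub, map_pow, AdjoinRoot.mk_X, map_one, map_mul, AdjoinRoot.mk_self, zero_mul,
      sub_eq_zero] at h
    exact h) (NeZero.ne N)

theorem eval₂_cyclotomic_zetaC :
    (cyclotomic N ℤ).eval₂ (Int.castRingHom ℂ) (zetaC N : ℂ) = 0 := by
  rw [← eval_map, map_cyclotomic]
  exact (Complex.isPrimitiveRoot_exp N (NeZero.ne N)).isRoot_cyclotomic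
    (Nat.pos_of_ne_zero (NeZero.ne N))

/-- `ℤ[ζ_N] → ℂ`. -/
def zetaEmb : ZZeta N →+* ℂ :=
  AdjoinRoot.lift (Int.castRingHom ℂ) (zetaC N : ℂ) (eval₂_cyclotomic_zetaC N)

theorem zetaEmb_injective : Function.Injective (zetaEmb N) := by
  rw [injective_iff_map_eq_zero]
  intro a
  induction a using AdjoinRoot.induction_on with
  | ih p =>
    intro h
    rw [zetaEmb, AdjoinRoot.lift_mk] at h
    rw [AdjoinRoot.mk_eq_zero, cyclotomic_eq_minpoly
      (Complex.isPrimitiveRoot_exp N (NeZero.ne N)) (Nat.pos_of_ne_zero (NeZero.ne N))]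
    exact minpoly.isIntegrallyClosed_dvd
      ((Complex.isPrimitiveRoot_exp N (NeZero.ne N)).isIntegral (Nat.pos_of_ne_zero (NeZero.ne N)))
      (by rw [aeval_def]; exact h)

theorem phiRoots_zetaA : phiRoots N (ZZeta N) = conjProd N (ZZeta N) (zetaA N) := by
  refine Polynomial.map_injective _ (coeffMap_injective (zetaEmb_injective N)) ?_
  rw [map_phiRoots, map_conjProd, phiRoots_complex]
  congr 1
  ext
  simp [zetaA, zetaEmb]

/-- **Roots of `Φ_N`**: over any ring with a root `ζ` of the `N`-th cyclotomic polynomial,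
`Φ_N(j(q^N), X) = ∏ (X - j(ζ^(ab) q^(a²)))`. -/
theorem phiRoots_eq_conjProd {R : Type*} [CommRing R] (ζ : Rˣ)
    (hζ : (cyclotomic N R).IsRoot (ζ : R)) : phiRoots N R = conjProd N R ζ := by
  have h0 : (cyclotomic N ℤ).eval₂ (Int.castRingHom R) (ζ : R) = 0 := by
    rw [← eval_map, map_cyclotomic]; exact hζ
  have h := congrArg (Polynomial.map (coeffMap (AdjoinRoot.lift (Int.castRingHom R) (ζ : R) h0)))
    (phiRoots_zetaA N)
  rw [map_phiRoots, map_conjProd] at h
  rw [h]
  congr 1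
  ext
  simp [zetaA]

/-- `Φ_N(j, jN) = 0` over every commutative ring. -/
theorem eval_phiRoots_jqN (R : Type*) [CommRing R] :
    ((phiK N R).map (evalL R (jqModC R))).eval (jqNModC R N) = 0 := by
  have hC : ((phiK N ℂ).map (evalL ℂ (jqModC ℂ))).eval (jqNModC ℂ N) = 0 := by
    rw [eval_map, evalL, ← ev2_apply]; exact ev2_phiK N ℂ
  have hnat : ∀ {A B : Type} [CommRing A] [CommRing B] (f : A →+* B),
      coeffMap f (((phiK N A).map (evalL A (jqModC A))).eval (jqNModC A N))
        = ((phiK N B).map (evalL B (jqModC B))).eval (jqNModC B N) := by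
    intro A B _ _ f
    rw [← Polynomial.eval_map_apply, Polynomial.map_map, coeffMap_comp_evalL, coeffMap_jqModC',
      coeffMap_jqNModC', ← Polynomial.map_map,
      show (phiK N A).map (mapRingHom f) = mapXY f (phiK N A) from rfl, mapXY_phiK]
  have hZ : ((phiK N ℤ).map (evalL ℤ (jqModC ℤ))).eval (jqNModC ℤ N) = 0 :=
    coeffMap_injective (f := Int.castRingHom ℂ) Int.cast_injective (by rw [hnat, hC, map_zero])
  rw [← coeffMap_jqModC' (Int.castRingHom R), ← coeffMap_jqNModC' (Int.castRingHom R) N,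
    ← mapXY_phiK N (Int.castRingHom R)]
  have := congrArg (coeffMap (Int.castRingHom R)) hZ
  rw [map_zero, ← Polynomial.eval_map_apply, Polynomial.map_map, coeffMap_comp_evalL,
    ← Polynomial.map_map] at this
  exact this

section Kronecker

variable (ℓ : ℕ) [Fact ℓ.Prime]

theorem qExpand_eq_pow_zmod (x : LaurentSeries (ZMod ℓ)) :
    haveI : NeZero ℓ := ⟨(Fact.out : ℓ.Prime).ne_zero⟩
    qExpand (ZMod ℓ) ℓ x = x ^ ℓ := by
  haveI : NeZero ℓ := ⟨(Fact.out : ℓ.Prime).ne_zero⟩
  have hps : ∀ u : PowerSeries (ZMod ℓ), PowerSeries.expand ℓ (NeZero.ne ℓ) u = u ^ ℓ := fun u => by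
    have := MvPowerSeries.map_frobenius_expand ℓ (NeZero.ne ℓ) (f := (u : MvPowerSeries Unit (ZMod ℓ)))
    rw [show frobenius (ZMod ℓ) ℓ = RingHom.id _ from ZMod.frobenius_zmod ℓ, MvPowerSeries.map_id]
      at this
    exact this
  conv_lhs => rw [← LaurentSeries.single_order_mul_powerSeriesPart x]
  conv_rhs => rw [← LaurentSeries.single_order_mul_powerSeriesPart x]
  rw [map_mul, mul_pow, qExpand_single, HahnSeries.single_pow, one_pow, qExpand_ofPowerSeries,
    hps, map_pow, nsmul_eq_mul]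

/-- **Kronecker's congruence**: `Φ_ℓ ≡ (X^ℓ - j)(X - j^ℓ) mod ℓ`. -/
theorem kronecker_congruence :
    haveI : NeZero ℓ := ⟨(Fact.out : ℓ.Prime).ne_zero⟩
    phiK ℓ (ZMod ℓ) = (X ^ ℓ - C X) * (X - C (X ^ ℓ)) := by
  classical
  have hℓ : ℓ.Prime := Fact.out
  haveI : NeZero ℓ := ⟨hℓ.ne_zero⟩
  have hroot : (cyclotomic ℓ (ZMod ℓ)).IsRoot ((1 : (ZMod ℓ)ˣ) : ZMod ℓ) := by
    rw [IsRoot, Units.val_one, eval_one_cyclotomic_prime, ZMod.natCast_self]
  set j := jqModC (ZMod ℓ)
  set J := qExpand (ZMod ℓ) ℓ j with hJ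
  have hprod : phiRoots ℓ (ZMod ℓ) = (X - C j) ^ ℓ * (X - C (J ^ ℓ)) := by
    rw [phiRoots_eq_conjProd ℓ 1 hroot, conjProd, ← Finset.mul_prod_erase _ _
      (Finset.mem_univ (topIdx ℓ)), mul_comm ((X - C j) ^ ℓ)]
    congr 1
    · rw [jqConj_topIdx, jqNModC, qExpand_eq_pow_zmod]
    · have hone : ∀ p ∈ (Finset.univ : Finset (HIdx ℓ)).erase (topIdx ℓ),
          (X - C (jqConj (ZMod ℓ) 1 p)) = X - C j := by
        intro p hp
        obtain ⟨hdvd, hb, -⟩ := mem_hermiteSet.mp p.2
        rcases hℓ.eq_one_or_self_of_dvd _ hdvd with h1 | h1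
        · haveI : NeZero ((p : ℕ × ℕ).1 * (p : ℕ × ℕ).1) := ⟨by rw [h1]; decide⟩
          rw [jqConj_eq, one_pow, twist_one_unit, qExpand_congr (by rw [h1] : _ = 1),
            qExpand_one_apply]
        · refine absurd (Subtype.ext (Prod.ext h1 ?_) : p = topIdx ℓ) (Finset.ne_of_mem_erase hp)
          rw [h1, Nat.div_self hℓ.pos] at hb
          simpa [topIdx] using hb
      rw [Finset.prod_congr rfl hone, Finset.prod_const]
      congr 1
      rw [Finset.card_erase_of_mem (Finset.mem_univ _), Finset.card_univ, card_hIdx]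
      simp [dedekindPsi, Finset.sum_filter, hℓ.sum_divisors, hℓ.squarefree, Nat.div_self hℓ.pos]
  haveI : CharP (LaurentSeries (ZMod ℓ)) ℓ :=
    charP_of_injective_ringHom (f := (HahnSeries.C : ZMod ℓ →+* LaurentSeries (ZMod ℓ)))
      HahnSeries.C_injective ℓ
  refine Polynomial.map_injective (evalL (ZMod ℓ) J) ?_ ?_
  · intro a b hab
    have e : ∀ c : (ZMod ℓ)[X], evalL (ZMod ℓ) J c = qExpand (ZMod ℓ) ℓ (aeval j c) := fun c =>
      (qExpand_aeval ℓ j c).symm
    rw [e, e] at hab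
    exact aeval_jqModC_injective (ZMod ℓ) (qExpand_injective ℓ hab)
  · rw [show (phiK ℓ (ZMod ℓ)).map (evalL (ZMod ℓ) J) = phiRoots ℓ (ZMod ℓ) from rfl, hprod,
      Polynomial.map_mul, Polynomial.map_sub, Polynomial.map_sub, Polynomial.map_pow, map_X, map_C,
      map_C, map_pow, show evalL (ZMod ℓ) J X = J from aeval_X J, sub_pow_char (p := ℓ), ← C_pow]
    congr 1
    · rw [hJ, qExpand_eq_pow_zmod]
    · rw [map_pow, show evalL (ZMod ℓ) J X = J from aeval_X J, ← C_pow]

end Kronecker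

end FLTAgent.ModPoly
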