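import Fermat.Agent.ModPoly.Dictionary
import Fermat.Prelude.Def_ModularCurve_ArithmeticGalois

/-!
# `j(dτ) ∈ ℚ(j, jN)` for `d ∣ N`
-/

set_option autoImplicit false

noncomputable section

open Polynomial ModularCurve IntermediateField

namespace FLTAgent.ModPoly

variable (N : ℕ) [NeZero N]

theorem qExpand_jq_mem {d : ℕ} [NeZero d] (hd : d ∣ N) :
    qExpand ℚ d jq ∈ modularFunctionField N := by
  refine mem_modularFunctionField_of_coeffEmb_mem ℂ N ?_
  rw [coeffEmb_qExpand_jq, jqNModC, ← qL_jMul hd]
  exact qL_mem _

/-- `FunctionFieldGeneration N` holds for every level. -/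
theorem functionFieldGeneration : FunctionFieldGeneration N := fun _ hd hne =>
  @qExpand_jq_mem N _ _ hne hd

theorem modularFunctionFieldFull_eq : modularFunctionFieldFull N = modularFunctionField N := by
  refine le_antisymm ?_ (modularFunctionField_le_full N)
  rw [modularFunctionFieldFull, adjoin_le_iff]
  rintro x ⟨d, hne, hd, rfl⟩
  exact @qExpand_jq_mem N _ _ hne hd

/-- Base change of the function field is generated by `j` and `jN`. -/
theorem laurentBaseChange_modularFunctionField_eq (L : Type*) [Field L] [Algebra ℚ L] :
    laurentBaseChange L (modularFunctionField N) = modularFunctionFieldC L N := by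
  refine le_antisymm ?_ ?_
  · rw [laurentBaseChange, adjoin_le_iff]
    rintro _ ⟨y, hy, rfl⟩
    induction hy using IntermediateField.adjoin_induction with
    | mem z hz =>
      rcases hz with rfl | rfl
      · rw [coeffEmb_jq]; exact jqModC_mem L N
      · rw [coeffEmb_qExpand_jq]; exact jqNModC_mem L N
    | algebraMap c =>
      rw [coeffEmb, algebraMap_laurentSeries_eq_single, coeffMap_single,
        ← algebraMap_laurentSeries_eq_single]
      exact IntermediateField.algebraMap_mem _ _
    | add a b _ _ ha hb => rw [map_add]; exact add_mem ha hb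
    | inv a _ ha => rw [map_inv₀]; exact inv_mem ha
    | mul a b _ _ ha hb => rw [map_mul]; exact mul_mem ha hb
  · rw [modularFunctionFieldC, adjoin_le_iff]
    rintro x (rfl | rfl)
    · rw [← coeffEmb_jq]; exact coeffEmb_mem_laurentBaseChange L (jq_mem N)
    · rw [← coeffEmb_qExpand_jq]; exact coeffEmb_mem_laurentBaseChange L (jqN_mem N)

/-- The base change of the full field is `L(j, jN)`. -/
theorem laurentBaseChange_full_eq (L : Type*) [Field L] [Algebra ℚ L] :
    laurentBaseChange L (modularFunctionFieldFull N) = modularFunctionFieldC L N := by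
  rw [modularFunctionFieldFull_eq, laurentBaseChange_modularFunctionField_eq]

theorem modularFunctionFieldBar_eq :
    modularFunctionFieldBar N = modularFunctionFieldC (AlgebraicClosure ℚ) N :=
  laurentBaseChange_full_eq N (AlgebraicClosure ℚ)

end FLTAgent.ModPoly
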