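import Mathlib.NumberTheory.ModularForms.QExpansion
import Mathlib.RingTheory.LaurentSeries
import Mathlib.RingTheory.PowerSeries.Expand
import Mathlib.Analysis.Analytic.Order
import Mathlib.Analysis.Analytic.IsolatedZeros
import Fermat.Prelude.Def_ModularCurve_X0
import Fermat.Prelude.Def_ModularCurve_LaurentCoeff

/-!
# Laurent expansions at `i∞`

`Expands h f x` says that on a neighbourhood of `i∞` the function `f` is `q ^ m * F q`,
with `q = exp (2πiτ/h)` and `F` analytic at `0`, and that `x` is the corresponding Laurent series.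
-/

set_option autoImplicit false

noncomputable section

open Filter Function Complex
open UpperHalfPlane hiding I
open scoped Real Topology Nat

namespace FLTAgent.ModPoly

local notation "𝕢" => Periodic.qParam

/-- Taylor series at `0`. -/
def taylorPS (F : ℂ → ℂ) : PowerSeries ℂ :=
  .mk fun m => (m ! : ℂ)⁻¹ * iteratedDeriv m F 0

theorem coeff_taylorPS (F : ℂ → ℂ) (m : ℕ) :
    (taylorPS F).coeff m = (m ! : ℂ)⁻¹ * iteratedDeriv m F 0 := by
  simp [taylorPS]

theorem taylorPS_congr {F G : ℂ → ℂ} (h : F =ᶠ[𝓝 0] G) : taylorPS F = taylorPS G := by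
  ext m
  rw [coeff_taylorPS, coeff_taylorPS, (h.iteratedDeriv m).eq_of_nhds]

theorem taylorPS_add {F G : ℂ → ℂ} (hF : AnalyticAt ℂ F 0) (hG : AnalyticAt ℂ G 0) :
    taylorPS (F + G) = taylorPS F + taylorPS G := by
  ext m
  simp [coeff_taylorPS, iteratedDeriv_add hF.contDiffAt hG.contDiffAt, mul_add]

theorem taylorPS_mul {F G : ℂ → ℂ} (hF : AnalyticAt ℂ F 0) (hG : AnalyticAt ℂ G 0) :
    taylorPS (F * G) = taylorPS F * taylorPS G := by
  ext m
  simp only [coeff_taylorPS, iteratedDeriv_mul hF.contDiffAt hG.contDiffAt, Finset.mul_sum,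
    PowerSeries.coeff_mul, Finset.Nat.sum_antidiagonal_eq_sum_range_succ_mk, Nat.succ_eq_add_one]
  refine Finset.sum_congr rfl fun i hi ↦ ?_
  rw [Nat.cast_choose _ (by grind)]
  field_simp [Nat.factorial_ne_zero]

theorem taylorPS_const (c : ℂ) : taylorPS (fun _ => c) = PowerSeries.C c := by
  ext m
  rw [coeff_taylorPS, PowerSeries.coeff_C, iteratedDeriv_const]
  rcases m with _ | m <;> simp

theorem taylorPS_id : taylorPS (fun q : ℂ => q) = PowerSeries.X := by
  ext m
  rw [coeff_taylorPS, PowerSeries.coeff_X]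
  rcases m with _ | _ | m
  · simp
  · simp
  · simp [iteratedDeriv_succ', iteratedDeriv_const]

theorem taylorPS_pow {F : ℂ → ℂ} (hF : AnalyticAt ℂ F 0) (n : ℕ) :
    taylorPS (F ^ n) = taylorPS F ^ n := by
  induction n with
  | zero => simpa [Pi.one_def] using taylorPS_const 1
  | succ n ih => rw [pow_succ, pow_succ, taylorPS_mul (hF.pow n) hF, ih]

theorem taylorPS_pow_id (n : ℕ) : taylorPS (fun q : ℂ => q ^ n) = PowerSeries.X ^ n := by
  rw [← taylorPS_id]
  exact taylorPS_pow (F := fun q : ℂ => q) (by fun_prop) n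

theorem eventually_hasSum_taylorPS {F : ℂ → ℂ} (hF : AnalyticAt ℂ F 0) :
    ∀ᶠ q in 𝓝 0, HasSum (fun n => (taylorPS F).coeff n * q ^ n) (F q) := by
  obtain ⟨r, hr, hd⟩ := Metric.eventually_nhds_iff_ball.mp hF.eventually_analyticAt
  filter_upwards [Metric.ball_mem_nhds (0 : ℂ) hr] with q hq
  have hd' : DifferentiableOn ℂ F (Metric.ball 0 r) :=
    fun z hz => (hd z hz).differentiableAt.differentiableWithinAt
  have h := Complex.hasSum_taylorSeries_on_ball hd' hq
  simp only [sub_zero, smul_eq_mul] at h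
  refine h.congr_fun fun n => ?_
  rw [coeff_taylorPS]
  ring

theorem eq_zero_of_taylorPS_eq_zero {F : ℂ → ℂ} (hF : AnalyticAt ℂ F 0) (h : taylorPS F = 0) :
    F =ᶠ[𝓝 0] 0 := by
  filter_upwards [eventually_hasSum_taylorPS hF] with q hq
  simpa [h] using hq.tsum_eq.symm

theorem hasFPowerSeriesAt_of_eventually_hasSum {F : ℂ → ℂ} {p : PowerSeries ℂ}
    (h : ∀ᶠ q in 𝓝 0, HasSum (fun n => p.coeff n * q ^ n) (F q)) :
    HasFPowerSeriesAt F (.ofScalars ℂ fun n => p.coeff n) 0 := by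
  rw [hasFPowerSeriesAt_iff]
  filter_upwards [h] with q hq
  simpa [mul_comm] using hq

theorem taylorPS_eq_of_eventually_hasSum {F : ℂ → ℂ} {p : PowerSeries ℂ}
    (h : ∀ᶠ q in 𝓝 0, HasSum (fun n => p.coeff n * q ^ n) (F q)) :
    AnalyticAt ℂ F 0 ∧ taylorPS F = p := by
  have h1 := hasFPowerSeriesAt_of_eventually_hasSum h
  refine ⟨⟨_, h1⟩, ?_⟩
  have h2 := hasFPowerSeriesAt_of_eventually_hasSum (eventually_hasSum_taylorPS ⟨_, h1⟩)
  ext n
  simpa using congr_arg (FormalMultilinearSeries.coeff · n) (h2.eq_formalMultilinearSeries h1)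

/-- A property of `q` near `0`, `q ≠ 0`, can be tested at `i∞`. -/
theorem eventually_nhdsNE_of_atImInfty {h : ℕ} (hh : h ≠ 0) {p : ℂ → Prop}
    (H : ∀ᶠ τ : ℍ in atImInfty, p (𝕢 h τ)) : ∀ᶠ q in 𝓝[≠] (0 : ℂ), p q := by
  have hpos : (0 : ℝ) < h := by exact_mod_cast Nat.pos_of_ne_zero hh
  obtain ⟨A, hA⟩ := (atImInfty_mem _).mp H
  have t := Periodic.invQParam_tendsto hpos
  rw [tendsto_comap_iff] at t
  filter_upwards [t.eventually_ge_atTop (max A 1), self_mem_nhdsWithin] with q hq hq0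
  simp only [comp_apply] at hq
  have hpos' : 0 < (Periodic.invQParam h q).im :=
    lt_of_lt_of_le one_pos ((le_max_right A 1).trans hq)
  have := hA ⟨_, hpos'⟩ (show A ≤ _ from (le_max_left A 1).trans hq)
  simpa [Periodic.qParam_right_inv hpos.ne' hq0] using this

theorem eventually_atImInfty_of_nhds {h : ℕ} (hh : h ≠ 0) {p : ℂ → Prop}
    (H : ∀ᶠ q in 𝓝 (0 : ℂ), p q) : ∀ᶠ τ : ℍ in atImInfty, p (𝕢 h τ) :=
  (qParam_tendsto_atImInfty (by exact_mod_cast Nat.pos_of_ne_zero hh)).eventually H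

/-- `f` has Laurent expansion `x` in `exp (2πiτ/h)` at `i∞`. -/
def Expands (h : ℕ) (f : ℍ → ℂ) (x : LaurentSeries ℂ) : Prop :=
  ∃ (m : ℤ) (F : ℂ → ℂ), AnalyticAt ℂ F 0 ∧
    x = HahnSeries.single m 1 * HahnSeries.ofPowerSeries ℤ ℂ (taylorPS F) ∧
    ∀ᶠ τ : ℍ in atImInfty, f τ = 𝕢 h τ ^ m * F (𝕢 h τ)

namespace Expands

variable {h : ℕ} {f g : ℍ → ℂ} {x y : LaurentSeries ℂ}

theorem congr_fun' (hf : Expands h f x) (e : f =ᶠ[atImInfty] g) : Expands h g x := by
  obtain ⟨m, F, hF, hx, hev⟩ := hf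
  exact ⟨m, F, hF, hx, by filter_upwards [hev, e] with τ h1 h2; rw [← h2, h1]⟩

theorem single_mul_taylorPS (j : ℤ) {k : ℕ} {F : ℂ → ℂ} (hF : AnalyticAt ℂ F 0) :
    HahnSeries.single (j + (k : ℤ)) (1 : ℂ) * HahnSeries.ofPowerSeries ℤ ℂ (taylorPS F)
      = HahnSeries.single j 1 *
          HahnSeries.ofPowerSeries ℤ ℂ (taylorPS ((fun q => q ^ k) * F)) := by
  rw [taylorPS_mul (by fun_prop) hF, taylorPS_pow_id, map_mul,
    HahnSeries.ofPowerSeries_X_pow, ← mul_assoc, HahnSeries.single_mul_single, one_mul]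

theorem shift (hf : Expands h f x) :
    ∃ m₀ : ℤ, ∀ j ≤ m₀, ∃ F : ℂ → ℂ, AnalyticAt ℂ F 0 ∧
      x = HahnSeries.single j 1 * HahnSeries.ofPowerSeries ℤ ℂ (taylorPS F) ∧
      ∀ᶠ τ : ℍ in atImInfty, f τ = 𝕢 h τ ^ j * F (𝕢 h τ) := by
  obtain ⟨m, F, hF, hx, hev⟩ := hf
  refine ⟨m, fun j hj => ?_⟩
  obtain ⟨k, rfl⟩ : ∃ k : ℕ, m = j + k := ⟨(m - j).toNat, by omega⟩
  refine ⟨_, (AnalyticAt.mul (by fun_prop) hF : AnalyticAt ℂ ((fun q => q ^ k) * F) 0),
    hx.trans (single_mul_taylorPS j hF), ?_⟩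
  filter_upwards [hev] with τ hτ
  rw [hτ, zpow_add₀ (Periodic.qParam_ne_zero _)]
  simp [mul_assoc]

/-- Two expansions can be brought to the same leading exponent. -/
theorem common (hf : Expands h f x) (hg : Expands h g y) :
    ∃ (j : ℤ) (F G : ℂ → ℂ), AnalyticAt ℂ F 0 ∧ AnalyticAt ℂ G 0 ∧
      x = HahnSeries.single j 1 * HahnSeries.ofPowerSeries ℤ ℂ (taylorPS F) ∧
      y = HahnSeries.single j 1 * HahnSeries.ofPowerSeries ℤ ℂ (taylorPS G) ∧
      ∀ᶠ τ : ℍ in atImInfty,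
        f τ = 𝕢 h τ ^ j * F (𝕢 h τ) ∧ g τ = 𝕢 h τ ^ j * G (𝕢 h τ) := by
  obtain ⟨m, hm⟩ := hf.shift
  obtain ⟨n, hn⟩ := hg.shift
  obtain ⟨F, hF, hx, hev⟩ := hm (min m n) (min_le_left _ _)
  obtain ⟨G, hG, hy, hev'⟩ := hn (min m n) (min_le_right _ _)
  exact ⟨_, F, G, hF, hG, hx, hy, hev.and hev'⟩

theorem unique [NeZero h] (hf : Expands h f x) (hf' : Expands h f y) : x = y := by
  obtain ⟨j, F, G, hF, hG, rfl, rfl, hev⟩ := hf.common hf'
  have h1 : ∀ᶠ τ : ℍ in atImInfty, F (𝕢 h τ) = G (𝕢 h τ) := by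
    filter_upwards [hev] with τ hτ
    exact mul_left_cancel₀ (zpow_ne_zero j (Periodic.qParam_ne_zero _)) (hτ.1.symm.trans hτ.2)
  have h2 : F =ᶠ[𝓝[≠] 0] G :=
    eventually_nhdsNE_of_atImInfty (p := fun q => F q = G q) (NeZero.ne h) h1
  rw [taylorPS_congr
    ((hF.continuousAt.eventuallyEq_nhds_iff_eventuallyEq_nhdsNE hG.continuousAt).mp h2)]

theorem add (hf : Expands h f x) (hg : Expands h g y) : Expands h (f + g) (x + y) := by
  obtain ⟨j, F, G, hF, hG, rfl, rfl, hev⟩ := hf.common hg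
  refine ⟨j, F + G, hF.add hG, by rw [taylorPS_add hF hG, map_add, mul_add], ?_⟩
  filter_upwards [hev] with τ hτ
  simp [hτ.1, hτ.2, mul_add]

theorem mul (hf : Expands h f x) (hg : Expands h g y) : Expands h (f * g) (x * y) := by
  obtain ⟨m, F, hF, rfl, h1⟩ := hf
  obtain ⟨n, G, hG, rfl, h2⟩ := hg
  refine ⟨m + n, F * G, hF.mul hG, ?_, ?_⟩
  · rw [taylorPS_mul hF hG, map_mul, mul_mul_mul_comm, HahnSeries.single_mul_single, one_mul]
  · filter_upwards [h1, h2] with τ a b
    simp [a, b, zpow_add₀ (Periodic.qParam_ne_zero _)]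
    ring

variable (h) in
theorem const (c : ℂ) : Expands h (fun _ => c) (HahnSeries.C c) :=
  ⟨0, fun _ => c, analyticAt_const, by simp [taylorPS_const, HahnSeries.C_apply],
    Eventually.of_forall fun _ => by simp⟩

variable (h) in
theorem zero : Expands h 0 0 := by simpa [Pi.zero_def] using const h 0

variable (h) in
theorem one : Expands h 1 1 := by simpa [Pi.one_def] using const h 1

theorem smul (c : ℂ) (hf : Expands h f x) : Expands h (c • f) (c • x) := by
  have := (const h c).mul hf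
  rwa [HahnSeries.C_mul_eq_smul, show (fun _ => c) * f = c • f from rfl] at this

theorem neg (hf : Expands h f x) : Expands h (-f) (-x) := by
  convert (const h (-1)).mul hf using 1
  · ext τ; simp
  · rw [map_neg, map_one]; exact (neg_one_mul x).symm

theorem sub (hf : Expands h f x) (hg : Expands h g y) : Expands h (f - g) (x - y) := by
  simpa [sub_eq_add_neg] using hf.add hg.neg

theorem pow (hf : Expands h f x) (n : ℕ) : Expands h (f ^ n) (x ^ n) := by
  induction n with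
  | zero => simpa using one h
  | succ n ih => simpa [pow_succ] using ih.mul hf

theorem sum {ι : Type*} (s : Finset ι) {F : ι → ℍ → ℂ} {X : ι → LaurentSeries ℂ}
    (hF : ∀ i ∈ s, Expands h (F i) (X i)) : Expands h (∑ i ∈ s, F i) (∑ i ∈ s, X i) := by
  classical
  induction s using Finset.induction_on with
  | empty => simpa using zero h
  | insert a s ha ih =>
    rw [Finset.sum_insert ha, Finset.sum_insert ha]
    exact (hF a (Finset.mem_insert_self a s)).add
      (ih fun i hi => hF i (Finset.mem_insert_of_mem hi))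

/-- A nonzero expansion inverts. -/
theorem inv [NeZero h] (hf : Expands h f x) (hx : x ≠ 0) : Expands h f⁻¹ x⁻¹ := by
  obtain ⟨m, F, hF, hxeq, hev⟩ := hf
  have hne : ¬ F =ᶠ[𝓝 0] 0 := fun e => hx (by
    rw [hxeq, taylorPS_congr e, show (0 : ℂ → ℂ) = fun _ => 0 from rfl, taylorPS_const]; simp)
  have hord : analyticOrderAt F 0 ≠ ⊤ := fun e => hne (analyticOrderAt_eq_top.mp e)
  obtain ⟨G, hG, hG0, hFG⟩ := hF.analyticOrderAt_ne_top.mp hord
  set k := analyticOrderNatAt F 0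
  have hFG' : F =ᶠ[𝓝 0] (fun q => q ^ k) * G := by
    filter_upwards [hFG] with q hq; simpa using hq
  have hi : AnalyticAt ℂ G⁻¹ 0 := hG.inv hG0
  refine ⟨-(m + k), G⁻¹, hi, ?_, ?_⟩
  · have hxG : x = HahnSeries.single (m + (k : ℤ)) 1 *
        HahnSeries.ofPowerSeries ℤ ℂ (taylorPS G) := by
      rw [hxeq, taylorPS_congr hFG', ← single_mul_taylorPS m hG]
    have hmul : G * G⁻¹ =ᶠ[𝓝 0] fun _ => 1 := by
      filter_upwards [hG.continuousAt.eventually_ne hG0] with q hq
      simp [mul_inv_cancel₀ hq]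
    refine inv_eq_of_mul_eq_one_right ?_
    rw [hxG, mul_mul_mul_comm, HahnSeries.single_mul_single, ← map_mul, ← taylorPS_mul hG hi,
      taylorPS_congr hmul, taylorPS_const]
    simp
  · filter_upwards [hev, eventually_atImInfty_of_nhds (NeZero.ne h) hFG] with τ h1 h2
    simp only [Pi.inv_apply, h1, h2, sub_zero, smul_eq_mul]
    rw [zpow_neg, zpow_add₀ (Periodic.qParam_ne_zero _), zpow_natCast]
    field_simp

theorem eq_zero_of_expands_zero [NeZero h] (hf : Expands h f 0) : f =ᶠ[atImInfty] 0 := by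
  obtain ⟨m, F, hF, hx, hev⟩ := hf
  have hF0 : taylorPS F = 0 := by
    rcases mul_eq_zero.mp hx.symm with h0 | h0
    · exact absurd h0 (HahnSeries.single_ne_zero one_ne_zero)
    · exact HahnSeries.ofPowerSeries_injective (by rw [h0, map_zero])
  filter_upwards [hev, eventually_atImInfty_of_nhds (NeZero.ne h)
    (eq_zero_of_taylorPS_eq_zero hF hF0)] with τ h1 h2
  simp [h1, h2]

end Expands

/-- The functions with a Laurent expansion in `exp (2πiτ/h)` at `i∞`. -/
def expRing (h : ℕ) : Subalgebra ℂ (ℍ → ℂ) where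
  carrier := {f | ∃ x, Expands h f x}
  mul_mem' := fun ⟨_, hf⟩ ⟨_, hg⟩ => ⟨_, hf.mul hg⟩
  add_mem' := fun ⟨_, hf⟩ ⟨_, hg⟩ => ⟨_, hf.add hg⟩
  algebraMap_mem' c := ⟨_, Expands.const h c⟩

theorem Expands.mem_expRing {h : ℕ} {f : ℍ → ℂ} {x : LaurentSeries ℂ} (hf : Expands h f x) :
    f ∈ expRing h :=
  ⟨x, hf⟩

/-- The Laurent expansion of an element of `expRing h`. -/
def expSeries {h : ℕ} (f : expRing h) : LaurentSeries ℂ :=
  f.2.choose

theorem expands_expSeries {h : ℕ} (f : expRing h) : Expands h (f : ℍ → ℂ) (expSeries f) :=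
  f.2.choose_spec

theorem Expands.expSeries_eq {h : ℕ} [NeZero h] {f : expRing h} {x : LaurentSeries ℂ}
    (hf : Expands h (f : ℍ → ℂ) x) : expSeries f = x :=
  (expands_expSeries f).unique hf

/-- Expansion, as an algebra map. -/
def qLaurentHom (h : ℕ) [NeZero h] : expRing h →ₐ[ℂ] LaurentSeries ℂ where
  toFun := expSeries
  map_one' := (Expands.one h : Expands h ((1 : expRing h) : ℍ → ℂ) 1).expSeries_eq
  map_mul' f g := ((expands_expSeries f).mul (expands_expSeries g)).expSeries_eq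
  map_zero' := (Expands.zero h : Expands h ((0 : expRing h) : ℍ → ℂ) 0).expSeries_eq
  map_add' f g := ((expands_expSeries f).add (expands_expSeries g)).expSeries_eq
  commutes' c := Expands.expSeries_eq (by
    rw [ModularCurve.algebraMap_laurentSeries_eq_single, ← HahnSeries.C_apply]
    exact Expands.const h c)

theorem qLaurentHom_apply {h : ℕ} [NeZero h] (f : expRing h) :
    qLaurentHom h f = expSeries f := rfl

end FLTAgent.ModPoly
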