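import Mathlib.Analysis.SpecialFunctions.Elliptic.Weierstrass
import Mathlib.Analysis.Normed.Module.Connected
import Mathlib.LinearAlgebra.Complex.FiniteDimensional

/-!
# The Eisenstein sums of a lattice determine the lattice
-/

set_option autoImplicit false

noncomputable section

open Filter Topology PeriodPair
open scoped PeriodPair

namespace FLTAgent.ModPoly

variable (L L' : PeriodPair)

theorem weierstrassPExcept_eventuallyEq (h : ∀ n, 3 ≤ n → L.G n = L'.G n) :
    ℘[L - (0 : ℂ)] =ᶠ[𝓝 0] ℘[L' - (0 : ℂ)] := by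
  have h1 := (L.analyticAt_weierstrassPExcept 0).hasFPowerSeriesAt
  have h2 := (L'.analyticAt_weierstrassPExcept 0).hasFPowerSeriesAt
  have he : ∀ n, iteratedDeriv n ℘[L - (0 : ℂ)] 0 = iteratedDeriv n ℘[L' - (0 : ℂ)] 0 := fun n => by
    rw [L.iteratedDeriv_weierstrassPExcept_self, L'.iteratedDeriv_weierstrassPExcept_self,
      L.sumInvPow_zero, L'.sumInvPow_zero]
    split_ifs with hn
    · rw [L.weierstrassPExcept_zero, L'.weierstrassPExcept_zero]
    · rw [h (n + 2) (by omega)]
  rw [show (fun n => iteratedDeriv n ℘[L - (0 : ℂ)] 0 / (Nat.factorial n : ℂ))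
    = fun n => iteratedDeriv n ℘[L' - (0 : ℂ)] 0 / (Nat.factorial n : ℂ) from
      funext fun n => by rw [he n]] at h1
  filter_upwards [(hasFPowerSeriesAt_iff.mp h1), (hasFPowerSeriesAt_iff.mp h2)] with z a b
  simpa using a.unique b

theorem weierstrassP_eq_except (z : ℂ) : ℘[L - (0 : ℂ)] z + 1 / z ^ 2 = ℘[L] z := by
  have := L.weierstrassPExcept_add ⟨0, zero_mem _⟩ z
  simpa using this

theorem countable_lattice : (L.lattice : Set ℂ).Countable := by
  haveI : Countable L.lattice := Countable.of_equiv _ L.latticeEquivProd.symm.toEquiv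
  exact Set.to_countable _

theorem weierstrassP_eqOn (h : ∀ n, 3 ≤ n → L.G n = L'.G n) :
    Set.EqOn ℘[L] ℘[L'] ((L.lattice : Set ℂ) ∪ L'.lattice)ᶜ := by
  set U : Set ℂ := ((L.lattice : Set ℂ) ∪ L'.lattice)ᶜ
  have hU : IsOpen U := (L.isClosed_lattice.union L'.isClosed_lattice).isOpen_compl
  have hcount : ((L.lattice : Set ℂ) ∪ L'.lattice).Countable :=
    (countable_lattice L).union (countable_lattice L')
  have hconn : IsPreconnected U :=
    (hcount.isPathConnected_compl_of_one_lt_rank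
      (by rw [Complex.rank_real_complex]; exact Nat.one_lt_ofNat)).isConnected.isPreconnected
  have hd1 : AnalyticOnNhd ℂ ℘[L] U :=
    L.analyticOnNhd_weierstrassP.mono (Set.compl_subset_compl.mpr Set.subset_union_left)
  have hd2 : AnalyticOnNhd ℂ ℘[L'] U :=
    L'.analyticOnNhd_weierstrassP.mono (Set.compl_subset_compl.mpr Set.subset_union_right)
  obtain ⟨r, hr, hball⟩ :=
    Metric.eventually_nhds_iff_ball.mp (weierstrassPExcept_eventuallyEq L L' h)
  obtain ⟨z₀, hz₀b, hz₀⟩ : (Metric.ball (0 : ℂ) r ∩ U).Nonempty :=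
    (hcount.dense_compl ℝ).inter_open_nonempty _ Metric.isOpen_ball
      ⟨0, Metric.mem_ball_self hr⟩
  refine hd1.eqOn_of_preconnected_of_eventuallyEq hd2 hconn hz₀ ?_
  filter_upwards [Metric.isOpen_ball.mem_nhds hz₀b] with z hz
  rw [← weierstrassP_eq_except, ← weierstrassP_eq_except, hball z hz]

theorem lattice_le_of_G_eq (h : ∀ n, 3 ≤ n → L.G n = L'.G n) : L.lattice ≤ L'.lattice := by
  intro l hl
  by_contra hl'
  have hev : ℘[L] =ᶠ[𝓝[≠] l] ℘[L'] := by
    filter_upwards [nhdsWithin_le_nhds (L.compl_lattice_sdiff_singleton_mem_nhds l),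
      nhdsWithin_le_nhds (L'.isClosed_lattice.isOpen_compl.mem_nhds hl'), self_mem_nhdsWithin]
      with z h1 h2 (h3 : z ≠ l)
    refine weierstrassP_eqOn L L' h ?_
    rintro (hz | hz)
    · exact h1 ⟨hz, h3⟩
    · exact h2 hz
  have h2 := meromorphicOrderAt_congr hev
  rw [L.order_weierstrassP l hl] at h2
  have h3 := (L'.analyticOnNhd_weierstrassP l hl').meromorphicOrderAt_nonneg
  rw [← h2] at h3
  exact absurd h3 (by decide)

/-- Equal Eisenstein sums force equal lattices. -/
theorem lattice_eq_of_G_eq (h : ∀ n, 3 ≤ n → L.G n = L'.G n) : L.lattice = L'.lattice :=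
  le_antisymm (lattice_le_of_G_eq L L' h) (lattice_le_of_G_eq L' L fun n hn => (h n hn).symm)

end FLTAgent.ModPoly
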