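import Fermat.Agent.Dim.LevelOneForms
import Fermat.Agent.ModPoly.J
import Fermat.Agent.ModPoly.LatticeOfG

/-!
# `j` separates `SL(2, ℤ)`-orbits
-/

set_option autoImplicit false

noncomputable section

open Filter Complex EisensteinSeries
open UpperHalfPlane hiding I
open scoped Real Topology MatrixGroups ModularForm

namespace FLTAgent.ModPoly

theorem linearIndependent_periods (z : ℍ) {c : ℂ} (hc : c ≠ 0) :
    LinearIndependent ℝ ![c * (z : ℂ), c] := by
  refine LinearIndependent.pair_iff.mpr fun s t h => ?_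
  have h1 : (s : ℂ) * (z : ℂ) + t = 0 := by
    have : c * ((s : ℂ) * (z : ℂ) + t) = 0 := by
      rw [← h]; simp only [Complex.real_smul]; ring
    exact (mul_eq_zero.mp this).resolve_left hc
  have him : s * z.im = 0 := by
    have := congrArg Complex.im h1
    simpa [Complex.mul_im] using this
  have hs : s = 0 := (mul_eq_zero.mp him).resolve_right z.im_ne_zero
  refine ⟨hs, ?_⟩
  subst hs
  simpa using h1

/-- The periods `(cz, c)`. -/
def periods (z : ℍ) (c : ℂ) (hc : c ≠ 0) : PeriodPair :=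
  ⟨c * (z : ℂ), c, linearIndependent_periods z hc⟩

theorem G_periods (z : ℍ) (c : ℂ) (hc : c ≠ 0) (n : ℕ) :
    (periods z c hc).G n = (c ^ n)⁻¹ * ∑' v : Fin 2 → ℤ, eisSummand n v z := by
  rw [PeriodPair.G, ← tsum_mul_left,
    ← ((periods z c hc).latticeEquivProd.toEquiv.trans (finTwoArrowEquiv ℤ).symm).symm.tsum_eq]
  refine tsum_congr fun v => ?_
  have : (((periods z c hc).latticeEquivProd.toEquiv.trans (finTwoArrowEquiv ℤ).symm).symm v : ℂ)
      = c * ((v 0 : ℂ) * (z : ℂ) + (v 1 : ℂ)) := by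
    change (((periods z c hc).latticeEquivProd.symm (v 0, v 1) : (periods z c hc).lattice) : ℂ) = _
    rw [PeriodPair.latticeEquiv_symm_apply]
    simp only [periods]
    ring
  rw [this, eisSummand, mul_pow, mul_inv, zpow_neg, zpow_natCast]

theorem tsum_eisSummand_eq_E {k : ℕ} (hk : 3 ≤ k) (z : ℍ) :
    ∑' v : Fin 2 → ℤ, eisSummand k v z = 2 * riemannZeta k * ModularForm.E hk z := by
  rw [tsum_eisSummand_eq_riemannZeta_mul_eisensteinSeries hk]
  have : ModularForm.E hk z = (1 / 2 : ℂ) * eisensteinSeries (N := 1) 0 k z := rfl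
  rw [this]
  ring

theorem sameJ_of_jFun_eq {z z₀ : ℍ} (h : jFun z = jFun z₀) : FLTAgent.Dim.SameJ z z₀ := by
  have hz := ModularForm.discriminant_ne_zero z
  have hz₀ := ModularForm.discriminant_ne_zero z₀
  simp only [jFun] at h
  rw [div_eq_div_iff hz hz₀] at h
  show FLTAgent.Dim.e4 z ^ 3 * FLTAgent.Dim.e6 z₀ ^ 2 = FLTAgent.Dim.e4 z₀ ^ 3 * FLTAgent.Dim.e6 z ^ 2
  rw [FLTAgent.Dim.disc_eq, FLTAgent.Dim.disc_eq] at h
  change FLTAgent.Dim.e4 z ^ 3 * _ = FLTAgent.Dim.e4 z₀ ^ 3 * _ at h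
  linear_combination (-1728 : ℂ) * h

/-- Equal `j` gives homothetic lattices. -/
theorem exists_lattice_eq {z z₀ : ℍ} (h : jFun z = jFun z₀) :
    ∃ (c : ℂ) (hc : c ≠ 0),
      (periods z 1 one_ne_zero).lattice = (periods z₀ c hc).lattice := by
  obtain ⟨μ, hμ, h4, h6⟩ := FLTAgent.Dim.exists_scale (sameJ_of_jFun_eq h)
  obtain ⟨c, hc2⟩ := IsAlgClosed.exists_pow_nat_eq μ⁻¹ (by norm_num : 0 < 2)
  have hc : c ≠ 0 := fun e => inv_ne_zero hμ (by rw [← hc2, e, zero_pow two_ne_zero])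
  refine ⟨c, hc, lattice_eq_of_G_eq _ _ fun n hn => ?_⟩
  rcases Nat.even_or_odd n with ⟨m, rfl⟩ | hodd
  · rw [G_periods, G_periods, tsum_eisSummand_eq_E hn, tsum_eisSummand_eq_E hn, one_pow, inv_one,
      one_mul]
    have hf : FLTAgent.Dim.IsMF ⊤ (2 * (m : ℤ)) (ModularForm.E hn : ℍ → ℂ) :=
      (FLTAgent.Dim.isMF_of_modularForm_one (ModularForm.E hn)).cast (by push_cast; ring)
    rw [FLTAgent.Dim.eval_of_scale h4 h6 hf,
      show c ^ (m + m) = (c ^ 2) ^ m by rw [← pow_mul, two_mul], hc2, inv_pow, inv_inv]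
    ring
  · rw [PeriodPair.G_eq_zero_of_odd _ _ hodd, PeriodPair.G_eq_zero_of_odd _ _ hodd]

theorem exists_coeff_of_mem {z : ℍ} {c : ℂ} {hc : c ≠ 0} {x : ℂ}
    (hx : x ∈ (periods z c hc).lattice) : ∃ a b : ℤ, x = c * ((a : ℂ) * (z : ℂ) + b) := by
  obtain ⟨a, b, hab⟩ := PeriodPair.mem_lattice.mp hx
  refine ⟨a, b, ?_⟩
  rw [← hab]
  simp only [periods]
  ring

theorem int_eq_zero_of_lin (z : ℍ) {a b : ℤ} (h : (a : ℂ) * (z : ℂ) + b = 0) : a = 0 ∧ b = 0 := by
  have him : (a : ℝ) * z.im = 0 := by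
    have := congrArg Complex.im h
    simpa [Complex.mul_im] using this
  have ha : a = 0 := by exact_mod_cast (mul_eq_zero.mp him).resolve_right z.im_ne_zero
  subst ha
  exact ⟨rfl, by simpa using h⟩

/-- `j(z) = j(z₀)` exactly when `z`, `z₀` are in the same orbit. -/
theorem jFun_eq_iff {z z₀ : ℍ} : jFun z = jFun z₀ ↔ ∃ γ : SL(2, ℤ), z = γ • z₀ := by
  refine ⟨fun h => ?_, fun ⟨γ, hγ⟩ => by rw [hγ, jFun_smul]⟩
  obtain ⟨c, hc, hL⟩ := exists_lattice_eq h
  have h1 : (z : ℂ) ∈ (periods z 1 one_ne_zero).lattice := by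
    simpa [periods] using (periods z 1 one_ne_zero).ω₁_mem_lattice
  have h2 : (1 : ℂ) ∈ (periods z 1 one_ne_zero).lattice := (periods z 1 one_ne_zero).ω₂_mem_lattice
  have h3 : c * (z₀ : ℂ) ∈ (periods z₀ c hc).lattice := (periods z₀ c hc).ω₁_mem_lattice
  have h4 : c ∈ (periods z₀ c hc).lattice := (periods z₀ c hc).ω₂_mem_lattice
  rw [hL] at h1 h2
  rw [← hL] at h3 h4
  obtain ⟨a, b, hab⟩ := exists_coeff_of_mem h1
  obtain ⟨u, v, huv⟩ := exists_coeff_of_mem h2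
  obtain ⟨p, q, hpq⟩ := exists_coeff_of_mem h3
  obtain ⟨r, s, hrs⟩ := exists_coeff_of_mem h4
  rw [one_mul] at hpq hrs
  have e1 : ((p * a + q * u - 1 : ℤ) : ℂ) * (z₀ : ℂ) + ((p * b + q * v : ℤ) : ℂ) = 0 := by
    apply mul_left_cancel₀ hc
    push_cast
    linear_combination (-(p : ℂ)) * hab - (q : ℂ) * huv - hpq
  have e2 : ((r * a + s * u : ℤ) : ℂ) * (z₀ : ℂ) + ((r * b + s * v - 1 : ℤ) : ℂ) = 0 := by
    apply mul_left_cancel₀ hc
    push_cast
    linear_combination (-(r : ℂ)) * hab - (s : ℂ) * huv - hrs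
  obtain ⟨f1, f2⟩ := int_eq_zero_of_lin z₀ e1
  obtain ⟨f3, f4⟩ := int_eq_zero_of_lin z₀ e2
  have hdet : (p * s - q * r) * (a * v - b * u) = 1 := by
    linear_combination (r * b + s * v) * f1 + f4 - (r * a + s * u) * f2
  have hz : (z : ℂ) * ((u : ℂ) * (z₀ : ℂ) + v) = (a : ℂ) * (z₀ : ℂ) + b := by
    apply mul_left_cancel₀ hc
    linear_combination hab - (z : ℂ) * huv
  have hne : (u : ℂ) * (z₀ : ℂ) + v ≠ 0 := fun e => by
    rw [e, mul_zero] at huv
    exact one_ne_zero huv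
  have him : z.im * Complex.normSq ((u : ℂ) * (z₀ : ℂ) + v) = (a * v - b * u : ℤ) * z₀.im := by
    have e := congrArg (fun w => (w * (starRingEnd ℂ) ((u : ℂ) * (z₀ : ℂ) + v)).im) hz
    simp only [mul_assoc, Complex.mul_conj] at e
    simp [Complex.mul_im] at e
    push_cast
    linarith
  have hpos : 0 < a * v - b * u := by
    have : (0 : ℝ) < ((a * v - b * u : ℤ) : ℝ) * z₀.im := by
      rw [← him]; exact mul_pos z.im_pos (Complex.normSq_pos.mpr hne)
    exact_mod_cast pos_of_mul_pos_left this z₀.im_pos.le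
  have hone : a * v - b * u = 1 :=
    (Int.eq_one_or_neg_one_of_mul_eq_one ((mul_comm _ _).trans hdet)).resolve_right (by omega)
  let γ : SL(2, ℤ) := ⟨!![a, b; u, v], by rw [Matrix.det_fin_two_of]; exact hone⟩
  refine ⟨γ, UpperHalfPlane.ext ?_⟩
  rw [coe_specialLinearGroup_apply]
  simpa [γ, eq_div_iff hne] using hz

end FLTAgent.ModPoly
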