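import Mathlib.Algebra.Polynomial.Derivative
import Fermat.Agent.ModPoly.Field

/-!
# Dictionary: modular functions lie in `ℂ(j, jN)`
-/

set_option autoImplicit false

noncomputable section

open Filter Function Complex CongruenceSubgroup Polynomial
open UpperHalfPlane hiding I
open scoped Real Topology MatrixGroups ModularForm Manifold

namespace FLTAgent.ModPoly

variable {N : ℕ} [NeZero N]

/-- `g ∘ γ_p` as an element of `holExp N`. -/
def conjFun (g : modFunRing N) (p : HIdx N) : holExp N :=
  ⟨fun τ => (g : ℍ → ℂ) (gammaIdx p • τ), mdifferentiable_comp_smul g.2.1 _, g.2.2.2 _⟩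

theorem conjFun_smul (g : modFunRing N) (γ : SL(2, ℤ)) (p : HIdx N) (τ : ℍ) :
    (conjFun g p : ℍ → ℂ) (γ • τ) = (conjFun g (permIdx γ p) : ℍ → ℂ) τ := by
  have h := smul_eq_of_mem g.2 (gammaIdx_mul_mul_inv_mem γ p) (gammaIdx (permIdx γ p) • τ)
  rw [mul_smul, mul_smul, inv_smul_smul] at h
  exact h

/-- The interpolation polynomial `∑ g_p ∏_{k ≠ p} (X - J_k)`. -/
def interp (g : modFunRing N) : (holExp N)[X] :=
  ∑ p : HIdx N, C (conjFun g p) * ∏ k ∈ Finset.univ.erase p, (X - C (jHol N k))

theorem interp_coeff_smul (g : modFunRing N) (i : ℕ) (γ : SL(2, ℤ)) (τ : ℍ) :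
    ((interp g).coeff i : ℍ → ℂ) (γ • τ) = ((interp g).coeff i : ℍ → ℂ) τ := by
  have h : (interp g).map ((compHom γ).comp (holExp N).val.toRingHom)
      = (interp g).map (holExp N).val.toRingHom := by
    rw [interp, Polynomial.map_sum, Polynomial.map_sum]
    refine Fintype.sum_bijective _ (permIdx_bijective γ) _ _ fun p => ?_
    rw [Polynomial.map_mul, Polynomial.map_mul, map_C, map_C, Polynomial.map_prod,
      Polynomial.map_prod]
    refine congrArg₂ (· * ·) ?_ ?_
    · exact congrArg C (funext fun σ => conjFun_smul g γ p σ)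
    · refine Finset.prod_bij (fun k _ => permIdx γ k) (fun k hk => ?_)
        (fun k _ l _ h => permIdx_injective γ h) (fun k hk => ?_) (fun k _ => ?_)
      · simpa [(permIdx_injective γ).eq_iff] using hk
      · obtain ⟨l, rfl⟩ := (permIdx_bijective γ).2 k
        exact ⟨l, by simpa [(permIdx_injective γ).eq_iff] using hk, rfl⟩
      · rw [Polynomial.map_sub, Polynomial.map_sub, map_X, map_X, map_C, map_C]
        exact congrArg (fun f => X - C f) (funext fun σ => jConj_smul γ k σ)
  have h2 := congr_fun (congrArg (fun P : (ℍ → ℂ)[X] => P.coeff i) h) τ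
  simp only [coeff_map] at h2
  exact h2

theorem natDegree_interp_lt (g : modFunRing N) :
    (interp g).natDegree < ModularCurve.dedekindPsi N := by
  have hpos : 0 < ModularCurve.dedekindPsi N := by
    rw [← card_hermiteSet]; exact Finset.card_pos.mpr ⟨_, top_mem_hermiteSet N⟩
  refine lt_of_le_of_lt (natDegree_sum_le_of_forall_le
    (n := ModularCurve.dedekindPsi N - 1) _ _ fun p _ => ?_) (Nat.sub_lt hpos one_pos)
  refine (natDegree_C_mul_le _ _).trans ?_
  refine (natDegree_prod_le _ _).trans ?_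
  refine (Finset.sum_le_card_nsmul _ _ 1 fun k _ => natDegree_X_sub_C_le _).trans ?_
  rw [Finset.card_erase_of_mem (Finset.mem_univ p), Finset.card_univ, card_hIdx, smul_eq_mul,
    mul_one]

theorem exists_coeff_interp_eq (g : modFunRing N) (i : ℕ) : ∃ P : ℂ[X],
    aeval (ModularCurve.qExpand ℂ N (ModularCurve.jqModC ℂ)) P
      = holExpHom N ((interp g).coeff i) := by
  obtain ⟨P, -, hP⟩ := exists_polynomial_of_invariant N ⊤ ((interp g).coeff i).2
    (interp_coeff_smul g i) (fun _ => Subring.mem_top _)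
  refine ⟨P, ?_⟩
  have h1 := (expands_evalJFun P).width_mul (k := N)
  rw [one_mul, ← hP, qExpand_aeval] at h1
  exact h1.unique (expands_holExpHom N _)

/-- The interpolation polynomial with coefficients in `ℂ[j]`. -/
def interpC (g : modFunRing N) : ℂ[X][X] :=
  ∑ i ∈ Finset.range (ModularCurve.dedekindPsi N),
    monomial i (exists_coeff_interp_eq g i).choose

theorem natDegree_interpC_lt (g : modFunRing N) :
    (interpC g).natDegree < ModularCurve.dedekindPsi N := by
  have hpos : 0 < ModularCurve.dedekindPsi N := (Nat.zero_le _).trans_lt (natDegree_interp_lt g)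
  refine lt_of_le_of_lt (natDegree_sum_le_of_forall_le (n := ModularCurve.dedekindPsi N - 1) _ _
    fun i hi => (natDegree_monomial_le _).trans (Nat.le_sub_one_of_lt (Finset.mem_range.mp hi)))
    (Nat.sub_lt hpos one_pos)

theorem interpC_map (g : modFunRing N) :
    (interpC g).map ((aeval (ModularCurve.qExpand ℂ N (ModularCurve.jqModC ℂ)) :
      ℂ[X] →ₐ[ℂ] LaurentSeries ℂ) : ℂ[X] →+* LaurentSeries ℂ)
      = (interp g).map (holExpHom N : holExp N →+* LaurentSeries ℂ) := by
  ext1 i
  simp only [coeff_map, interpC, finsetSum_coeff, coeff_monomial, Finset.sum_ite_eq',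
    Finset.mem_range]
  split_ifs with h
  · exact (exists_coeff_interp_eq g i).choose_spec
  · rw [map_zero, coeff_eq_zero_of_natDegree_lt
      ((natDegree_interp_lt g).trans_le (not_lt.mp h)), map_zero]

theorem holExpHom_conjFun_topIdx (g : modFunRing N) :
    holExpHom N (conjFun g (topIdx N)) = ModularCurve.qExpand ℂ N (qL N g) := by
  have h := (expands_qL g).width_mul (k := N)
  rw [one_mul] at h
  refine (expands_holExpHom N _).unique (h.congr_fun' (Eventually.of_forall fun τ => ?_))
  exact (smul_eq_of_mem g.2 gammaIdx_topIdx_mem τ).symm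

/-- **Dictionary.** `g Φ'(jN) = P(j, jN)` with `deg_X P < ψ(N)`. -/
theorem exists_qL_mul_derivative_eq (g : modFunRing N) :
    ∃ P : ℂ[X][X], P.natDegree < ModularCurve.dedekindPsi N ∧
      qL N g * ev2 (ModularCurve.jqModC ℂ) (ModularCurve.jqNModC ℂ N) (derivative (phiK N ℂ))
        = ev2 (ModularCurve.jqModC ℂ) (ModularCurve.jqNModC ℂ N) P := by
  refine ⟨interpC g, natDegree_interpC_lt g, ModularCurve.qExpand_injective N (R := ℂ) ?_⟩
  set R : (LaurentSeries ℂ)[X] :=
    ∏ k ∈ (Finset.univ : Finset (HIdx N)).erase (topIdx N), (X - C (jqConj ℂ (zetaC N) k))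
  rw [map_mul, qExpand_ev2, qExpand_ev2, ← jqConj_topIdx N (zetaC N), ev2_eq_eval_map,
    ev2_eq_eval_map, ← derivative_map, phiK_complex, phiC_map, interpC_map]
  have hphi : phiExp N = (X - C (jqConj ℂ (zetaC N) (topIdx N))) * R :=
    (Finset.mul_prod_erase _ _ (Finset.mem_univ _)).symm
  rw [hphi, derivative_mul, eval_add, eval_mul, eval_mul, derivative_X_sub_C, eval_one, one_mul,
    eval_sub, eval_X, eval_C, sub_self, zero_mul, add_zero, interp, Polynomial.map_sum,
    eval_finsetSum, Finset.sum_eq_single (topIdx N)]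
  · rw [Polynomial.map_mul, map_C, eval_mul, eval_C, RingHom.coe_coe, holExpHom_conjFun_topIdx]
    congr 1
    rw [Polynomial.map_prod]
    congr 1
    refine Finset.prod_congr rfl fun k _ => ?_
    rw [Polynomial.map_sub, map_X, map_C, RingHom.coe_coe, holExpHom_jHol]
  · intro p _ hp
    rw [Polynomial.map_mul, Polynomial.map_prod, eval_mul, eval_prod,
      Finset.prod_eq_zero (i := topIdx N) (by simpa using Ne.symm hp), mul_zero]
    rw [Polynomial.map_sub, map_X, map_C, RingHom.coe_coe, holExpHom_jHol, eval_sub, eval_X,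
      eval_C, sub_self]
  · simp

theorem ev2_derivative_phiK_ne_zero (K : Type*) [Field K] [Algebra ℚ K] :
    ev2 (ModularCurve.jqModC K) (ModularCurve.jqNModC K N) (derivative (phiK N K)) ≠ 0 := by
  haveI : CharZero K := charZero_of_injective_algebraMap (algebraMap ℚ K).injective
  have hpos : 0 < ModularCurve.dedekindPsi N := by
    rw [← card_hermiteSet]; exact Finset.card_pos.mpr ⟨_, top_mem_hermiteSet N⟩
  intro h
  have hd : (derivative (phiK N K)).natDegree < ModularCurve.dedekindPsi N := by
    have := natDegree_derivative_lt (p := phiK N K) (by rw [natDegree_phiK]; omega)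
    rwa [natDegree_phiK] at this
  have h0 := congrArg (fun P : K[X][X] => P.coeff (ModularCurve.dedekindPsi N - 1))
    (eq_zero_of_ev2_eq_zero N hd h)
  simp only [coeff_derivative, coeff_zero] at h0
  rw [show ModularCurve.dedekindPsi N - 1 + 1 = (phiK N K).natDegree by
    rw [natDegree_phiK]; omega, (phiK_monic N K).coeff_natDegree, one_mul] at h0
  exact absurd h0 (Nat.cast_add_one_ne_zero _)

/-- Modular functions have expansion in `ℂ(j, jN)`. -/
theorem qL_mem (g : modFunRing N) : qL N g ∈ ModularCurve.modularFunctionFieldC ℂ N := by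
  obtain ⟨P, -, hP⟩ := exists_qL_mul_derivative_eq g
  rw [← mul_div_cancel_right₀ (qL N g) (ev2_derivative_phiK_ne_zero (N := N) ℂ), hP]
  exact div_mem (ev2_mem ℂ N P) (ev2_mem ℂ N _)

/-- Every element of `ℂ(j, jN)` is a quotient of modular functions, with denominator in `ℂ[j]`. -/
theorem exists_qL_div {x : LaurentSeries ℂ} (hx : x ∈ ModularCurve.modularFunctionFieldC ℂ N) :
    ∃ (a : modFunRing N) (b : ℂ[X]), b ≠ 0 ∧
      x * aeval (ModularCurve.jqModC ℂ) b = qL N a := by
  obtain ⟨A, b, hb, -, hab⟩ := exists_eq_of_mem ℂ N hx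
  refine ⟨ev2 (⟨jFun, jFun_mem⟩ : modFunRing N) ⟨jMul N, jMul_mem dvd_rfl⟩ A, b, hb, ?_⟩
  rw [hab, map_ev2, qL_jFun, qL_jMul dvd_rfl]
  rfl

end FLTAgent.ModPoly
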